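import Mathlib
import Fermat.Agent.S22.Basic

/-!
# S20 (dimension of `S₂(Γ₀(N))`): interface

Route: `⨁ₖ Mₖ(Γ₀(N))` is a free graded module over the level one forms `ℂ[E₄, E₆]`.
Everything is phrased for functions `ℍ → ℂ` with the predicates `IsMF`, `IsCF` of
`Fermat.Agent.S22`.  Nothing is proved in this file: every package proves the statement
bearing its name in its own file (one file = one owner).

Conventions
* `X N = SL(2,ℤ) ⧸ Γ₀(N)`: LEFT cosets `g Γ₀(N)`, Mathlib's left multiplication action.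
* translates: `tr N k f (g Γ₀(N)) = f ∣[k] g⁻¹`, so `(tr N k f x) ∣[k] g = tr N k f (g⁻¹ • x)`.
* `vec N k f z : X N → ℂ` is the vector of the values of all translates at `z`.
* a free basis has an ARBITRARY index type (finiteness is a consequence of (LOC)).
-/

set_option autoImplicit false

noncomputable section

namespace Fermat.Agent.S20

open UpperHalfPlane CongruenceSubgroup Matrix.SpecialLinearGroup
open scoped MatrixGroups ModularForm Manifold
open Fermat.Agent.S22 (IsMF IsCF G0 G1)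

/-- The coset space `SL(2,ℤ) ⧸ Γ₀(N)` (left cosets, Mathlib's left action of `SL(2,ℤ)`). -/
abbrev X (N : ℕ) : Type := SL(2, ℤ) ⧸ Gamma0 N

/-- The translate of `f` attached to the coset `x = g Γ₀(N)`: `f ∣[k] g⁻¹`
(independent of the representative when `f` is `Γ₀(N)`-invariant). -/
def tr (N : ℕ) (k : ℤ) (f : ℍ → ℂ) (x : X N) : ℍ → ℂ :=
  f ∣[k] ((Quotient.out x : SL(2, ℤ))⁻¹)

/-- The vector of the values at `z` of all translates of `f`. -/
def vec (N : ℕ) (k : ℤ) (f : ℍ → ℂ) (z : ℍ) : X N → ℂ := fun x => tr N k f x z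

/-- Number of orbits of the cyclic group generated by `g` on `X N`
(`= Fermat.Agent.S24.orbitCount (XN N) g`, by `rfl`). -/
def orbits (N : ℕ) (g : SL(2, ℤ)) : ℕ :=
  Nat.card (MulAction.orbitRel.Quotient (Subgroup.zpowers g) (X N))

/-! ### (L1) level one -/

/-- (L1a) a level one form of weight `≠ 0` lies in the ideal `(E₄, E₆)`. -/
def LevelOneDecompStatement : Prop :=
  ∀ (k : ℤ) (f : ℍ → ℂ), IsMF G1 k f → k ≠ 0 →
    ∃ a b : ℍ → ℂ, IsMF G1 (k - 4) a ∧ IsMF G1 (k - 6) b ∧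
      f = (ModularForm.E₄ : ℍ → ℂ) * a + (ModularForm.E₆ : ℍ → ℂ) * b

/-- (L1b) weighted homogeneity: the value of a level one form of weight `2 j` at `z₁` is
determined by its value at `z₀` as soon as `(E₄, E₆)(z₁) = (μ² E₄, μ³ E₆)(z₀)`. -/
def LevelOneScalingStatement : Prop :=
  ∀ (j : ℕ) (f : ℍ → ℂ), IsMF G1 (2 * (j : ℤ)) f → ∀ (z₀ z₁ : ℍ) (μ : ℂ),
    ModularForm.E₄ z₁ = μ ^ 2 * ModularForm.E₄ z₀ →
    ModularForm.E₆ z₁ = μ ^ 3 * ModularForm.E₆ z₀ → f z₁ = μ ^ j * f z₀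

/-- (L1c) a level one form vanishing at `i∞` is divisible by `Δ`. -/
def LevelOneCuspStatement : Prop :=
  ∀ (k : ℤ) (g : ℍ → ℂ), IsMF G1 k g → IsZeroAtImInfty g →
    ∃ g' : ℍ → ℂ, IsMF G1 (k - 12) g' ∧ g = (ModularForm.discriminant : ℍ → ℂ) * g'

/-! ### (L2) division by a level one form with simple zeros -/

/-- `π` divides every holomorphic function vanishing on its zero set
(i.e. `π` has only simple zeros). -/
def DivStatement (π : ℍ → ℂ) : Prop :=
  ∀ f : ℍ → ℂ, MDiff f → (∀ z, π z = 0 → f z = 0) → ∃ g : ℍ → ℂ, MDiff g ∧ f = π * g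

/-- (L2) `E₄`, `E₆` and the forms `E₄(z₀)³ E₆² - E₆(z₀)² E₄³` (`E₄ E₆ (z₀) ≠ 0`) have only
simple zeros. -/
def SimpleZerosStatement : Prop :=
  DivStatement (ModularForm.E₄ : ℍ → ℂ) ∧ DivStatement (ModularForm.E₆ : ℍ → ℂ) ∧
    ∀ z₀ : ℍ, ModularForm.E₄ z₀ ≠ 0 → ModularForm.E₆ z₀ ≠ 0 →
      DivStatement (fun z => ModularForm.E₄ z₀ ^ 3 * ModularForm.E₆ z ^ 2
        - ModularForm.E₆ z₀ ^ 2 * ModularForm.E₄ z ^ 3)

/-! ### (CONJ) translates -/

/-- (CONJ, criterion) a holomorphic `Γ₀(N)`-invariant function all of whose `SL(2,ℤ)`-translates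
are bounded at `i∞` is a modular form. -/
def IsMFCriterionStatement (N : ℕ) : Prop :=
  ∀ (k : ℤ) (f : ℍ → ℂ), MDiff f → (∀ γ ∈ Gamma0 N, f ∣[k] γ = f) →
    (∀ g : SL(2, ℤ), IsBoundedAtImInfty (f ∣[k] g)) → IsMF (G0 N) k f

/-- (CONJ, trace) the sum of the translates of a form is a level one form. -/
def TraceStatement (N : ℕ) : Prop :=
  ∀ [Fintype (X N)] (k : ℤ) (f : ℍ → ℂ), IsMF (G0 N) k f →
    IsMF G1 k (fun z => ∑ x : X N, tr N k f x z)

/-! ### (FREE) -/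

/-- A free homogeneous basis of `⨁ₖ Mₖ(Γ₀(N))` over the level one forms. -/
structure FreeBasis (N : ℕ) {ι : Type} (w : ι → ℤ) (F : ι → ℍ → ℂ) : Prop where
  isMF : ∀ i, IsMF (G0 N) (w i) (F i)
  span : ∀ (k : ℤ) (f : ℍ → ℂ), IsMF (G0 N) k f →
    ∃ (s : Finset ι) (h : ι → ℍ → ℂ), (∀ i, IsMF G1 (k - w i) (h i)) ∧ f = ∑ i ∈ s, h i * F i
  indep : ∀ (k : ℤ) (s : Finset ι) (h : ι → ℍ → ℂ), (∀ i ∈ s, IsMF G1 (k - w i) (h i)) →
    ∑ i ∈ s, h i * F i = 0 → ∀ i ∈ s, h i = 0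

/-- (FREE) existence of a free homogeneous basis. -/
def FreeStatement (N : ℕ) : Prop :=
  ∃ (ι : Type) (w : ι → ℤ) (F : ι → ℍ → ℂ), FreeBasis N w F

/-! ### (KEY) -/

/-- (KEY) a form all of whose translates vanish at `z₀` is divisible by a level one form
vanishing at `z₀`. -/
def KeyStatement (N : ℕ) : Prop :=
  ∀ z₀ : ℍ, ∃ (m : ℤ) (π : ℍ → ℂ), IsMF G1 m π ∧ π z₀ = 0 ∧
    ∀ (k : ℤ) (f : ℍ → ℂ), IsMF (G0 N) k f → (∀ x : X N, tr N k f x z₀ = 0) →
      ∃ f' : ℍ → ℂ, IsMF (G0 N) (k - m) f' ∧ f = π * f'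

/-- (KEY∞) a form all of whose translates are `O(Δ)` at `i∞` is divisible by `Δ`. -/
def KeyInftyStatement (N : ℕ) : Prop :=
  ∀ (k : ℤ) (f : ℍ → ℂ), IsMF (G0 N) k f →
    (∀ x : X N, IsBoundedAtImInfty (fun z => tr N k f x z / ModularForm.discriminant z)) →
      ∃ f' : ℍ → ℂ, IsMF (G0 N) (k - 12) f' ∧ f = (ModularForm.discriminant : ℍ → ℂ) * f'

/-! ### (LOC) -/

/-- (LOC) the vectors of translates of a free basis are linearly independent at EVERY point. -/
def LocStatement (N : ℕ) : Prop :=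
  ∀ {ι : Type} (w : ι → ℤ) (F : ι → ℍ → ℂ), FreeBasis N w F →
    ∀ z : ℍ, LinearIndependent ℂ (fun i : ι => vec N (w i) (F i) z)

/-- A frame: a finite free basis together with everything (LOC) proves about it. -/
structure Frame (N : ℕ) {ι : Type} [Fintype ι] (w : ι → ℤ) (F : ι → ℍ → ℂ) : Prop where
  basis : FreeBasis N w F
  loc : ∀ z : ℍ, LinearIndependent ℂ (fun i : ι => vec N (w i) (F i) z)
  card : Fintype.card ι = Nat.card (X N)
  nonneg : ∀ i, 0 ≤ w i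
  even : ∀ i, Even (w i)

/-- (FRAME) = (FREE) + (LOC) + rank: a frame exists. -/
def FrameStatement (N : ℕ) : Prop :=
  ∃ (ι : Type) (_ : Fintype ι) (w : ι → ℤ) (F : ι → ℍ → ℂ), Frame N w F

/-! ### Counting the weights of a frame -/

/-- (W0) exactly one basis element has weight `0`. -/
def WeightZeroStatement (N : ℕ) : Prop :=
  ∀ {ι : Type} [Fintype ι] (w : ι → ℤ) (F : ι → ℍ → ℂ), Frame N w F →
    Nat.card {i : ι // w i = 0} = 1

/-- (EIG-S) evaluation at `i`: the number of weights divisible by `4` is the number of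
orbits of `S`. -/
def EigSStatement (N : ℕ) : Prop :=
  ∀ {ι : Type} [Fintype ι] (w : ι → ℤ) (F : ι → ℍ → ℂ), Frame N w F →
    Nat.card {i : ι // (4 : ℤ) ∣ w i} = orbits N ModularGroup.S

/-- (EIG-ST) evaluation at `ρ`: the number of weights divisible by `6` is the number of
orbits of `S T`. -/
def EigSTStatement (N : ℕ) : Prop :=
  ∀ {ι : Type} [Fintype ι] (w : ι → ℤ) (F : ι → ℍ → ℂ), Frame N w F →
    Nat.card {i : ι // (6 : ℤ) ∣ w i} = orbits N (ModularGroup.S * ModularGroup.T)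

/-- (DUAL-a) all weights of a frame are `≤ 10`. -/
def DualWeightStatement (N : ℕ) : Prop :=
  ∀ {ι : Type} [Fintype ι] (w : ι → ℤ) (F : ι → ℍ → ℂ), Frame N w F → ∀ i, w i ≤ 10

/-- (DUAL-b) `dim S₂(Γ₀(N))` is the number of basis elements of weight `10`. -/
def DualDimStatement (N : ℕ) : Prop :=
  ∀ {ι : Type} [Fintype ι] (w : ι → ℤ) (F : ι → ℍ → ℂ), Frame N w F →
    Module.finrank ℂ (CuspForm (Gamma0 N) 2) = Nat.card {i : ι // w i = 10}

/-- (CUSP) `dim M₁₄ - dim S₁₄ = #cusps`, expressed through the weights of a frame: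
`#{w = 0} + #{w = 2} = #{w = 10} + #orbits(T)`. -/
def CuspCountStatement (N : ℕ) : Prop :=
  ∀ {ι : Type} [Fintype ι] (w : ι → ℤ) (F : ι → ℍ → ℂ), Frame N w F →
    Nat.card {i : ι // w i = 0} + Nat.card {i : ι // w i = 2}
      = Nat.card {i : ι // w i = 10} + orbits N ModularGroup.T

end Fermat.Agent.S20
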