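import Mathlib
import Fermat.Agent.S22.Basic
import Fermat.Agent.S22.Forms
import Fermat.Agent.S22.Nice
import Fermat.Agent.S20.Defs

/-!
# S20, package (CONJ): the translates `tr N k f x` of a form of level `Γ₀(N)`
-/

set_option autoImplicit false

noncomputable section

namespace Fermat.Agent.S20

open UpperHalfPlane CongruenceSubgroup Matrix.SpecialLinearGroup
open scoped MatrixGroups ModularForm Manifold
open Fermat.Agent.S22 (IsMF IsCF G0 G1)

variable {N : ℕ} {k l : ℤ} {f g : ℍ → ℂ}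

instance conj_finite (N : ℕ) [NeZero N] : Finite (X N) :=
  Subgroup.finite_quotient_of_finiteIndex

theorem conj_mdiff_of_isMF {Γ : Subgroup (GL (Fin 2) ℝ)} (hf : IsMF Γ k f) : MDiff f := by
  obtain ⟨F, rfl⟩ := hf
  exact F.holo'

/-- A form of level `Γ₀(N)` is invariant under `Γ₀(N)` (as elements of `SL(2,ℤ)`). -/
theorem conj_slash_Gamma0 (hf : IsMF (G0 N) k f) (γ : SL(2, ℤ)) (hγ : γ ∈ Gamma0 N) :
    f ∣[k] γ = f := by
  obtain ⟨F, rfl⟩ := hf
  exact F.slash_action_eq' _ ⟨γ, hγ, rfl⟩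

/-- A level one form is invariant under `SL(2,ℤ)`. -/
theorem conj_slash_levelOne (hf : IsMF G1 k f) (γ : SL(2, ℤ)) : f ∣[k] γ = f := by
  obtain ⟨F, rfl⟩ := hf
  exact F.slash_action_eq' _ ⟨γ, rfl⟩

theorem conj_slash_eq_of_mk_eq (hf : IsMF (G0 N) k f) (g₁ g₂ : SL(2, ℤ))
    (h : (g₁ : X N) = (g₂ : X N)) : f ∣[k] g₁⁻¹ = f ∣[k] g₂⁻¹ := by
  have h' : g₁⁻¹ * g₂ ∈ Gamma0 N := QuotientGroup.eq.mp h
  have h2 : g₂⁻¹ * g₁ ∈ Gamma0 N := by
    have := inv_mem h'
    simpa [mul_inv_rev] using this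
  have : g₂⁻¹ = (g₂⁻¹ * g₁) * g₁⁻¹ := by group
  rw [this, SlashAction.slash_mul, conj_slash_Gamma0 hf _ h2]

theorem tr_mk (hf : IsMF (G0 N) k f) (g : SL(2, ℤ)) :
    tr N k f (g : X N) = f ∣[k] g⁻¹ := by
  unfold tr
  exact conj_slash_eq_of_mk_eq hf _ _ (Quotient.out_eq (g : X N))

theorem tr_one (hf : IsMF (G0 N) k f) : tr N k f ((1 : SL(2, ℤ)) : X N) = f := by
  rw [tr_mk hf, inv_one, SlashAction.slash_one]

theorem tr_slash (hf : IsMF (G0 N) k f) (x : X N) (g : SL(2, ℤ)) :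
    (tr N k f x) ∣[k] g = tr N k f (g⁻¹ • x) := by
  induction x using Quotient.inductionOn with
  | _ a =>
    change (tr N k f (a : X N)) ∣[k] g = tr N k f (g⁻¹ • (a : X N))
    have : g⁻¹ • (a : X N) = ((g⁻¹ * a : SL(2, ℤ)) : X N) := rfl
    rw [this, tr_mk hf, tr_mk hf, ← SlashAction.slash_mul, mul_inv_rev, inv_inv]

theorem tr_apply_smul (hf : IsMF (G0 N) k f) (x : X N) (g : SL(2, ℤ)) (z : ℍ) :
    tr N k f x (g • z) = denom g z ^ k * tr N k f (g⁻¹ • x) z := by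
  have h := congrFun (tr_slash hf x g) z
  rw [ModularForm.SL_slash_apply] at h
  rw [← h, mul_comm, mul_assoc, ← zpow_add₀ (denom_ne_zero g z)]
  simp

theorem tr_zero (x : X N) : tr N k (0 : ℍ → ℂ) x = 0 := by
  unfold tr
  exact SlashAction.zero_slash _ _

theorem tr_add (f g : ℍ → ℂ) (x : X N) : tr N k (f + g) x = tr N k f x + tr N k g x := by
  unfold tr
  exact SlashAction.add_slash _ _ _ _

theorem tr_neg (f : ℍ → ℂ) (x : X N) : tr N k (-f) x = -tr N k f x := by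
  unfold tr
  exact SlashAction.neg_slash _ _ _

theorem tr_sub (f g : ℍ → ℂ) (x : X N) : tr N k (f - g) x = tr N k f x - tr N k g x := by
  rw [sub_eq_add_neg, tr_add, tr_neg, ← sub_eq_add_neg]

theorem tr_smul (c : ℂ) (f : ℍ → ℂ) (x : X N) : tr N k (c • f) x = c • tr N k f x := by
  unfold tr
  exact ModularForm.SL_smul_slash _ _ _ _

theorem tr_sum {ι : Type*} (s : Finset ι) (F : ι → ℍ → ℂ) (x : X N) :
    tr N k (∑ i ∈ s, F i) x = ∑ i ∈ s, tr N k (F i) x := by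
  unfold tr
  exact SlashAction.sum_slash _ _

theorem tr_mul (k l : ℤ) (f g : ℍ → ℂ) (x : X N) :
    tr N (k + l) (f * g) x = tr N k f x * tr N l g x := by
  unfold tr
  exact ModularForm.mul_slash_SL2 _ _ _ _ _

theorem tr_levelOne (hf : IsMF G1 k f) (x : X N) : tr N k f x = f := by
  unfold tr
  exact conj_slash_levelOne hf _

theorem tr_levelOne_mul {h : ℍ → ℂ} (hh : IsMF G1 k h) (l : ℤ) (f : ℍ → ℂ) (x : X N) :
    tr N (k + l) (h * f) x = h * tr N l f x := by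
  rw [tr_mul, tr_levelOne hh]

theorem tr_pow (f : ℍ → ℂ) (n : ℕ) (x : X N) :
    tr N (k * n) (f ^ n) x = (tr N k f x) ^ n := by
  induction n with
  | zero =>
    simp only [Nat.cast_zero, mul_zero, pow_zero]
    unfold tr
    exact ModularForm.is_invariant_one _
  | succ n ih =>
    have h1 : k * ((n + 1 : ℕ) : ℤ) = k * n + k := by push_cast; ring
    rw [pow_succ, pow_succ, h1, tr_mul, ih]

theorem mdiff_tr (hf : MDiff f) (x : X N) : MDiff (tr N k f x) := by
  unfold tr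
  exact hf.slash k _

theorem isBoundedAtImInfty_slash_of_isMF [NeZero N] (hf : IsMF (G0 N) k f) (g : SL(2, ℤ)) :
    IsBoundedAtImInfty (f ∣[k] g) := by
  obtain ⟨F, rfl⟩ := hf
  exact ModularFormClass.bdd_at_infty_slash F g

theorem isZeroAtImInfty_slash_of_isCF [NeZero N] (hf : IsCF (G0 N) k f) (g : SL(2, ℤ)) :
    IsZeroAtImInfty (f ∣[k] g) := by
  obtain ⟨F, rfl⟩ := hf
  exact CuspFormClass.zero_at_infty_slash F g

theorem isBoundedAtImInfty_tr [NeZero N] (hf : IsMF (G0 N) k f) (x : X N) :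
    IsBoundedAtImInfty (tr N k f x) :=
  isBoundedAtImInfty_slash_of_isMF hf _

theorem isZeroAtImInfty_tr [NeZero N] (hf : IsCF (G0 N) k f) (x : X N) :
    IsZeroAtImInfty (tr N k f x) :=
  isZeroAtImInfty_slash_of_isCF hf _

theorem IsCF.isMF {Γ : Subgroup (GL (Fin 2) ℝ)} (hf : IsCF Γ k f) : IsMF Γ k f := by
  obtain ⟨F, rfl⟩ := hf
  exact ⟨⟨F.toSlashInvariantForm, F.holo',
    fun hc g hg => (F.zero_at_cusps' hc g hg).boundedAtFilter⟩, rfl⟩

/-- (CONJ, criterion) -/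
theorem isMF_criterion (N : ℕ) [NeZero N] : IsMFCriterionStatement N := by
  intro k f hf hinv hbd
  refine ⟨{ toFun := f
            slash_action_eq' := ?_
            holo' := hf
            bdd_at_cusps' := fun {c} hc => ?_ }, rfl⟩
  · rintro γ ⟨γ', hγ', rfl⟩
    exact hinv γ' hγ'
  · have hc' : IsCusp c 𝒮ℒ := (Subgroup.IsArithmetic.isCusp_iff_isCusp_SL2Z (G0 N)).mp hc
    rw [OnePoint.isBoundedAt_iff_forall_SL2Z hc']
    intro γ _
    exact hbd γ

/-- cusp form version of the criterion. -/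
theorem isCF_criterion (N : ℕ) [NeZero N] (k : ℤ) (f : ℍ → ℂ) (hf : MDiff f)
    (hinv : ∀ γ ∈ Gamma0 N, f ∣[k] γ = f)
    (hz : ∀ g : SL(2, ℤ), IsZeroAtImInfty (f ∣[k] g)) : IsCF (G0 N) k f := by
  refine ⟨{ toFun := f
            slash_action_eq' := ?_
            holo' := hf
            zero_at_cusps' := fun {c} hc => ?_ }, rfl⟩
  · rintro γ ⟨γ', hγ', rfl⟩
    exact hinv γ' hγ'
  · have hc' : IsCusp c 𝒮ℒ := (Subgroup.IsArithmetic.isCusp_iff_isCusp_SL2Z (G0 N)).mp hc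
    rw [OnePoint.isZeroAt_iff_forall_SL2Z hc']
    intro γ _
    exact hz γ

/-- every `SL(2,ℤ)`-translate is one of the `tr`. -/
theorem slash_eq_tr (hf : IsMF (G0 N) k f) (g : SL(2, ℤ)) :
    f ∣[k] g = tr N k f ((g⁻¹ : SL(2, ℤ)) : X N) := by
  rw [tr_mk hf, inv_inv]

/-- criterion in terms of the translates of a form `f₀` and a relation to it. -/
theorem isMF_of_forall_tr (N : ℕ) [NeZero N] (k : ℤ) (f : ℍ → ℂ) (hf : MDiff f)
    (hinv : ∀ γ ∈ Gamma0 N, f ∣[k] γ = f)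
    (hbd : ∀ x : X N, IsBoundedAtImInfty (tr N k f x)) : IsMF (G0 N) k f := by
  refine isMF_criterion N k f hf hinv fun g => ?_
  have h : f ∣[k] g = tr N k f ((g⁻¹ : SL(2, ℤ)) : X N) := by
    unfold tr
    have h1 : (Quotient.out ((g⁻¹ : SL(2, ℤ)) : X N) : SL(2, ℤ))⁻¹ * g⁻¹ ∈ Gamma0 N :=
      QuotientGroup.eq.mp (Quotient.out_eq ((g⁻¹ : SL(2, ℤ)) : X N))
    have h2 : (Quotient.out ((g⁻¹ : SL(2, ℤ)) : X N) : SL(2, ℤ))⁻¹ =
        ((Quotient.out ((g⁻¹ : SL(2, ℤ)) : X N) : SL(2, ℤ))⁻¹ * g⁻¹) * g := by group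
    rw [h2, SlashAction.slash_mul, hinv _ h1]
  rw [h]
  exact hbd _

theorem conj_bdd_sum {ι : Type*} (s : Finset ι) (F : ι → ℍ → ℂ)
    (h : ∀ i ∈ s, IsBoundedAtImInfty (F i)) : IsBoundedAtImInfty (∑ i ∈ s, F i) := by
  classical
  induction s using Finset.induction_on with
  | empty =>
    simp only [Finset.sum_empty]
    exact Filter.const_boundedAtFilter _ (0 : ℂ)
  | insert a s ha ih =>
    rw [Finset.sum_insert ha]
    exact (h a (Finset.mem_insert_self _ _)).add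
      (ih fun i hi => h i (Finset.mem_insert_of_mem hi))

/-- (CONJ, trace) -/
theorem trace (N : ℕ) [NeZero N] : TraceStatement N := by
  intro _ k f hf
  have hfd := conj_mdiff_of_isMF hf
  have hfun : (fun z => ∑ x : X N, tr N k f x z) = ∑ x : X N, tr N k f x := by
    ext z; simp
  rw [hfun]
  have hslash : ∀ g : SL(2, ℤ), (∑ x : X N, tr N k f x) ∣[k] g = ∑ x : X N, tr N k f x := by
    intro g
    rw [SlashAction.sum_slash]
    simp only [tr_slash hf]
    exact Fintype.sum_equiv (MulAction.toPerm g⁻¹) _ _ (fun x => rfl)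
  refine ⟨{ toFun := ∑ x : X N, tr N k f x
            slash_action_eq' := ?_
            holo' := ?_
            bdd_at_cusps' := fun {c} hc => ?_ }, rfl⟩
  · rintro γ ⟨γ', rfl⟩
    exact hslash γ'
  · have : (∑ x : X N, tr N k f x) = fun z => ∑ x : X N, tr N k f x z := by
      ext z; simp
    change MDiff (∑ x : X N, tr N k f x)
    exact MDifferentiable.sum (fun x _ => mdiff_tr hfd x)
  · rw [OnePoint.isBoundedAt_iff_forall_SL2Z hc]
    intro γ _
    rw [hslash γ]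
    exact conj_bdd_sum _ _ fun x _ => isBoundedAtImInfty_tr hf x

/-- (KEY∞) -/
theorem keyInfty (N : ℕ) [NeZero N] : KeyInftyStatement N := by
  intro k f hf hbd
  have hfd := conj_mdiff_of_isMF hf
  have hΔd : MDiff (ModularForm.discriminant : ℍ → ℂ) := CuspForm.discriminant.holo'
  have hΔ0 : ∀ z, (ModularForm.discriminant : ℍ → ℂ) z ≠ 0 := ModularForm.discriminant_ne_zero
  have hΔs : ∀ g : SL(2, ℤ), (ModularForm.discriminant : ℍ → ℂ) ∣[(12 : ℤ)] g
      = ModularForm.discriminant := fun g =>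
    CuspForm.discriminant.slash_action_eq' _ ⟨g, rfl⟩
  set f' : ℍ → ℂ := f / (ModularForm.discriminant : ℍ → ℂ) with hf'
  have hsl : ∀ g : SL(2, ℤ), f' ∣[k - 12] g = (f ∣[k] g) / (ModularForm.discriminant : ℍ → ℂ) := by
    intro g
    rw [hf', ModularForm.div_slash_SL2, hΔs]
  refine ⟨f', ?_, ?_⟩
  · refine isMF_criterion N (k - 12) f' ?_ ?_ ?_
    · exact hfd.div hΔd hΔ0
    · intro γ hγ
      rw [hsl, conj_slash_Gamma0 hf γ hγ]
    · intro g
      rw [hsl, slash_eq_tr hf]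
      exact hbd _
  · ext z
    simp only [hf', Pi.mul_apply, Pi.div_apply]
    field_simp [hΔ0 z]

/-! ### the vector of translates -/

theorem tr_levelOne_mul' {a b : ℤ} {h : ℍ → ℂ} (hk : k = a + b) (hh : IsMF G1 a h)
    (f : ℍ → ℂ) (x : X N) : tr N k (h * f) x = h * tr N b f x := by
  subst hk
  exact tr_levelOne_mul hh b f x

theorem vec_add (f g : ℍ → ℂ) (z : ℍ) : vec N k (f + g) z = vec N k f z + vec N k g z := by
  ext x; simp [vec, tr_add]

theorem vec_smul (c : ℂ) (f : ℍ → ℂ) (z : ℍ) : vec N k (c • f) z = c • vec N k f z := by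
  ext x; simp [vec, tr_smul]

theorem vec_zero (z : ℍ) : vec N k (0 : ℍ → ℂ) z = 0 := by
  ext x; simp [vec, tr_zero]

theorem vec_levelOne_mul {a b : ℤ} {h : ℍ → ℂ} (hk : k = a + b) (hh : IsMF G1 a h)
    (f : ℍ → ℂ) (z : ℍ) : vec N k (h * f) z = h z • vec N b f z := by
  ext x; simp [vec, tr_levelOne_mul' hk hh]

/-- the vector of translates of a combination `∑ hᵢ Fᵢ` with level one coefficients. -/
theorem vec_comb {ι : Type*} (s : Finset ι) (w : ι → ℤ) (F h : ι → ℍ → ℂ)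
    (hh : ∀ i ∈ s, IsMF G1 (k - w i) (h i)) (z : ℍ) :
    vec N k (∑ i ∈ s, h i * F i) z = ∑ i ∈ s, h i z • vec N (w i) (F i) z := by
  ext x
  simp only [vec, tr_sum, Finset.sum_apply, Pi.smul_apply, smul_eq_mul]
  refine Finset.sum_congr rfl fun i hi => ?_
  rw [tr_levelOne_mul' (by ring : k = (k - w i) + w i) (hh i hi)]
  rfl

/-- the value of `f` itself is a coordinate of `vec`. -/
theorem vec_one (hf : IsMF (G0 N) k f) (z : ℍ) :
    vec N k f z ((1 : SL(2, ℤ)) : X N) = f z := by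
  simp [vec, tr_one hf]

/-- `vec` transforms by the permutation action. -/
theorem vec_smul_point (hf : IsMF (G0 N) k f) (g : SL(2, ℤ)) (z : ℍ) (x : X N) :
    vec N k f (g • z) x = denom g z ^ k * vec N k f z (g⁻¹ • x) :=
  tr_apply_smul hf x g z

theorem eq_zero_of_vec_eq_zero (hf : IsMF (G0 N) k f) (h : ∀ z, vec N k f z = 0) : f = 0 := by
  ext z
  rw [← vec_one hf z, h z]
  rfl

/-! ### weights -/

theorem eq_zero_of_odd (hf : IsMF (G0 N) k f) (hk : Odd k) : f = 0 := by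
  have hneg : (-1 : SL(2, ℤ)) ∈ Gamma0 N := by
    rw [Gamma0_mem]
    simp
  have h := conj_slash_Gamma0 hf (-1) hneg
  ext z
  have h2 := congrFun h z
  rw [ModularForm.SL_slash_apply] at h2
  have hd : denom ((-1 : SL(2, ℤ)) : SL(2, ℤ)) z = -1 := by
    simp [denom]
  have hz : ((-1 : SL(2, ℤ)) • z) = z := by
    ext
    simp
  rw [hd, hz, zpow_neg, hk.neg_one_zpow] at h2
  have : f z * (-1)⁻¹ = f z := h2
  simp only [Pi.zero_apply]
  have h3 : f z * (-1 : ℂ)⁻¹ = -f z := by ring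
  rw [h3] at this
  linear_combination -(1 / 2 : ℂ) * this

theorem eq_zero_of_neg [NeZero N] (hf : IsMF (G0 N) k f) (hk : k < 0) : f = 0 := by
  obtain ⟨F, rfl⟩ := hf
  have := ModularForm.isZero_of_neg_weight hk F
  rw [this]
  rfl

theorem exists_const_of_weight_zero [NeZero N] (hf : IsMF (G0 N) 0 f) :
    ∃ c : ℂ, f = fun _ => c := by
  obtain ⟨F, rfl⟩ := hf
  obtain ⟨c, hc⟩ := ModularForm.eq_const_of_weight_zero F
  exact ⟨c, by rw [hc]; rfl⟩

end Fermat.Agent.S20
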