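import Mathlib
import Fermat.Agent.S22.Basic
import Fermat.Agent.S22.Forms
import Fermat.Agent.S22.Nice
import Fermat.Agent.S22.LevelOne
import Fermat.Agent.S22.Conj
import Fermat.Agent.S20.Defs

/-!
# S20, package (L1): level one forms

* `l1_decomp : LevelOneDecompStatement` : forms of weight `≠ 0` lie in `(E₄, E₆)`;
* `l1_scaling : LevelOneScalingStatement` : weighted homogeneity;
* `l1_cusp : LevelOneCuspStatement` : cusp forms are multiples of `Δ`;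
* existence of forms not vanishing at a given point, vanishing of forms of the wrong weight
  class at the zeros of `E₆` and `E₄`.
-/

set_option autoImplicit false

noncomputable section

namespace Fermat.Agent.S20

open UpperHalfPlane ModularFormClass CongruenceSubgroup Matrix.SpecialLinearGroup
open ModularForm EisensteinSeries
open scoped MatrixGroups ModularForm Manifold
open Fermat.Agent.S22 (IsMF IsCF G0 G1 isMF_E4 isMF_E6 isNice_E4 isNice_E6 IsNice)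

theorem l1_eq_zero_of_neg {k : ℤ} {f : ℍ → ℂ} (hf : IsMF G1 k f) (hk : k < 0) : f = 0 := by
  obtain ⟨F, rfl⟩ := hf
  exact levelOne_neg_weight_eq_zero hk F

theorem l1_eq_zero_of_odd {k : ℤ} {f : ℍ → ℂ} (hf : IsMF G1 k f) (hk : Odd k) : f = 0 := by
  obtain ⟨F, rfl⟩ := hf
  rw [levelOne_odd_weight_eq_zero hk F]
  rfl

theorem l1_eq_zero_of_two {f : ℍ → ℂ} (hf : IsMF G1 2 f) : f = 0 := by
  obtain ⟨F, rfl⟩ := hf
  have hz : F = 0 := by
    have hr := levelOne_weight_two_rank_zero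
    rw [rank_zero_iff] at hr
    exact Subsingleton.elim _ _
  rw [hz]
  rfl

theorem l1_const_of_zero {f : ℍ → ℂ} (hf : IsMF G1 0 f) : ∃ c : ℂ, f = fun _ => c := by
  obtain ⟨F, rfl⟩ := hf
  obtain ⟨c, hc⟩ := levelOne_weight_zero_const F
  exact ⟨c, by rw [hc]; rfl⟩

theorem l1_coeff_zero_monomial (a b : ℕ) :
    (qExpansion 1 ((E₄ : ℍ → ℂ) ^ a * (E₆ : ℍ → ℂ) ^ b)).coeff 0 = 1 := by
  have hE4 : (qExpansion 1 (E₄ : ℍ → ℂ)).coeff 0 = 1 := E_qExpansion_coeff_zero _ ⟨2, rfl⟩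
  have hE6 : (qExpansion 1 (E₆ : ℍ → ℂ)).coeff 0 = 1 := E_qExpansion_coeff_zero _ ⟨3, rfl⟩
  rw [(isNice_E4.pow a).qExpansion_mul (isNice_E6.pow b), isNice_E4.qExpansion_pow,
    isNice_E6.qExpansion_pow]
  simp only [PowerSeries.coeff_zero_eq_constantCoeff, map_mul, map_pow] at hE4 hE6 ⊢
  rw [hE4, hE6]
  simp

theorem l1_isMF_monomial (a b : ℕ) :
    IsMF G1 (4 * a + 6 * b) ((E₄ : ℍ → ℂ) ^ a * (E₆ : ℍ → ℂ) ^ b) :=
  (isMF_E4.pow a).mul (isMF_E6.pow b)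

/-- for even `k ≥ 4` there are `a, b` with `4 a + 6 b = k`. -/
theorem l1_exists_exponents (k : ℤ) (hk : 4 ≤ k) (hk2 : Even k) :
    ∃ a b : ℕ, (4 * a + 6 * b : ℤ) = k ∧ (1 ≤ a ∨ 1 ≤ b) := by
  obtain ⟨j, hj⟩ := hk2
  rcases Int.even_or_odd j with ⟨i, hi⟩ | ⟨i, hi⟩
  · have hi0 : 0 ≤ i := by omega
    lift i to ℕ using hi0
    exact ⟨i, 0, by push_cast; omega, Or.inl (by omega)⟩
  · have hi0 : 0 ≤ i - 1 := by omega
    obtain ⟨a, ha⟩ := Int.eq_ofNat_of_zero_le hi0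
    exact ⟨a, 1, by push_cast; omega, Or.inr le_rfl⟩

/-- a monomial of weight `k` lies in the ideal `(E₄, E₆)`. -/
theorem l1_monomial_decomp (a b : ℕ) (h : 1 ≤ a ∨ 1 ≤ b) :
    ∃ u v : ℍ → ℂ, IsMF G1 ((4 * a + 6 * b : ℤ) - 4) u ∧ IsMF G1 ((4 * a + 6 * b : ℤ) - 6) v ∧
      (E₄ : ℍ → ℂ) ^ a * (E₆ : ℍ → ℂ) ^ b = (E₄ : ℍ → ℂ) * u + (E₆ : ℍ → ℂ) * v := by
  rcases h with h | h
  · obtain ⟨a', rfl⟩ : ∃ a', a = a' + 1 := ⟨a - 1, by omega⟩
    refine ⟨(E₄ : ℍ → ℂ) ^ a' * (E₆ : ℍ → ℂ) ^ b, 0, ?_, IsMF.zero, ?_⟩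
    · exact (l1_isMF_monomial a' b).cast (by push_cast; ring)
    · rw [pow_succ]; ring
  · obtain ⟨b', rfl⟩ : ∃ b', b = b' + 1 := ⟨b - 1, by omega⟩
    refine ⟨0, (E₄ : ℍ → ℂ) ^ a * (E₆ : ℍ → ℂ) ^ b', IsMF.zero, ?_, ?_⟩
    · exact (l1_isMF_monomial a b').cast (by push_cast; ring)
    · rw [pow_succ]; ring

/-- (L1c) -/
theorem l1_cusp_of_coeff {k : ℤ} (g : ModularForm G1 k) (hg0 : (qExpansion 1 g).coeff 0 = 0) :
    ∃ g' : ℍ → ℂ, IsMF G1 (k - 12) g' ∧ (g : ℍ → ℂ) = (ModularForm.discriminant : ℍ → ℂ) * g' := by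
  refine ⟨(CuspForm.discriminantEquiv (toCuspForm g hg0) : ModularForm G1 (k - 12)), ⟨_, rfl⟩, ?_⟩
  rw [discriminant_mul_discriminantEquiv]
  rfl

theorem l1_cusp : LevelOneCuspStatement := by
  intro k g hg hz
  obtain ⟨G, rfl⟩ := hg
  exact l1_cusp_of_coeff G (Fermat.Agent.S22.Conj.coeff_zero_of_isZeroAtImInfty hz)

theorem l1_discriminant_decomp :
    (ModularForm.discriminant : ℍ → ℂ) =
      (E₄ : ℍ → ℂ) * ((1728 : ℂ)⁻¹ • (E₄ : ℍ → ℂ) ^ 2)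
        + (E₆ : ℍ → ℂ) * ((-(1728 : ℂ)⁻¹) • (E₆ : ℍ → ℂ)) := by
  ext z
  simp only [Pi.add_apply, Pi.mul_apply, Pi.smul_apply, Pi.pow_apply, smul_eq_mul]
  rw [discriminant_eq_E₄_cube_sub_E₆_sq z]
  ring

/-- (L1a) -/
theorem l1_decomp : LevelOneDecompStatement := by
  intro k f hf hk0
  rcases lt_trichotomy k 0 with hneg | hzero | hpos
  · refine ⟨0, 0, IsMF.zero, IsMF.zero, ?_⟩
    rw [l1_eq_zero_of_neg hf hneg]; simp
  · exact absurd hzero hk0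
  rcases Int.even_or_odd k with hev | hodd
  swap
  · refine ⟨0, 0, IsMF.zero, IsMF.zero, ?_⟩
    rw [l1_eq_zero_of_odd hf hodd]; simp
  rcases lt_or_ge k 4 with h4 | h4
  · have hk2 : k = 2 := by
      obtain ⟨j, hj⟩ := hev
      omega
    subst hk2
    refine ⟨0, 0, IsMF.zero, IsMF.zero, ?_⟩
    rw [l1_eq_zero_of_two hf]; simp
  obtain ⟨a, b, hab, hab1⟩ := l1_exists_exponents k h4 hev
  obtain ⟨u, v, hu, hv, huv⟩ := l1_monomial_decomp a b hab1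
  rw [hab] at hu hv
  have hE : IsMF G1 k ((E₄ : ℍ → ℂ) ^ a * (E₆ : ℍ → ℂ) ^ b) :=
    (l1_isMF_monomial a b).cast hab
  obtain ⟨F, rfl⟩ := hf
  obtain ⟨EF, hEF⟩ := hE
  set a₀ : ℂ := (qExpansion 1 F).coeff 0 with ha₀
  set g : ModularForm G1 k := F - a₀ • EF with hg
  have hgfun : (g : ℍ → ℂ) = (F : ℍ → ℂ) - a₀ • (EF : ℍ → ℂ) := rfl
  have hg0 : (qExpansion 1 g).coeff 0 = 0 := by
    rw [hgfun, (Fermat.Agent.S22.isNice_of_modularForm Fermat.Agent.S22.one_mem_strictPeriods_G1 F).qExpansion_sub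
      ((Fermat.Agent.S22.isNice_of_modularForm Fermat.Agent.S22.one_mem_strictPeriods_G1 EF).smul a₀),
      (Fermat.Agent.S22.isNice_of_modularForm Fermat.Agent.S22.one_mem_strictPeriods_G1 EF).qExpansion_smul, map_sub,
      PowerSeries.coeff_smul, hEF, l1_coeff_zero_monomial]
    simp [ha₀]
  obtain ⟨g', hg', hgg'⟩ := l1_cusp_of_coeff g hg0
  have hE4sq : IsMF G1 8 ((E₄ : ℍ → ℂ) ^ 2) := (isMF_E4.pow 2).cast (by norm_num)
  refine ⟨((1728 : ℂ)⁻¹ • (E₄ : ℍ → ℂ) ^ 2) * g' + a₀ • u,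
    ((-(1728 : ℂ)⁻¹) • (E₆ : ℍ → ℂ)) * g' + a₀ • v, ?_, ?_, ?_⟩
  · exact (((hE4sq.smul _).mul hg').cast (by ring)).add (hu.smul a₀)
  · exact (((isMF_E6.smul _).mul hg').cast (by ring)).add (hv.smul a₀)
  · have hF : (F : ℍ → ℂ) = (g : ℍ → ℂ) + a₀ • (EF : ℍ → ℂ) := by rw [hgfun]; ring
    rw [hF, hgg', hEF, huv]
    conv_lhs => rw [l1_discriminant_decomp]
    ext z
    simp only [Pi.add_apply, Pi.mul_apply, Pi.smul_apply, Pi.pow_apply, smul_eq_mul]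
    ring

/-- (L1b) -/
theorem l1_scaling : LevelOneScalingStatement := by
  intro j
  induction j using Nat.strong_induction_on with
  | _ j ih =>
    intro f hf z₀ z₁ μ h4 h6
    rcases Nat.eq_zero_or_pos j with rfl | hj
    · obtain ⟨c, rfl⟩ := l1_const_of_zero (by simpa using hf)
      simp
    have hk0 : (2 * (j : ℤ)) ≠ 0 := by omega
    obtain ⟨a, b, ha, hb, hab⟩ := l1_decomp _ f hf hk0
    have hA : a z₁ * μ ^ 2 = μ ^ j * a z₀ := by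
      rcases Nat.lt_or_ge j 2 with h | h
      · have : a = 0 := l1_eq_zero_of_neg ha (by omega)
        simp [this]
      · obtain ⟨j', rfl⟩ : ∃ j', j = j' + 2 := ⟨j - 2, by omega⟩
        have := ih j' (by omega) a (ha.cast (by push_cast; ring)) z₀ z₁ μ h4 h6
        rw [this]; ring
    have hB : b z₁ * μ ^ 3 = μ ^ j * b z₀ := by
      rcases Nat.lt_or_ge j 3 with h | h
      · have : b = 0 := l1_eq_zero_of_neg hb (by omega)
        simp [this]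
      · obtain ⟨j', rfl⟩ : ∃ j', j = j' + 3 := ⟨j - 3, by omega⟩
        have := ih j' (by omega) b (hb.cast (by push_cast; ring)) z₀ z₁ μ h4 h6
        rw [this]; ring
    rw [hab]
    simp only [Pi.add_apply, Pi.mul_apply]
    rw [h4, h6]
    linear_combination E₄ z₀ * hA + E₆ z₀ * hB

/-! ### values at special points -/

theorem l1_not_both_zero (z : ℍ) : ¬ (E₄ z = 0 ∧ E₆ z = 0) := by
  rintro ⟨h4, h6⟩
  have := Fermat.Agent.S22.Dfun_ne_zero z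
  simp [Fermat.Agent.S22.Dfun, h4, h6] at this

/-- a form of weight not divisible by `4` vanishes at the zeros of `E₆`. -/
theorem l1_eq_zero_of_E6 {k : ℤ} {f : ℍ → ℂ} (hf : IsMF G1 k f) {z₀ : ℍ} (h6 : E₆ z₀ = 0)
    (hk : ¬ (4 : ℤ) ∣ k) : f z₀ = 0 := by
  rcases lt_or_ge k 0 with hneg | hpos
  · rw [l1_eq_zero_of_neg hf hneg]; rfl
  rcases Int.even_or_odd k with ⟨j, hj⟩ | hodd
  swap
  · rw [l1_eq_zero_of_odd hf hodd]; rfl
  have hj0 : 0 ≤ j := by omega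
  lift j to ℕ using hj0
  have hjodd : Odd j := by
    rcases Nat.even_or_odd j with ⟨i, hi⟩ | h
    · exact absurd ⟨(i : ℤ), by rw [hj, hi]; push_cast; ring⟩ hk
    · exact h
  have := l1_scaling j f (hf.cast (by rw [hj]; ring)) z₀ z₀ (-1) (by ring) (by rw [h6]; ring)
  rw [hjodd.neg_one_pow] at this
  linear_combination (1 / 2 : ℂ) * this

/-- a form of weight not divisible by `6` vanishes at the zeros of `E₄`. -/
theorem l1_eq_zero_of_E4 {k : ℤ} {f : ℍ → ℂ} (hf : IsMF G1 k f) {z₀ : ℍ} (h4 : E₄ z₀ = 0)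
    (hk : ¬ (6 : ℤ) ∣ k) : f z₀ = 0 := by
  rcases lt_or_ge k 0 with hneg | hpos
  · rw [l1_eq_zero_of_neg hf hneg]; rfl
  rcases Int.even_or_odd k with ⟨j, hj⟩ | hodd
  swap
  · rw [l1_eq_zero_of_odd hf hodd]; rfl
  have hj0 : 0 ≤ j := by omega
  lift j to ℕ using hj0
  have hj3 : ¬ 3 ∣ j := by
    rintro ⟨i, hi⟩
    exact hk ⟨(i : ℤ), by rw [hj, hi]; push_cast; ring⟩
  -- a primitive cube root of unity
  obtain ⟨ω, hω⟩ : ∃ ω : ℂ, IsPrimitiveRoot ω 3 := ⟨_, Complex.isPrimitiveRoot_exp 3 (by norm_num)⟩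
  have hω3 : ω ^ 3 = 1 := hω.pow_eq_one
  have := l1_scaling j f (hf.cast (by rw [hj]; ring)) z₀ z₀ ω (by rw [h4]; ring)
    (by rw [hω3]; ring)
  have hωj : ω ^ j ≠ 1 := by
    intro h
    exact hj3 ((hω.pow_eq_one_iff_dvd j).mp h)
  have h2 : (ω ^ j - 1) * f z₀ = 0 := by linear_combination -this
  rcases mul_eq_zero.mp h2 with h | h
  · exact absurd (sub_eq_zero.mp h) hωj
  · exact h

/-- forms not vanishing at a generic point exist in every even weight `≥ 4`. -/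
theorem l1_exists_ne_zero_generic {z₀ : ℍ} (h4 : E₄ z₀ ≠ 0) (h6 : E₆ z₀ ≠ 0) (k : ℤ)
    (hk : 4 ≤ k) (hk2 : Even k) : ∃ h : ℍ → ℂ, IsMF G1 k h ∧ h z₀ ≠ 0 := by
  obtain ⟨a, b, hab, -⟩ := l1_exists_exponents k hk hk2
  refine ⟨_, (l1_isMF_monomial a b).cast hab, ?_⟩
  simp only [Pi.mul_apply, Pi.pow_apply]
  exact mul_ne_zero (pow_ne_zero _ h4) (pow_ne_zero _ h6)

/-- at a zero of `E₆`, forms not vanishing there exist in every weight `4 a`. -/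
theorem l1_exists_ne_zero_E6 {z₀ : ℍ} (h6 : E₆ z₀ = 0) (a : ℕ) :
    ∃ h : ℍ → ℂ, IsMF G1 (4 * a) h ∧ h z₀ ≠ 0 := by
  have h4 : E₄ z₀ ≠ 0 := fun h => l1_not_both_zero z₀ ⟨h, h6⟩
  exact ⟨_, isMF_E4.pow a, by simpa using pow_ne_zero a h4⟩

/-- at a zero of `E₄`, forms not vanishing there exist in every weight `6 b`. -/
theorem l1_exists_ne_zero_E4 {z₀ : ℍ} (h4 : E₄ z₀ = 0) (b : ℕ) :
    ∃ h : ℍ → ℂ, IsMF G1 (6 * b) h ∧ h z₀ ≠ 0 := by
  have h6 : E₆ z₀ ≠ 0 := fun h => l1_not_both_zero z₀ ⟨h4, h⟩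
  exact ⟨_, isMF_E6.pow b, by simpa using pow_ne_zero b h6⟩

/-- forms with value `1` at `i∞` exist in every even weight `≥ 4` (and in weight `0`). -/
theorem l1_exists_one_at_infty (k : ℤ) (hk : 4 ≤ k) (hk2 : Even k) :
    ∃ e : ℍ → ℂ, IsMF G1 k e ∧ (qExpansion 1 e).coeff 0 = 1 := by
  obtain ⟨a, b, hab, -⟩ := l1_exists_exponents k hk hk2
  exact ⟨_, (l1_isMF_monomial a b).cast hab, l1_coeff_zero_monomial a b⟩

end Fermat.Agent.S20
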