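import Mathlib
import Fermat.Agent.S22.Basic
import Fermat.Agent.S20.Defs

/-!
# S20: interface between the analysis at the cusp (CUSP) and the algebra of the dual
basis (DUAL)

Nothing is proved in this file.
-/

set_option autoImplicit false

noncomputable section

namespace Fermat.Agent.S20

open UpperHalfPlane CongruenceSubgroup Matrix.SpecialLinearGroup
open scoped MatrixGroups ModularForm Manifold
open Fermat.Agent.S22 (IsMF IsCF G0 G1)

/-- `G` is the dual family of the frame `F`: for every `z` the matrix `(G j x z)` is the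
inverse transpose of the matrix `(tr N (w i) (F i) x z)`. -/
def IsDualFamily (N : ℕ) {ι : Type} [Fintype (X N)] (w : ι → ℤ) (F : ι → ℍ → ℂ)
    (G : ι → X N → ℍ → ℂ) : Prop :=
  ∀ (z : ℍ) (i j : ι), (i = j → ∑ x : X N, tr N (w i) (F i) x z * G j x z = 1) ∧
    (i ≠ j → ∑ x : X N, tr N (w i) (F i) x z * G j x z = 0)

/-- (α1) the dual family, multiplied by `Δ`, vanishes at `i∞`. -/
def DualCuspStatement (N : ℕ) : Prop :=
  ∀ {ι : Type} [Fintype ι] [Fintype (X N)] (w : ι → ℤ) (F : ι → ℍ → ℂ), Frame N w F →
    ∀ G : ι → X N → ℍ → ℂ, IsDualFamily N w F G →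
      ∀ (j : ι) (x : X N), IsZeroAtImInfty (fun z => ModularForm.discriminant z * G j x z)

/-- (α2) in weight `14` the quotient of all forms by the cusp forms has dimension the number
of `T`-orbits on `X N` (the number of cusps). -/
def CuspRankStatement (N : ℕ) : Prop :=
  ∀ {ι : Type} [Fintype ι] (w : ι → ℤ) (F : ι → ℍ → ℂ), Frame N w F → (∀ i, w i ≤ 10) →
    Module.finrank ℂ (ModularForm (G0 N) 14)
      = Module.finrank ℂ (CuspForm (G0 N) 14) + orbits N ModularGroup.T

end Fermat.Agent.S20
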