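import Mathlib
import Fermat.Agent.S22.Basic
import Fermat.Agent.S22.Forms
import Fermat.Agent.S20.Defs
import Fermat.Agent.S20.DualDefs
import Fermat.Agent.S20.Conj

/-!
# S20, package (DUAL), part 1: the dual family of a frame

For a frame `F` the matrix `(tr N (w i) (F i) x z)` is invertible for every `z`; its inverse
transpose `dualFam` is holomorphic and transforms like translates of weight `-w j`.
-/

set_option autoImplicit false

noncomputable section

namespace Fermat.Agent.S20

open UpperHalfPlane CongruenceSubgroup Matrix.SpecialLinearGroup ModularForm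
open scoped MatrixGroups ModularForm Manifold
open Fermat.Agent.S22 (IsMF IsCF G0 G1)

variable {N : ℕ} {ι : Type} [Fintype ι] {w : ι → ℤ} {F : ι → ℍ → ℂ}

/-- the determinant of a matrix of holomorphic functions is holomorphic. -/
theorem dual_mdiff_det {n : Type} [Fintype n] [DecidableEq n] (M : ℍ → Matrix n n ℂ)
    (hM : ∀ i j, MDiff (fun z => M z i j)) : MDiff (fun z => (M z).det) := by
  have : (fun z => (M z).det) =
      ∑ σ : Equiv.Perm n, ((Equiv.Perm.sign σ : ℤ) : ℂ) • ∏ i, (fun z => M z (σ i) i) := by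
    ext z
    rw [Matrix.det_apply]
    simp only [Finset.sum_apply, Pi.smul_apply, Finset.prod_apply, smul_eq_mul]
    refine Finset.sum_congr rfl fun σ _ => ?_
    rcases Int.units_eq_one_or (Equiv.Perm.sign σ) with h | h <;> simp [h]
  rw [this]
  exact MDifferentiable.sum fun σ _ =>
    (MDifferentiable.prod fun i _ => hM (σ i) i).const_smul _

/-- an index bijection of a frame. -/
def Frame.equiv [Fintype (X N)] (hF : Frame N w F) : ι ≃ X N :=
  Fintype.equivOfCardEq (by rw [hF.card, Nat.card_eq_fintype_card])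

/-- the square matrix of a frame. -/
def Frame.mat [Fintype (X N)] (hF : Frame N w F) (z : ℍ) : Matrix ι ι ℂ :=
  fun i l => tr N (w i) (F i) (hF.equiv l) z

theorem Frame.isUnit_mat [Fintype (X N)] [DecidableEq ι] (hF : Frame N w F) (z : ℍ) :
    IsUnit (hF.mat z) := by
  rw [← Matrix.linearIndependent_rows_iff_isUnit]
  have h := hF.loc z
  have h2 := h.map' (LinearEquiv.funCongrLeft ℂ ℂ hF.equiv).toLinearMap
    (LinearEquiv.ker _)
  exact h2

theorem Frame.det_mat_ne_zero [Fintype (X N)] [DecidableEq ι] (hF : Frame N w F) (z : ℍ) :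
    (hF.mat z).det ≠ 0 :=
  ((Matrix.isUnit_iff_isUnit_det _).mp (hF.isUnit_mat z)).ne_zero

/-- the dual family of a frame. -/
def Frame.dualFam [Fintype (X N)] [DecidableEq ι] (hF : Frame N w F) (j : ι) (x : X N)
    (z : ℍ) : ℂ :=
  (hF.mat z)⁻¹ (hF.equiv.symm x) j

theorem Frame.sum_tr_mul_dualFam [Fintype (X N)] [DecidableEq ι] (hF : Frame N w F) (z : ℍ)
    (i j : ι) :
    ∑ x : X N, tr N (w i) (F i) x z * hF.dualFam j x z = if i = j then 1 else 0 := by
  have h1 : hF.mat z * (hF.mat z)⁻¹ = 1 :=
    Matrix.mul_nonsing_inv _ ((Matrix.isUnit_iff_isUnit_det _).mp (hF.isUnit_mat z))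
  have h2 := congrFun (congrFun h1 i) j
  rw [Matrix.mul_apply, Matrix.one_apply] at h2
  rw [← h2]
  refine (Fintype.sum_equiv hF.equiv.symm _ _ fun x => ?_)
  simp [Frame.mat, Frame.dualFam]

theorem Frame.sum_dualFam_mul_tr [Fintype (X N)] [DecidableEq ι] [DecidableEq (X N)]
    (hF : Frame N w F) (z : ℍ) (x y : X N) :
    ∑ j : ι, hF.dualFam j y z * tr N (w j) (F j) x z = if y = x then 1 else 0 := by
  have h1 : (hF.mat z)⁻¹ * hF.mat z = 1 :=
    Matrix.nonsing_inv_mul _ ((Matrix.isUnit_iff_isUnit_det _).mp (hF.isUnit_mat z))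
  have h2 := congrFun (congrFun h1 (hF.equiv.symm y)) (hF.equiv.symm x)
  rw [Matrix.mul_apply, Matrix.one_apply] at h2
  simp only [Frame.mat, Equiv.apply_symm_apply, EmbeddingLike.apply_eq_iff_eq] at h2
  exact h2

theorem Frame.isDualFamily [Fintype (X N)] [DecidableEq ι] (hF : Frame N w F) :
    IsDualFamily N w F hF.dualFam := by
  intro z i j
  constructor
  · intro h
    rw [hF.sum_tr_mul_dualFam, if_pos h]
  · intro h
    rw [hF.sum_tr_mul_dualFam, if_neg h]

/-- uniqueness of the dual family. -/
theorem Frame.dualFam_unique [Fintype (X N)] [DecidableEq ι] (hF : Frame N w F)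
    (G : ι → X N → ℍ → ℂ) (hG : IsDualFamily N w F G) : G = hF.dualFam := by
  ext j x z
  -- the difference is killed by the invertible matrix
  set u : ι → ℂ := fun l => G j (hF.equiv l) z - hF.dualFam j (hF.equiv l) z with hu
  have hmul : (hF.mat z).mulVec u = 0 := by
    ext i
    simp only [Matrix.mulVec, dotProduct, Frame.mat, hu, Pi.zero_apply, mul_sub,
      Finset.sum_sub_distrib]
    have e1 : ∑ l : ι, tr N (w i) (F i) (hF.equiv l) z * G j (hF.equiv l) z
        = ∑ x : X N, tr N (w i) (F i) x z * G j x z :=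
      Fintype.sum_equiv hF.equiv _ _ fun _ => rfl
    have e2 : ∑ l : ι, tr N (w i) (F i) (hF.equiv l) z * hF.dualFam j (hF.equiv l) z
        = ∑ x : X N, tr N (w i) (F i) x z * hF.dualFam j x z :=
      Fintype.sum_equiv hF.equiv _ _ fun _ => rfl
    rw [e1, e2]
    by_cases hij : i = j
    · rw [(hG z i j).1 hij, (hF.isDualFamily z i j).1 hij, sub_self]
    · rw [(hG z i j).2 hij, (hF.isDualFamily z i j).2 hij, sub_self]
  have hzero := Matrix.eq_zero_of_mulVec_eq_zero (hF.det_mat_ne_zero z) hmul
  have := congrFun hzero (hF.equiv.symm x)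
  simp only [hu, Equiv.apply_symm_apply, Pi.zero_apply] at this
  exact sub_eq_zero.mp this

theorem Frame.mdiff_dualFam [Fintype (X N)] [DecidableEq ι] (hF : Frame N w F) (j : ι)
    (x : X N) : MDiff (hF.dualFam j x) := by
  have hent : ∀ i l, MDiff (fun z => hF.mat z i l) := fun i l =>
    mdiff_tr (conj_mdiff_of_isMF (hF.basis.isMF i)) _
  have hdet : MDiff (fun z => (hF.mat z).det) := dual_mdiff_det _ hent
  have hadj : MDiff (fun z => (hF.mat z).adjugate (hF.equiv.symm x) j) := by
    have : (fun z => (hF.mat z).adjugate (hF.equiv.symm x) j) =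
        fun z => ((hF.mat z).updateRow j (Pi.single (hF.equiv.symm x) 1)).det := by
      ext z
      rw [Matrix.adjugate_apply]
    rw [this]
    refine dual_mdiff_det _ fun i l => ?_
    by_cases hi : i = j
    · subst hi
      simp only [Matrix.updateRow_self]
      exact mdifferentiable_const
    · simp only [Matrix.updateRow_ne hi]
      exact hent i l
  have : hF.dualFam j x = fun z => (hF.mat z).adjugate (hF.equiv.symm x) j / (hF.mat z).det := by
    ext z
    simp only [Frame.dualFam, Matrix.inv_def, Matrix.smul_apply, smul_eq_mul,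
      Ring.inverse_eq_inv']
    ring
  rw [this]
  exact hadj.div hdet (hF.det_mat_ne_zero)

/-- the transformation law of the dual family. -/
theorem Frame.dualFam_smul [Fintype (X N)] [DecidableEq ι] (hF : Frame N w F)
    (g : SL(2, ℤ)) (j : ι) (x : X N) (z : ℍ) :
    hF.dualFam j x z = denom g z ^ (w j) * hF.dualFam j (g • x) (g • z) := by
  have hd : denom g z ≠ 0 := denom_ne_zero g z
  have key : IsDualFamily N w F
      (fun j x z => denom g z ^ (w j) * hF.dualFam j (g • x) (g • z)) := by
    intro z i j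
    have hd : denom g z ≠ 0 := denom_ne_zero g z
    have hsum : ∑ x : X N, tr N (w i) (F i) x z *
        (denom g z ^ (w j) * hF.dualFam j (g • x) (g • z)) =
        denom g z ^ (w j - w i) * ∑ y : X N, tr N (w i) (F i) y (g • z) *
          hF.dualFam j y (g • z) := by
      rw [Finset.mul_sum]
      refine Fintype.sum_equiv (MulAction.toPerm g) _ _ fun x => ?_
      simp only [MulAction.toPerm_apply]
      rw [tr_apply_smul (hF.basis.isMF i) (g • x) g z, inv_smul_smul, zpow_sub₀ hd]
      field_simp
    rw [hsum]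
    constructor
    · intro h
      rw [(hF.isDualFamily (g • z) i j).1 h, h, sub_self, zpow_zero, mul_one]
    · intro h
      rw [(hF.isDualFamily (g • z) i j).2 h, mul_zero]
  have := hF.dualFam_unique _ key
  exact (congrFun (congrFun (congrFun this j) x) z).symm

theorem Frame.dualFam_slash [Fintype (X N)] [DecidableEq ι] (hF : Frame N w F)
    (g : SL(2, ℤ)) (j : ι) (x : X N) :
    (hF.dualFam j x) ∣[-(w j)] g = hF.dualFam j (g⁻¹ • x) := by
  ext z
  rw [ModularForm.SL_slash_apply, neg_neg, hF.dualFam_smul g j (g⁻¹ • x) z, smul_inv_smul]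
  ring

end Fermat.Agent.S20
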