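import Mathlib
import Fermat.Agent.S22.Basic
import Fermat.Agent.S22.Forms
import Fermat.Agent.S20.Defs
import Fermat.Agent.S20.Conj

/-!
# S20: dimensions from free families (GEN)

* `MFsub Γ k`, `CFsub Γ k`: the spaces of modular / cusp forms as submodules of `ℍ → ℂ`;
* `gen_finrank`: a space of functions freely generated over the level one forms by a finite
  family has dimension `∑ i, finrank (ModularForm G1 (u i))`;
* `FreeBasis.finrank`: the dimension of `M_k(Γ₀(N))` from a free basis.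
-/

set_option autoImplicit false

noncomputable section

namespace Fermat.Agent.S20

open UpperHalfPlane CongruenceSubgroup Matrix.SpecialLinearGroup ModularForm
open scoped MatrixGroups ModularForm Manifold
open Fermat.Agent.S22 (IsMF IsCF G0 G1)

variable {N : ℕ}

/-- coercion of modular forms to functions, as a linear map. -/
def mfCoe (Γ : Subgroup (GL (Fin 2) ℝ)) [Γ.HasDetOne] (k : ℤ) :
    ModularForm Γ k →ₗ[ℂ] (ℍ → ℂ) where
  toFun f := ⇑f
  map_add' _ _ := rfl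
  map_smul' _ _ := rfl

/-- coercion of cusp forms to functions, as a linear map. -/
def cfCoe (Γ : Subgroup (GL (Fin 2) ℝ)) [Γ.HasDetOne] (k : ℤ) :
    CuspForm Γ k →ₗ[ℂ] (ℍ → ℂ) where
  toFun f := ⇑f
  map_add' _ _ := rfl
  map_smul' _ _ := rfl

/-- the space of modular forms as a submodule of all functions. -/
def MFsub (Γ : Subgroup (GL (Fin 2) ℝ)) [Γ.HasDetOne] (k : ℤ) : Submodule ℂ (ℍ → ℂ) :=
  LinearMap.range (mfCoe Γ k)

/-- the space of cusp forms as a submodule of all functions. -/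
def CFsub (Γ : Subgroup (GL (Fin 2) ℝ)) [Γ.HasDetOne] (k : ℤ) : Submodule ℂ (ℍ → ℂ) :=
  LinearMap.range (cfCoe Γ k)

theorem mem_MFsub {Γ : Subgroup (GL (Fin 2) ℝ)} [Γ.HasDetOne] {k : ℤ} {f : ℍ → ℂ} :
    f ∈ MFsub Γ k ↔ IsMF Γ k f := Iff.rfl

theorem mem_CFsub {Γ : Subgroup (GL (Fin 2) ℝ)} [Γ.HasDetOne] {k : ℤ} {f : ℍ → ℂ} :
    f ∈ CFsub Γ k ↔ IsCF Γ k f := Iff.rfl

theorem mfCoe_injective (Γ : Subgroup (GL (Fin 2) ℝ)) [Γ.HasDetOne] (k : ℤ) :
    Function.Injective (mfCoe Γ k) := fun _ _ h => DFunLike.coe_injective h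

theorem cfCoe_injective (Γ : Subgroup (GL (Fin 2) ℝ)) [Γ.HasDetOne] (k : ℤ) :
    Function.Injective (cfCoe Γ k) := fun _ _ h => DFunLike.coe_injective h

/-- `ModularForm Γ k ≃ MFsub Γ k`. -/
def mfEquiv (Γ : Subgroup (GL (Fin 2) ℝ)) [Γ.HasDetOne] (k : ℤ) :
    ModularForm Γ k ≃ₗ[ℂ] MFsub Γ k :=
  LinearEquiv.ofInjective (mfCoe Γ k) (mfCoe_injective Γ k)

/-- `CuspForm Γ k ≃ CFsub Γ k`. -/
def cfEquiv (Γ : Subgroup (GL (Fin 2) ℝ)) [Γ.HasDetOne] (k : ℤ) :
    CuspForm Γ k ≃ₗ[ℂ] CFsub Γ k :=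
  LinearEquiv.ofInjective (cfCoe Γ k) (cfCoe_injective Γ k)

instance gen_finiteDimensional_levelOne (k : ℤ) : FiniteDimensional ℂ (MFsub G1 k) :=
  (mfEquiv G1 k).finiteDimensional

/-- the combination map `(h_i) ↦ ∑ h_i G_i`. -/
def genMap {ι : Type} [Fintype ι] (u : ι → ℤ) (G : ι → ℍ → ℂ) :
    ((i : ι) → MFsub G1 (u i)) →ₗ[ℂ] (ℍ → ℂ) :=
  ∑ i, (LinearMap.mulRight ℂ (G i)) ∘ₗ (MFsub G1 (u i)).subtype ∘ₗ
    (LinearMap.proj i : ((i : ι) → MFsub G1 (u i)) →ₗ[ℂ] MFsub G1 (u i))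

theorem genMap_apply {ι : Type} [Fintype ι] (u : ι → ℤ) (G : ι → ℍ → ℂ)
    (h : (i : ι) → MFsub G1 (u i)) : genMap u G h = ∑ i, (h i : ℍ → ℂ) * G i := by
  simp [genMap, LinearMap.sum_apply]

/-- **GEN**: dimension of a space freely generated over the level one forms. -/
theorem gen_finrank {ι : Type} [Fintype ι] (P : Submodule ℂ (ℍ → ℂ)) (u : ι → ℤ)
    (G : ι → ℍ → ℂ)
    (hmem : ∀ h : ι → ℍ → ℂ, (∀ i, IsMF G1 (u i) (h i)) → ∑ i, h i * G i ∈ P)
    (hspan : ∀ f ∈ P, ∃ h : ι → ℍ → ℂ, (∀ i, IsMF G1 (u i) (h i)) ∧ f = ∑ i, h i * G i)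
    (hindep : ∀ h : ι → ℍ → ℂ, (∀ i, IsMF G1 (u i) (h i)) → ∑ i, h i * G i = 0 →
      ∀ i, h i = 0) :
    FiniteDimensional ℂ P ∧
      Module.finrank ℂ P = ∑ i, Module.finrank ℂ (ModularForm G1 (u i)) := by
  classical
  have hinj : Function.Injective (genMap u G) := by
    rw [← LinearMap.ker_eq_bot, LinearMap.ker_eq_bot']
    intro h hh
    rw [genMap_apply] at hh
    have := hindep (fun i => (h i : ℍ → ℂ)) (fun i => (h i).2) hh
    ext i : 1
    exact Subtype.ext (this i)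
  have hrange : LinearMap.range (genMap u G) = P := by
    apply le_antisymm
    · rintro f ⟨h, rfl⟩
      rw [genMap_apply]
      exact hmem (fun i => (h i : ℍ → ℂ)) (fun i => (h i).2)
    · intro f hf
      obtain ⟨h, hh, rfl⟩ := hspan f hf
      exact ⟨fun i => ⟨h i, hh i⟩, by rw [genMap_apply]⟩
  have e : ((i : ι) → MFsub G1 (u i)) ≃ₗ[ℂ] P :=
    (LinearEquiv.ofInjective (genMap u G) hinj).trans (LinearEquiv.ofEq _ _ hrange)
  refine ⟨e.finiteDimensional, ?_⟩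
  rw [← e.finrank_eq, Module.finrank_pi_fintype]
  exact Finset.sum_congr rfl fun i _ => ((mfEquiv G1 (u i)).finrank_eq).symm

/-! ### the Fintype form of a free basis -/

theorem FreeBasis.span_univ {ι : Type} [Fintype ι] {w : ι → ℤ} {F : ι → ℍ → ℂ}
    (hB : FreeBasis N w F) (k : ℤ) (f : ℍ → ℂ) (hf : IsMF (G0 N) k f) :
    ∃ h : ι → ℍ → ℂ, (∀ i, IsMF G1 (k - w i) (h i)) ∧ f = ∑ i, h i * F i := by
  classical
  obtain ⟨s, h, hh, rfl⟩ := hB.span k f hf
  refine ⟨fun i => if i ∈ s then h i else 0, fun i => ?_, ?_⟩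
  · by_cases hi : i ∈ s
    · simpa [hi] using hh i
    · simpa [hi] using (IsMF.zero : IsMF G1 (k - w i) 0)
  · rw [← Finset.sum_subset (Finset.subset_univ s) (fun i _ hi => by simp [hi])]
    exact Finset.sum_congr rfl fun i hi => by simp [hi]

theorem FreeBasis.indep_univ {ι : Type} [Fintype ι] {w : ι → ℤ} {F : ι → ℍ → ℂ}
    (hB : FreeBasis N w F) (k : ℤ) (h : ι → ℍ → ℂ) (hh : ∀ i, IsMF G1 (k - w i) (h i))
    (hsum : ∑ i, h i * F i = 0) : ∀ i, h i = 0 :=
  fun i => hB.indep k Finset.univ h (fun i _ => hh i) hsum i (Finset.mem_univ i)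

theorem FreeBasis.isMF_comb {ι : Type} [Fintype ι] {w : ι → ℤ} {F : ι → ℍ → ℂ}
    (hB : FreeBasis N w F) (k : ℤ) (h : ι → ℍ → ℂ) (hh : ∀ i, IsMF G1 (k - w i) (h i)) :
    IsMF (G0 N) k (∑ i, h i * F i) :=
  IsMF.sum _ fun i _ => (((hh i).restrict_G0 N).mul (hB.isMF i)).cast (by ring)

/-- dimension of `M_k(Γ₀(N))` from a finite free basis. -/
theorem FreeBasis.finrank {ι : Type} [Fintype ι] {w : ι → ℤ} {F : ι → ℍ → ℂ}
    (hB : FreeBasis N w F) (k : ℤ) :
    FiniteDimensional ℂ (ModularForm (G0 N) k) ∧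
      Module.finrank ℂ (ModularForm (G0 N) k)
        = ∑ i, Module.finrank ℂ (ModularForm G1 (k - w i)) := by
  obtain ⟨h1, h2⟩ := gen_finrank (MFsub (G0 N) k) (fun i => k - w i) F
    (fun h hh => hB.isMF_comb k h hh) (fun f hf => hB.span_univ k f hf)
    (fun h hh hsum => hB.indep_univ k h hh hsum)
  exact ⟨(mfEquiv (G0 N) k).symm.finiteDimensional, by rw [(mfEquiv (G0 N) k).finrank_eq, h2]⟩

/-! ### level one dimensions -/

theorem gen_finrank_levelOne_neg {k : ℤ} (hk : k < 0) :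
    Module.finrank ℂ (ModularForm G1 k) = 0 := by
  have := ModularForm.levelOne_neg_weight_rank_zero hk
  exact Module.finrank_eq_zero_of_rank_eq_zero this

theorem gen_finrank_levelOne_nat (k : ℕ) (hk : Even k) :
    Module.finrank ℂ (ModularForm G1 (k : ℤ)) =
      if k ≡ 2 [MOD 12] then k / 12 else k / 12 + 1 := by
  have h := ModularForm.dimension_level_one k hk
  apply Module.finrank_eq_of_rank_eq
  rw [h]

theorem gen_finrank_levelOne_values :
    Module.finrank ℂ (ModularForm G1 0) = 1 ∧ Module.finrank ℂ (ModularForm G1 2) = 0 ∧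
    Module.finrank ℂ (ModularForm G1 4) = 1 ∧ Module.finrank ℂ (ModularForm G1 6) = 1 ∧
    Module.finrank ℂ (ModularForm G1 8) = 1 ∧ Module.finrank ℂ (ModularForm G1 10) = 1 ∧
    Module.finrank ℂ (ModularForm G1 12) = 2 ∧ Module.finrank ℂ (ModularForm G1 14) = 1 := by
  refine ⟨?_, ?_, ?_, ?_, ?_, ?_, ?_, ?_⟩
  · simpa [Nat.ModEq] using gen_finrank_levelOne_nat 0 (by decide)
  · simpa [Nat.ModEq] using gen_finrank_levelOne_nat 2 (by decide)
  · simpa [Nat.ModEq] using gen_finrank_levelOne_nat 4 (by decide)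
  · simpa [Nat.ModEq] using gen_finrank_levelOne_nat 6 (by decide)
  · simpa [Nat.ModEq] using gen_finrank_levelOne_nat 8 (by decide)
  · simpa [Nat.ModEq] using gen_finrank_levelOne_nat 10 (by decide)
  · simpa [Nat.ModEq] using gen_finrank_levelOne_nat 12 (by decide)
  · simpa [Nat.ModEq] using gen_finrank_levelOne_nat 14 (by decide)

end Fermat.Agent.S20
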