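import Mathlib
import Fermat.Agent.S22.Basic
import Fermat.Agent.S22.Forms
import Fermat.Agent.S20.Defs
import Fermat.Agent.S20.DualDefs
import Fermat.Agent.S20.Conj
import Fermat.Agent.S20.LevelOne
import Fermat.Agent.S20.Gen
import Fermat.Agent.S20.DualMat

/-!
# S20, package (DUAL), part 2: the cusp forms are free on the dual basis

* `dual_weight : DualCuspStatement N → DualWeightStatement N`
* `dual_dim : DualCuspStatement N → DualDimStatement N`
* `cuspCount_of : DualCuspStatement N → CuspRankStatement N → CuspCountStatement N`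
-/

set_option autoImplicit false

noncomputable section

namespace Fermat.Agent.S20

open UpperHalfPlane CongruenceSubgroup Matrix.SpecialLinearGroup ModularForm
open scoped MatrixGroups ModularForm Manifold
open Fermat.Agent.S22 (IsMF IsCF G0 G1)

variable {N : ℕ} {ι : Type} [Fintype ι] {w : ι → ℤ} {F : ι → ℍ → ℂ}

/-! ### cusp forms as functions -/

theorem IsCF.cast {Γ : Subgroup (GL (Fin 2) ℝ)} {k k' : ℤ} {f : ℍ → ℂ} (h : k = k')
    (hf : IsCF Γ k f) : IsCF Γ k' f := h ▸ hf

theorem IsCF.zero {Γ : Subgroup (GL (Fin 2) ℝ)} {k : ℤ} : IsCF Γ k 0 := ⟨0, rfl⟩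

theorem IsCF.add {Γ : Subgroup (GL (Fin 2) ℝ)} {k : ℤ} {f g : ℍ → ℂ} (hf : IsCF Γ k f)
    (hg : IsCF Γ k g) : IsCF Γ k (f + g) := by
  obtain ⟨F, rfl⟩ := hf
  obtain ⟨G, rfl⟩ := hg
  exact ⟨F + G, rfl⟩

theorem IsCF.sum {Γ : Subgroup (GL (Fin 2) ℝ)} {k : ℤ} {α : Type*} (s : Finset α)
    {F : α → ℍ → ℂ} (hF : ∀ i ∈ s, IsCF Γ k (F i)) : IsCF Γ k (∑ i ∈ s, F i) := by
  classical
  induction s using Finset.induction_on with
  | empty => simpa using (IsCF.zero : IsCF Γ k 0)
  | insert a s ha ih =>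
    rw [Finset.sum_insert ha]
    exact IsCF.add (hF a (Finset.mem_insert_self _ _))
      (ih fun i hi => hF i (Finset.mem_insert_of_mem hi))

theorem IsCF.mul_isMF {Γ : Subgroup (GL (Fin 2) ℝ)} [Γ.HasDetPlusMinusOne] {k l : ℤ}
    {f g : ℍ → ℂ} (hf : IsCF Γ k f) (hg : IsMF Γ l g) : IsCF Γ (k + l) (f * g) := by
  obtain ⟨F, rfl⟩ := hf
  obtain ⟨G, rfl⟩ := hg
  exact ⟨F.mulModularForm G, rfl⟩

theorem IsCF.levelOne_mul {k l : ℤ} {h f : ℍ → ℂ} (hh : IsMF G1 l h)
    (hf : IsCF (G0 N) k f) : IsCF (G0 N) (l + k) (h * f) := by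
  have := IsCF.mul_isMF hf (hh.restrict_G0 N)
  rw [mul_comm, add_comm]
  exact this

theorem isCF_eq_zero_of_nonpos [NeZero N] {k : ℤ} {f : ℍ → ℂ} (hf : IsCF (G0 N) k f)
    (hk : k ≤ 0) : f = 0 := by
  rcases hk.lt_or_eq with hk | rfl
  · exact eq_zero_of_neg (IsCF.isMF hf) hk
  · obtain ⟨c, rfl⟩ := exists_const_of_weight_zero (IsCF.isMF hf)
    obtain ⟨G, hG⟩ := hf
    have hz : IsZeroAtImInfty (fun _ : ℍ => c) := by
      rw [← hG]
      have := isZeroAtImInfty_slash_of_isCF (N := N) ⟨G, rfl⟩ 1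
      simpa using this
    have hc : c = 0 := by
      have h1 : Filter.Tendsto (fun _ : ℍ => c) atImInfty (nhds 0) := hz
      have h2 : Filter.Tendsto (fun _ : ℍ => c) atImInfty (nhds c) := tendsto_const_nhds
      exact tendsto_nhds_unique h2 h1
    rw [hc]
    rfl

/-! ### the dual cusp forms -/

/-- the base point of `X N`. -/
def basePt (N : ℕ) : X N := ((1 : SL(2, ℤ)) : X N)

theorem smul_basePt_of_mem {γ : SL(2, ℤ)} (hγ : γ ∈ Gamma0 N) : γ • basePt N = basePt N := by
  change ((γ * 1 : SL(2, ℤ)) : X N) = ((1 : SL(2, ℤ)) : X N)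
  rw [mul_one]
  exact (QuotientGroup.eq.mpr (by simpa using hγ)).symm

theorem out_smul_basePt (x : X N) : (Quotient.out x : SL(2, ℤ)) • basePt N = x := by
  change (((Quotient.out x : SL(2, ℤ)) * 1 : SL(2, ℤ)) : X N) = x
  rw [mul_one]
  exact Quotient.out_eq x

/-- the dual cusp form `Δ · F*_j`. -/
def Frame.dualCF [Fintype (X N)] [DecidableEq ι] (hF : Frame N w F) (j : ι) : ℍ → ℂ :=
  fun z => ModularForm.discriminant z * hF.dualFam j (basePt N) z

theorem dual_discriminant_slash (g : SL(2, ℤ)) :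
    (ModularForm.discriminant : ℍ → ℂ) ∣[(12 : ℤ)] g = ModularForm.discriminant :=
  CuspForm.discriminant.slash_action_eq' _ ⟨g, rfl⟩

theorem Frame.dualCF_slash [Fintype (X N)] [DecidableEq ι] (hF : Frame N w F) (j : ι)
    (g : SL(2, ℤ)) :
    (hF.dualCF j) ∣[12 - w j] g =
      fun z => ModularForm.discriminant z * hF.dualFam j (g⁻¹ • basePt N) z := by
  have h1 : hF.dualCF j = (ModularForm.discriminant : ℍ → ℂ) * hF.dualFam j (basePt N) := rfl
  have h2 : (12 : ℤ) - w j = 12 + (-(w j)) := by ring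
  rw [h1, h2, ModularForm.mul_slash_SL2, dual_discriminant_slash, hF.dualFam_slash]
  rfl

theorem Frame.tr_dualCF [Fintype (X N)] [DecidableEq ι] (hF : Frame N w F) (j : ι)
    (x : X N) :
    tr N (12 - w j) (hF.dualCF j) x = fun z => ModularForm.discriminant z * hF.dualFam j x z := by
  unfold tr
  rw [hF.dualCF_slash, inv_inv, out_smul_basePt]

theorem Frame.isCF_dualCF [NeZero N] [Fintype (X N)] [DecidableEq ι] (hF : Frame N w F)
    (hDC : DualCuspStatement N) (j : ι) : IsCF (G0 N) (12 - w j) (hF.dualCF j) := by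
  refine isCF_criterion N _ _ ?_ ?_ ?_
  · exact (CuspForm.discriminant.holo').mul (hF.mdiff_dualFam j (basePt N))
  · intro γ hγ
    rw [hF.dualCF_slash, smul_basePt_of_mem (inv_mem hγ)]
    rfl
  · intro g
    rw [hF.dualCF_slash]
    exact hDC w F hF hF.dualFam hF.isDualFamily j _

theorem Frame.dualCF_ne_zero [NeZero N] [Fintype (X N)] [DecidableEq ι] (hF : Frame N w F)
    (j : ι) : hF.dualCF j ≠ 0 := by
  intro h0
  have hx : ∀ x z, hF.dualFam j x z = 0 := by
    intro x z
    have h1 := congrFun (hF.tr_dualCF j x) z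
    rw [h0, tr_zero] at h1
    simp only [Pi.zero_apply] at h1
    exact (mul_eq_zero.mp h1.symm).resolve_left (ModularForm.discriminant_ne_zero z)
  have := (hF.isDualFamily UpperHalfPlane.I j j).1 rfl
  simp [hx] at this

/-! ### the cusp forms are free on the dual cusp forms -/

theorem Frame.cusp_mem [NeZero N] [Fintype (X N)] [DecidableEq ι] (hF : Frame N w F)
    (hDC : DualCuspStatement N) (k : ℤ) (h : ι → ℍ → ℂ)
    (hh : ∀ j, IsMF G1 (k - (12 - w j)) (h j)) :
    IsCF (G0 N) k (∑ j, h j * hF.dualCF j) :=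
  IsCF.sum _ fun j _ => IsCF.cast (by ring) (IsCF.levelOne_mul (hh j) (hF.isCF_dualCF hDC j))

theorem Frame.cusp_span [NeZero N] [Fintype (X N)] [DecidableEq ι] (hF : Frame N w F)
    (k : ℤ) (f : ℍ → ℂ) (hf : IsCF (G0 N) k f) :
    ∃ h : ι → ℍ → ℂ, (∀ j, IsMF G1 (k - (12 - w j)) (h j)) ∧ f = ∑ j, h j * hF.dualCF j := by
  classical
  -- the traces `Tr (f F_j)` are level one cusp forms
  have hT : ∀ j, ∃ c : ℍ → ℂ, IsMF G1 (k + w j - 12) c ∧
      (fun z => ∑ x : X N, tr N (k + w j) (f * F j) x z) =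
        (ModularForm.discriminant : ℍ → ℂ) * c := by
    intro j
    have h1 : IsMF G1 (k + w j) (fun z => ∑ x : X N, tr N (k + w j) (f * F j) x z) :=
      trace N (k + w j) (f * F j) ((IsCF.isMF hf).mul (hF.basis.isMF j))
    have h2 : IsZeroAtImInfty (fun z => ∑ x : X N, tr N (k + w j) (f * F j) x z) := by
      rw [IsZeroAtImInfty, Filter.ZeroAtFilter]
      have : (0 : ℂ) = ∑ _x : X N, (0 : ℂ) := by simp
      rw [this]
      refine tendsto_finsetSum _ fun x _ => ?_
      have h3 : tr N (k + w j) (f * F j) x = tr N k f x * tr N (w j) (F j) x := tr_mul k (w j) f (F j) x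
      have h4 : IsZeroAtImInfty (tr N k f x * tr N (w j) (F j) x) :=
        (isZeroAtImInfty_tr hf x).mul_boundedAtFilter (isBoundedAtImInfty_tr (hF.basis.isMF j) x)
      rw [h3]
      exact h4
    exact l1_cusp _ _ h1 h2
  choose c hc hcT using hT
  refine ⟨c, fun j => (hc j).cast (by ring), ?_⟩
  ext z
  simp only [Finset.sum_apply, Pi.mul_apply, Frame.dualCF]
  have hz : ∀ j, c j z * (ModularForm.discriminant z * hF.dualFam j (basePt N) z) =
      ∑ x : X N, tr N k f x z * (hF.dualFam j (basePt N) z * tr N (w j) (F j) x z) := by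
    intro j
    have h1 := congrFun (hcT j) z
    simp only [Pi.mul_apply] at h1
    have h2 : c j z * (ModularForm.discriminant z * hF.dualFam j (basePt N) z) =
        (ModularForm.discriminant z * c j z) * hF.dualFam j (basePt N) z := by ring
    rw [h2, ← h1, Finset.sum_mul]
    refine Finset.sum_congr rfl fun x _ => ?_
    rw [tr_mul k (w j) f (F j) x]
    simp only [Pi.mul_apply]
    ring
  simp_rw [hz]
  rw [Finset.sum_comm]
  simp_rw [← Finset.mul_sum, hF.sum_dualFam_mul_tr]
  simp only [mul_ite, mul_one, mul_zero]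
  rw [Finset.sum_ite_eq]
  simp only [Finset.mem_univ, if_true]
  exact (congrFun (tr_one (IsCF.isMF hf)) z).symm

theorem Frame.cusp_indep [NeZero N] [Fintype (X N)] [DecidableEq ι] (hF : Frame N w F)
    (k : ℤ) (h : ι → ℍ → ℂ) (hh : ∀ j, IsMF G1 (k - (12 - w j)) (h j))
    (hsum : ∑ j, h j * hF.dualCF j = 0) : ∀ j, h j = 0 := by
  classical
  -- apply the translates
  have htr : ∀ x z, ∑ j, h j z * hF.dualFam j x z = 0 := by
    intro x z
    have h1 : tr N k (∑ j, h j * hF.dualCF j) x = 0 := by rw [hsum, tr_zero]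
    rw [tr_sum] at h1
    have h2 := congrFun h1 z
    simp only [Finset.sum_apply, Pi.zero_apply] at h2
    have h3 : ∀ j, tr N k (h j * hF.dualCF j) x z =
        ModularForm.discriminant z * (h j z * hF.dualFam j x z) := by
      intro j
      rw [tr_levelOne_mul' (by ring : k = (k - (12 - w j)) + (12 - w j)) (hh j), hF.tr_dualCF]
      simp only [Pi.mul_apply]
      ring
    simp_rw [h3] at h2
    rw [← Finset.mul_sum] at h2
    exact (mul_eq_zero.mp h2).resolve_left (ModularForm.discriminant_ne_zero z)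
  intro i
  ext z
  have h1 : ∑ x : X N, tr N (w i) (F i) x z * ∑ j, h j z * hF.dualFam j x z = 0 := by
    simp [htr]
  simp_rw [Finset.mul_sum] at h1
  rw [Finset.sum_comm] at h1
  have h2 : ∀ j, ∑ x : X N, tr N (w i) (F i) x z * (h j z * hF.dualFam j x z) =
      h j z * (if i = j then 1 else 0) := by
    intro j
    rw [← hF.sum_tr_mul_dualFam z i j, Finset.mul_sum]
    exact Finset.sum_congr rfl fun x _ => by ring
  simp_rw [h2] at h1
  simp only [mul_ite, mul_one, mul_zero] at h1
  rw [Finset.sum_ite_eq] at h1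
  simpa using h1

/-- the dimension of `S_k(Γ₀(N))`. -/
theorem Frame.finrank_cusp [NeZero N] [DecidableEq ι] (hF : Frame N w F)
    (hDC : DualCuspStatement N) (k : ℤ) :
    Module.finrank ℂ (CuspForm (G0 N) k)
      = ∑ j, Module.finrank ℂ (ModularForm G1 (k - (12 - w j))) := by
  classical
  let _ : Fintype (X N) := Fintype.ofFinite _
  obtain ⟨-, h2⟩ := gen_finrank (CFsub (G0 N) k) (fun j => k - (12 - w j)) hF.dualCF
    (fun h hh => hF.cusp_mem hDC k h hh) (fun f hf => hF.cusp_span k f hf)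
    (fun h hh hsum => hF.cusp_indep k h hh hsum)
  rw [(cfEquiv (G0 N) k).finrank_eq, h2]

/-! ### the three statements -/

/-- (DUAL-a) -/
theorem dual_weight (N : ℕ) [NeZero N] (hDC : DualCuspStatement N) : DualWeightStatement N := by
  classical
  intro ι _ w F hF i
  let _ : Fintype (X N) := Fintype.ofFinite _
  by_contra hcon
  have hk : 12 - w i ≤ 0 := by
    obtain ⟨j, hj⟩ := hF.even i
    omega
  exact hF.dualCF_ne_zero i (isCF_eq_zero_of_nonpos (hF.isCF_dualCF hDC i) hk)

theorem dual_card_filter {ι : Type} [Fintype ι] (p : ι → Prop) [DecidablePred p] :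
    Nat.card {i : ι // p i} = ∑ i, if p i then 1 else 0 := by
  rw [Nat.card_eq_fintype_card, Fintype.card_subtype, Finset.card_filter]

/-- (DUAL-b) -/
theorem dual_dim (N : ℕ) [NeZero N] (hDC : DualCuspStatement N) : DualDimStatement N := by
  classical
  intro ι _ w F hF
  have hw := dual_weight N hDC w F hF
  have h := hF.finrank_cusp hDC 2
  change Module.finrank ℂ (CuspForm (G0 N) 2) = _
  rw [h, dual_card_filter]
  refine Finset.sum_congr rfl fun j _ => ?_
  by_cases hj : w j = 10
  · rw [if_pos hj, hj]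
    exact gen_finrank_levelOne_values.1
  · rw [if_neg hj]
    exact gen_finrank_levelOne_neg (by
      have := hw j
      omega)

/-- (CUSP) from the rank statement. -/
theorem cuspCount_of (N : ℕ) [NeZero N] (hDC : DualCuspStatement N)
    (hCR : CuspRankStatement N) : CuspCountStatement N := by
  classical
  intro ι _ w F hF
  have hw := dual_weight N hDC w F hF
  have hM := (hF.basis.finrank 14).2
  have hS := hF.finrank_cusp hDC 14
  have hR := hCR w F hF hw
  rw [hM, hS] at hR
  obtain ⟨a0, a2, a4, a6, a8, a10, a12, a14⟩ := gen_finrank_levelOne_values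
  set a : ℤ → ℕ := fun k => Module.finrank ℂ (ModularForm G1 k) with ha
  change ∑ i, a (14 - w i) = ∑ j, a (14 - (12 - w j)) + orbits N ModularGroup.T at hR
  change a 0 = 1 at a0
  change a 2 = 0 at a2
  change a 4 = 1 at a4
  change a 6 = 1 at a6
  change a 8 = 1 at a8
  change a 10 = 1 at a10
  change a 12 = 2 at a12
  change a 14 = 1 at a14
  -- evaluate the two sums termwise
  have hwt : ∀ i, w i = 0 ∨ w i = 2 ∨ w i = 4 ∨ w i = 6 ∨ w i = 8 ∨ w i = 10 := by
    intro i
    have h1 := hF.nonneg i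
    have h2 := hw i
    obtain ⟨j, hj⟩ := hF.even i
    omega
  have hMi : ∀ i, a (14 - w i) = 1 + (if w i = 2 then 1 else 0) := by
    intro i
    rcases hwt i with h | h | h | h | h | h <;> rw [h] <;> norm_num <;> assumption
  have hSi : ∀ i, a (14 - (12 - w i)) + (if w i = 0 then 1 else 0)
      = 1 + (if w i = 10 then 1 else 0) := by
    intro i
    rcases hwt i with h | h | h | h | h | h <;> rw [h] <;> norm_num <;> assumption
  have e1 : ∑ i, a (14 - w i) = ∑ i : ι, (1 + (if w i = 2 then 1 else 0)) :=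
    Finset.sum_congr rfl fun i _ => hMi i
  have e2 : ∑ i, (a (14 - (12 - w i)) + (if w i = 0 then 1 else 0)) =
      ∑ i : ι, (1 + (if w i = 10 then 1 else 0)) :=
    Finset.sum_congr rfl fun i _ => hSi i
  rw [Finset.sum_add_distrib] at e1 e2
  rw [Finset.sum_add_distrib] at e2
  rw [dual_card_filter, dual_card_filter, dual_card_filter]
  omega

end Fermat.Agent.S20
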