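/-
S20, package (EIG): evaluation of a frame at the elliptic points `i` and `ρ`.
Owner: helper13.  Prefix `eig_`.

If `g • z₀ = z₀` then the vector of translates `vec N k f z₀` is an eigenvector of the
permutation operator of `g` on `X N → ℂ`, with eigenvalue `denom(g, z₀)^(-k)`.  For a frame
the vectors `vec N (w i) (F i) z₀` form a basis of `X N → ℂ`, so the number of `i` with
eigenvalue `1` is the dimension of the space of `g`-invariant functions on `X N`, i.e. the
number of orbits of `⟨g⟩`.
-/
import Mathlib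
import Fermat.Agent.S20.Defs
import Fermat.Agent.S24.JOrder

set_option autoImplicit false

noncomputable section

namespace Fermat.Agent.S20

open UpperHalfPlane CongruenceSubgroup Matrix.SpecialLinearGroup MulAction Module
open scoped MatrixGroups ModularForm Manifold
open Fermat.Agent.S22 (IsMF IsCF G0 G1)

/-! ### Generic linear algebra: a basis of eigenvectors of a permutation operator -/

section LinearAlgebra

variable {G X : Type*} [Group G] [MulAction G X] (𝕜 : Type*) [Field 𝕜]

/-- The space of `𝕜`-valued functions on `X` invariant under `g`. -/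
def eig_fix (g : G) : Submodule 𝕜 (X → 𝕜) where
  carrier := {f | ∀ x, f (g • x) = f x}
  add_mem' := by
    intro a b ha hb x
    simp only [Pi.add_apply, ha x, hb x]
  zero_mem' := by
    intro x
    rfl
  smul_mem' := by
    intro c a ha x
    simp only [Pi.smul_apply, ha x]

variable {𝕜}

theorem eig_mem_fix {g : G} {f : X → 𝕜} : f ∈ eig_fix 𝕜 g ↔ ∀ x, f (g • x) = f x := Iff.rfl

theorem eig_fix_zpow {g : G} {f : X → 𝕜} (hf : f ∈ eig_fix 𝕜 g) (k : ℤ) (x : X) :
    f ((g ^ k) • x) = f x := by
  rw [eig_mem_fix] at hf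
  induction k using Int.induction_on generalizing x with
  | zero => simp
  | succ n ih => rw [zpow_add_one, mul_smul, ih, hf]
  | pred n ih =>
    rw [zpow_sub_one, mul_smul, ih]
    have := hf (g⁻¹ • x)
    rw [smul_inv_smul] at this
    exact this.symm

variable (𝕜) in
/-- The invariant functions are the functions on the orbit space. -/
def eig_fixEquiv (g : G) :
    (orbitRel.Quotient (Subgroup.zpowers g) X → 𝕜) ≃ₗ[𝕜] eig_fix (X := X) 𝕜 g where
  toFun φ := ⟨fun x => φ (Quotient.mk'' x), by
    rw [eig_mem_fix]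
    intro x
    congr 1
    apply Quotient.sound'
    refine ⟨⟨g, Subgroup.mem_zpowers g⟩, rfl⟩⟩
  map_add' φ ψ := rfl
  map_smul' c φ := rfl
  invFun f := Quotient.lift (s := orbitRel (Subgroup.zpowers g) X) (f : X → 𝕜) (by
    rintro x y ⟨⟨h, hh⟩, rfl⟩
    obtain ⟨k, rfl⟩ := Subgroup.mem_zpowers_iff.mp hh
    exact eig_fix_zpow f.2 k y)
  left_inv φ := by
    funext q
    induction q using Quotient.inductionOn' with
    | h x => rfl
  right_inv f := rfl

theorem eig_finrank_fix [Finite X] (g : G) :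
    finrank 𝕜 (eig_fix (X := X) 𝕜 g) = Nat.card (orbitRel.Quotient (Subgroup.zpowers g) X) := by
  classical
  have : Fintype X := Fintype.ofFinite X
  have : Fintype (orbitRel.Quotient (Subgroup.zpowers g) X) := Fintype.ofFinite _
  rw [← (eig_fixEquiv 𝕜 g).finrank_eq, Module.finrank_fintype_fun_eq_card,
    Nat.card_eq_fintype_card]

theorem eig_fix_inv (g : G) : eig_fix (X := X) 𝕜 g⁻¹ = eig_fix 𝕜 g := by
  ext f
  rw [eig_mem_fix, eig_mem_fix]
  constructor
  · intro h x
    have := h (g • x)
    rw [inv_smul_smul] at this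
    exact this.symm
  · intro h x
    have := h (g⁻¹ • x)
    rw [smul_inv_smul] at this
    exact this.symm

/-- **Counting eigenvalues `1`.**  If `b` is a linearly independent family of `|X|` functions
on `X`, each an eigenvector of the pull-back by `g`, then the number of eigenvalues equal to `1`
is the dimension of the space of `g`-invariant functions. -/
theorem eig_card_eq_finrank_fix [Finite X] {ι : Type*} [Fintype ι] (g : G) (b : ι → X → 𝕜)
    (hb : LinearIndependent 𝕜 b) (hcard : Fintype.card ι = Nat.card X) (lam : ι → 𝕜)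
    (hlam : ∀ i x, b i (g • x) = lam i * b i x) :
    Nat.card {i : ι // lam i = 1} = finrank 𝕜 (eig_fix (X := X) 𝕜 g) := by
  classical
  have : Fintype X := Fintype.ofFinite X
  -- the span of the eigenvectors with eigenvalue 1
  have hspan : Submodule.span 𝕜 (Set.range fun i : {i : ι // lam i = 1} => b i) =
      eig_fix (X := X) 𝕜 g := by
    apply le_antisymm
    · rw [Submodule.span_le]
      rintro _ ⟨⟨i, hi⟩, rfl⟩
      intro x
      simp only [hlam i x, hi, one_mul]
    · intro f hf
      have hfin : Fintype.card ι = finrank 𝕜 (X → 𝕜) := by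
        rw [Module.finrank_fintype_fun_eq_card, hcard, Nat.card_eq_fintype_card]
      have htop : Submodule.span 𝕜 (Set.range b) = ⊤ :=
        hb.span_eq_top_of_card_eq_finrank' hfin
      have hfmem : f ∈ Submodule.span 𝕜 (Set.range b) := htop ▸ Submodule.mem_top
      obtain ⟨c, hc⟩ := (Submodule.mem_span_range_iff_exists_fun 𝕜).mp hfmem
      -- the coefficients vanish off the eigenvalue `1`
      have hzero : ∑ i, (c i * (lam i - 1)) • b i = 0 := by
        funext x
        have h1 : f (g • x) = f x := hf x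
        rw [← hc] at h1
        simp only [Finset.sum_apply, Pi.smul_apply, smul_eq_mul, hlam] at h1
        simp only [Finset.sum_apply, Pi.smul_apply, smul_eq_mul, Pi.zero_apply]
        have : ∑ i, c i * (lam i - 1) * b i x =
            ∑ i, c i * (lam i * b i x) - ∑ i, c i * b i x := by
          rw [← Finset.sum_sub_distrib]
          refine Finset.sum_congr rfl fun i _ => by ring
        rw [this, h1, sub_self]
      have hci : ∀ i, c i * (lam i - 1) = 0 := fun i =>
        (Fintype.linearIndependent_iff.mp hb) _ hzero i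
      rw [← hc]
      refine Submodule.sum_mem _ fun i _ => ?_
      by_cases hi : lam i = 1
      · exact Submodule.smul_mem _ _ (Submodule.subset_span ⟨⟨i, hi⟩, rfl⟩)
      · have : c i = 0 := by
          rcases mul_eq_zero.mp (hci i) with h | h
          · exact h
          · exact absurd (sub_eq_zero.mp h) hi
        rw [this, zero_smul]
        exact Submodule.zero_mem _
  have hli : LinearIndependent 𝕜 (fun i : {i : ι // lam i = 1} => b i) :=
    hb.comp _ Subtype.val_injective
  rw [← hspan, finrank_span_eq_card hli, Nat.card_eq_fintype_card]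

/-- **Counting eigenvalues `1`**, orbit form, for eigenvectors of the pull-back by `g⁻¹`. -/
theorem eig_card_eq_orbits [Finite X] {ι : Type*} [Fintype ι] (g : G) (b : ι → X → 𝕜)
    (hb : LinearIndependent 𝕜 b) (hcard : Fintype.card ι = Nat.card X) (lam : ι → 𝕜)
    (hlam : ∀ i x, b i (g⁻¹ • x) = lam i * b i x) :
    Nat.card {i : ι // lam i = 1} = Nat.card (orbitRel.Quotient (Subgroup.zpowers g) X) := by
  rw [eig_card_eq_finrank_fix g⁻¹ b hb hcard lam hlam, eig_fix_inv, eig_finrank_fix]

end LinearAlgebra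

/-! ### Translates at a fixed point -/

section Translates

variable (N : ℕ) (k : ℤ)

/-- A form of level `Γ₀(N)` is invariant under the slash action of `Γ₀(N) ⊆ SL(2,ℤ)`. -/
theorem eig_slash_eq {f : ℍ → ℂ} (hf : IsMF (G0 N) k f) (γ : SL(2, ℤ)) (hγ : γ ∈ Gamma0 N) :
    f ∣[k] γ = f := by
  obtain ⟨F, rfl⟩ := hf
  rw [ModularForm.SL_slash]
  exact F.slash_action_eq' _ ⟨γ, hγ, rfl⟩

/-- The translate law: `(tr f x) ∣ g = tr f (g⁻¹ • x)`. -/
theorem eig_tr_slash {f : ℍ → ℂ} (hf : ∀ γ ∈ Gamma0 N, f ∣[k] γ = f) (x : X N)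
    (g : SL(2, ℤ)) : (tr N k f x) ∣[k] g = tr N k f (g⁻¹ • x) := by
  unfold tr
  rw [← SlashAction.slash_mul]
  have hx : (QuotientGroup.mk (Quotient.out x) : X N) = x := QuotientGroup.out_eq' x
  have h1 : (g⁻¹ • x : X N) = QuotientGroup.mk (g⁻¹ * Quotient.out x) := by
    conv_lhs => rw [← hx]
    rfl
  have h2 : (QuotientGroup.mk (Quotient.out (g⁻¹ • x)) : X N) =
      QuotientGroup.mk (g⁻¹ * Quotient.out x) := by
    rw [QuotientGroup.out_eq', h1]
  rw [QuotientGroup.eq] at h2
  have h3 : (Quotient.out (g⁻¹ • x))⁻¹ =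
      ((Quotient.out (g⁻¹ • x))⁻¹ * (g⁻¹ * Quotient.out x)) * ((Quotient.out x)⁻¹ * g) := by
    group
  have h4 : f ∣[k] (Quotient.out (g⁻¹ • x))⁻¹ = f ∣[k] ((Quotient.out x)⁻¹ * g) := by
    conv_lhs => rw [h3]
    rw [SlashAction.slash_mul, hf _ h2]
  rw [h4]

/-- At a fixed point `z₀` of `g`, the vector of translates is an eigenvector of the
permutation operator of `g`. -/
theorem eig_vec_smul {f : ℍ → ℂ} (hf : ∀ γ ∈ Gamma0 N, f ∣[k] γ = f) (g : SL(2, ℤ))
    (z₀ : ℍ) (hz : g • z₀ = z₀) (x : X N) :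
    vec N k f z₀ (g⁻¹ • x) = (denom g z₀) ^ (-k) * vec N k f z₀ x := by
  unfold vec
  rw [← eig_tr_slash N k hf x g, ModularForm.SL_slash_apply, hz, mul_comm]

/-- Evaluation of a frame at a fixed point `z₀` of `g`: the number of basis elements whose
weight `w` satisfies `denom(g, z₀)^(-w) = 1` is the number of orbits of `⟨g⟩` on `X N`. -/
theorem eig_card_of_fixed [NeZero N] {ι : Type} [Fintype ι] (w : ι → ℤ) (F : ι → ℍ → ℂ)
    (hF : Frame N w F) (g : SL(2, ℤ)) (z₀ : ℍ) (hz : g • z₀ = z₀) :
    Nat.card {i : ι // (denom g z₀) ^ (-(w i)) = 1} = orbits N g :=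
  eig_card_eq_orbits (𝕜 := ℂ) (X := X N) g (fun i => vec N (w i) (F i) z₀) (hF.loc z₀)
    hF.card (fun i => denom g z₀ ^ (-(w i)))
    (fun i x => eig_vec_smul N (w i)
      (fun γ hγ => eig_slash_eq N (w i) (hF.basis.isMF i) γ hγ) g z₀ hz x)

end Translates

/-! ### Roots of unity -/

theorem eig_isPrimitiveRoot_I : IsPrimitiveRoot Complex.I 4 := by
  refine IsPrimitiveRoot.mk_of_lt _ (by norm_num) Complex.I_pow_four ?_
  intro l hl0 hl4 h
  interval_cases l
  · rw [pow_one] at h
    have := congrArg Complex.re h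
    simp at this
  · rw [Complex.I_sq] at h
    have := congrArg Complex.re h
    norm_num at this
  · rw [Complex.I_pow_three] at h
    have := congrArg Complex.re h
    simp at this

theorem eig_isPrimitiveRoot_rho :
    IsPrimitiveRoot ((Fermat.Agent.S24.anE_rho : ℂ) + 1) 6 := by
  have h := Fermat.Agent.S24.anE_rho_sq_add
  set ρ : ℂ := (Fermat.Agent.S24.anE_rho : ℂ) with hρ
  have h6 : (ρ + 1) ^ 6 = 1 := by
    linear_combination (ρ ^ 4 + 5 * ρ ^ 3 + 9 * ρ ^ 2 + 6 * ρ) * h
  refine IsPrimitiveRoot.mk_of_lt (ρ + 1) (by norm_num : 0 < 6) h6 ?_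
  intro l hl0 hl6 hl
  interval_cases l
  · -- ρ + 1 = 1, so ρ = 0
    have h0 : ρ = 0 := by linear_combination hl
    rw [h0] at h
    norm_num at h
  · -- (ρ+1)^2 = ρ = 1
    have h1 : ρ = 1 := by linear_combination hl - h
    rw [h1] at h
    norm_num at h
  · -- (ρ+1)^3 = -1
    have h1 : (ρ + 1) ^ 3 = -1 := by linear_combination (ρ + 2) * h
    rw [h1] at hl
    norm_num at hl
  · -- (ρ+1)^4 = -(ρ+1) = 1, so ρ = -2
    have h1 : ρ = -2 := by linear_combination -hl + (ρ ^ 2 + 3 * ρ + 2) * h
    rw [h1] at h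
    norm_num at h
  · -- (ρ+1)^5 = -ρ = 1
    have h1 : ρ = -1 := by linear_combination -hl + (ρ ^ 3 + 4 * ρ ^ 2 + 5 * ρ + 1) * h
    rw [h1] at h
    norm_num at h

/-! ### The two statements -/

/-- **(EIG-S)** -/
theorem eig_S (N : ℕ) [NeZero N] : EigSStatement N := by
  intro ι _ w F hF
  rw [← eig_card_of_fixed N w F hF ModularGroup.S UpperHalfPlane.I
    Fermat.Agent.S24.anE_S_smul_I]
  refine Nat.card_congr (Equiv.subtypeEquivRight fun i => ?_)
  rw [ModularGroup.denom_S, UpperHalfPlane.coe_I, eig_isPrimitiveRoot_I.zpow_eq_one_iff_dvd,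
    dvd_neg]
  rfl

/-- **(EIG-ST)** -/
theorem eig_ST (N : ℕ) [NeZero N] : EigSTStatement N := by
  intro ι _ w F hF
  rw [← eig_card_of_fixed N w F hF (ModularGroup.S * ModularGroup.T) Fermat.Agent.S24.anE_rho
    Fermat.Agent.S24.anE_ST_smul_rho]
  refine Nat.card_congr (Equiv.subtypeEquivRight fun i => ?_)
  rw [Fermat.Agent.S24.anE_denom_ST, eig_isPrimitiveRoot_rho.zpow_eq_one_iff_dvd, dvd_neg]
  rfl

end Fermat.Agent.S20
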