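import Mathlib

/-!
# S20: vanishing power sums (Mathlib only)

If all power sums `∑ x, v x ^ (j+1)` of a finite family of complex numbers vanish, the family
is zero.
-/

set_option autoImplicit false

namespace Fermat.Agent.S20

open Polynomial

theorem psum_sum_eval_eq_zero {α : Type*} [Fintype α] (v : α → ℂ)
    (h : ∀ j : ℕ, ∑ x, v x ^ (j + 1) = 0) (P : ℂ[X]) (hP : P.eval 0 = 0) :
    ∑ x, P.eval (v x) = 0 := by
  have h0 : P.coeff 0 = 0 := by rwa [← Polynomial.coeff_zero_eq_eval_zero] at hP
  simp_rw [Polynomial.eval_eq_sum_range]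
  rw [Finset.sum_comm]
  refine Finset.sum_eq_zero fun i _ => ?_
  rw [← Finset.mul_sum]
  rcases Nat.eq_zero_or_pos i with rfl | hi
  · rw [h0, zero_mul]
  · obtain ⟨j, rfl⟩ : ∃ j, i = j + 1 := ⟨i - 1, by omega⟩
    rw [h j, mul_zero]

/-- If all power sums of positive degree vanish, then the family is zero. -/
theorem psum_eq_zero {α : Type*} [Fintype α] (v : α → ℂ)
    (h : ∀ j : ℕ, ∑ x, v x ^ (j + 1) = 0) : v = 0 := by
  classical
  by_contra hv
  obtain ⟨x₀, hx₀⟩ : ∃ x₀, v x₀ ≠ 0 := by
    by_contra hcon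
    exact hv (funext fun x => by
      by_contra hx
      exact hcon ⟨x, hx⟩)
  set a := v x₀ with ha
  set S : Finset ℂ := (Finset.univ.image v).erase a with hS
  set P : ℂ[X] := X * ∏ s ∈ S, (X - C s) with hP
  have hP0 : P.eval 0 = 0 := by simp [hP]
  have key := psum_sum_eval_eq_zero v h P hP0
  have hval : ∀ x, P.eval (v x) = if v x = a then P.eval a else 0 := by
    intro x
    split_ifs with hxa
    · rw [hxa]
    · simp only [hP, eval_mul, eval_X, eval_prod, eval_sub, eval_C]
      refine mul_eq_zero_of_right _ (Finset.prod_eq_zero (i := v x) ?_ (sub_self _))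
      exact Finset.mem_erase.mpr ⟨hxa, Finset.mem_image_of_mem _ (Finset.mem_univ _)⟩
  simp_rw [hval] at key
  rw [Finset.sum_ite, Finset.sum_const_zero, add_zero, Finset.sum_const, nsmul_eq_mul] at key
  have hPa : P.eval a ≠ 0 := by
    simp only [hP, eval_mul, eval_X, eval_prod, eval_sub, eval_C]
    refine mul_ne_zero hx₀ (Finset.prod_ne_zero_iff.mpr fun s hs => ?_)
    exact sub_ne_zero.mpr (Finset.ne_of_mem_erase hs).symm
  have hcard : ((Finset.univ.filter fun x => v x = a).card : ℂ) ≠ 0 := by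
    have : 0 < (Finset.univ.filter fun x => v x = a).card :=
      Finset.card_pos.mpr ⟨x₀, by simp [ha]⟩
    exact_mod_cast this.ne'
  exact (mul_ne_zero hcard hPa) key

end Fermat.Agent.S20
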