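import Mathlib
import Fermat.Agent.S22.Basic
import Fermat.Agent.S22.Forms
import Fermat.Agent.S20.Defs
import Fermat.Agent.S20.Conj
import Fermat.Agent.S20.LevelOne
import Fermat.Agent.S20.PowerSum

/-!
# S20, package (LOC): local independence of a free basis

`loc_of_key : KeyStatement N → LocStatement N`.
-/

set_option autoImplicit false

noncomputable section

namespace Fermat.Agent.S20

open UpperHalfPlane CongruenceSubgroup Matrix.SpecialLinearGroup ModularForm
open scoped MatrixGroups ModularForm Manifold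
open Fermat.Agent.S22 (IsMF IsCF G0 G1 isMF_E4 isMF_E6)

variable {N : ℕ} {ι : Type} {w : ι → ℤ} {F : ι → ℍ → ℂ}

/-! ### basic facts on free bases -/

theorem FreeBasis.ne_zero (hB : FreeBasis N w F) (i : ι) : F i ≠ 0 := by
  intro h
  have h1 := hB.indep (w i) {i} (fun _ => 1)
    (fun j hj => by
      rw [Finset.mem_singleton] at hj
      subst hj
      exact IsMF.one.cast (by ring))
    (by simp [h]) i (Finset.mem_singleton_self i)
  have := congrFun h1 UpperHalfPlane.I
  simp at this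

theorem FreeBasis.even_weight (hB : FreeBasis N w F) (i : ι) : Even (w i) := by
  by_contra h
  exact hB.ne_zero i (eq_zero_of_odd (hB.isMF i) (Int.not_even_iff_odd.mp h))

theorem FreeBasis.nonneg_weight [NeZero N] (hB : FreeBasis N w F) (i : ι) : 0 ≤ w i := by
  by_contra h
  exact hB.ne_zero i (eq_zero_of_neg (hB.isMF i) (not_le.mp h))

theorem loc_isMF_comb (hB : FreeBasis N w F) (k : ℤ) (s : Finset ι) (h : ι → ℍ → ℂ)
    (hh : ∀ i ∈ s, IsMF G1 (k - w i) (h i)) : IsMF (G0 N) k (∑ i ∈ s, h i * F i) :=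
  IsMF.sum s fun i hi => (((hh i hi).restrict_G0 N).mul (hB.isMF i)).cast (by ring)

/-! ### Step A: consequences of (KEY) -/

theorem loc_stepA (hKey : KeyStatement N) (hB : FreeBasis N w F) (z₀ : ℍ) (k : ℤ)
    (s : Finset ι) (h : ι → ℍ → ℂ) (hh : ∀ i ∈ s, IsMF G1 (k - w i) (h i))
    (hsum : ∑ i ∈ s, h i z₀ • vec N (w i) (F i) z₀ = 0) : ∀ i ∈ s, h i z₀ = 0 := by
  classical
  obtain ⟨m, π, hπ, hπ0, hdiv⟩ := hKey z₀
  set f : ℍ → ℂ := ∑ i ∈ s, h i * F i with hf
  have hfMF : IsMF (G0 N) k f := loc_isMF_comb hB k s h hh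
  have hvec : vec N k f z₀ = 0 := by rw [hf, vec_comb s w F h hh z₀, hsum]
  obtain ⟨f', hf', hff'⟩ := hdiv k f hfMF (fun x => by
    have := congrFun hvec x
    simpa [vec] using this)
  obtain ⟨s', g, hg, hf'g⟩ := hB.span (k - m) f' hf'
  -- the combined coefficients
  set c : ι → ℍ → ℂ := fun i => (if i ∈ s then h i else 0) - (if i ∈ s' then π * g i else 0)
    with hc
  have hcMF : ∀ i ∈ s ∪ s', IsMF G1 (k - w i) (c i) := by
    intro i _
    refine IsMF.sub ?_ ?_
    · split_ifs with hi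
      · exact hh i hi
      · exact IsMF.zero
    · split_ifs with hi
      · exact (hπ.mul (hg i)).cast (by ring)
      · exact IsMF.zero
  have hcsum : ∑ i ∈ s ∪ s', c i * F i = 0 := by
    simp only [hc, sub_mul, Finset.sum_sub_distrib, ite_mul, zero_mul]
    rw [← Finset.sum_filter, ← Finset.sum_filter]
    have h1 : (s ∪ s').filter (fun i => i ∈ s) = s := by
      ext i; simp only [Finset.mem_filter, Finset.mem_union]; tauto
    have h2 : (s ∪ s').filter (fun i => i ∈ s') = s' := by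
      ext i; simp only [Finset.mem_filter, Finset.mem_union]; tauto
    rw [h1, h2, ← hf, hff', hf'g, Finset.mul_sum]
    rw [sub_eq_zero]
    exact Finset.sum_congr rfl fun i _ => by ring
  have hzero := hB.indep k (s ∪ s') c hcMF hcsum
  intro i hi
  have h0 := congrFun (hzero i (Finset.mem_union_left _ hi)) z₀
  simp only [hc, if_pos hi, Pi.sub_apply, Pi.zero_apply] at h0
  split_ifs at h0 with hi'
  · simp only [Pi.mul_apply, hπ0, zero_mul, sub_zero] at h0
    exact h0
  · simpa using h0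

/-! ### classes of vectors of values -/

/-- `v` is the vector of values at `z₀` of a form of weight `≡ r` modulo `D`. -/
def Cls (N : ℕ) (z₀ : ℍ) (D r : ℤ) (v : X N → ℂ) : Prop :=
  ∃ (k : ℤ) (f : ℍ → ℂ), IsMF (G0 N) k f ∧ D ∣ (k - r) ∧ v = vec N k f z₀

theorem Cls.mul {z₀ : ℍ} {D r r' : ℤ} {u v : X N → ℂ} (hu : Cls N z₀ D r u)
    (hv : Cls N z₀ D r' v) : Cls N z₀ D (r + r') (u * v) := by
  obtain ⟨k, f, hf, hk, rfl⟩ := hu
  obtain ⟨k', f', hf', hk', rfl⟩ := hv
  refine ⟨k + k', f * f', hf.mul hf', ?_, ?_⟩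
  · have : k + k' - (r + r') = (k - r) + (k' - r') := by ring
    rw [this]
    exact dvd_add hk hk'
  · ext x
    simp [vec, tr_mul]

theorem Cls.one (z₀ : ℍ) (D : ℤ) : Cls N z₀ D 0 (1 : X N → ℂ) := by
  refine ⟨0, 1, IsMF.one, by simp, ?_⟩
  ext x
  simp only [vec, Pi.one_apply]
  rw [tr_levelOne (IsMF.one : IsMF G1 0 1)]
  rfl

theorem Cls.pow {z₀ : ℍ} {D r : ℤ} {u : X N → ℂ} (hu : Cls N z₀ D r u) (n : ℕ) :
    Cls N z₀ D (n * r) (u ^ n) := by
  induction n with
  | zero => simpa using Cls.one z₀ D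
  | succ n ih =>
    have : ((n + 1 : ℕ) : ℤ) * r = n * r + r := by push_cast; ring
    rw [this, pow_succ]
    exact ih.mul hu

theorem Cls.congr {z₀ : ℍ} {D r r' : ℤ} {u : X N → ℂ} (hu : Cls N z₀ D r u)
    (h : D ∣ r - r') : Cls N z₀ D r' u := by
  obtain ⟨k, f, hf, hk, rfl⟩ := hu
  refine ⟨k, f, hf, ?_, rfl⟩
  have : k - r' = (k - r) + (r - r') := by ring
  rw [this]
  exact dvd_add hk h

/-- the coordinate sum of a vector in a nonzero class vanishes. -/
theorem Cls.sum_eq_zero [NeZero N] [Fintype (X N)] {z₀ : ℍ} {D r : ℤ} {u : X N → ℂ}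
    (hvan : ∀ (k : ℤ) (g : ℍ → ℂ), IsMF G1 k g → ¬ D ∣ k → g z₀ = 0)
    (hu : Cls N z₀ D r u) (hr : ¬ D ∣ r) : ∑ x, u x = 0 := by
  obtain ⟨k, f, hf, hk, rfl⟩ := hu
  have hDk : ¬ D ∣ k := by
    intro h
    apply hr
    have : r = k - (k - r) := by ring
    rw [this]
    exact dvd_sub h hk
  have := hvan k _ (trace N k f hf) hDk
  simpa [vec] using this

/-- **graded vanishing**: vectors of values in pairwise different classes which sum to zero
are all zero. -/
theorem loc_graded [NeZero N] {z₀ : ℍ} {D : ℤ}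
    (hvan : ∀ (k : ℤ) (g : ℍ → ℂ), IsMF G1 k g → ¬ D ∣ k → g z₀ = 0)
    (T : Finset ℤ) (hT : ∀ r ∈ T, ∀ r' ∈ T, D ∣ r' - r → r' = r) (v : ℤ → X N → ℂ)
    (hv : ∀ r ∈ T, Cls N z₀ D r (v r)) (hsum : ∑ r ∈ T, v r = 0) : ∀ r ∈ T, v r = 0 := by
  classical
  let _ : Fintype (X N) := Fintype.ofFinite _
  intro r hr
  refine psum_eq_zero (v r) fun n => ?_
  by_cases hdiv : D ∣ ((n + 1 : ℕ) : ℤ) * r
  · -- replace one factor by minus the sum of the others
    have hvr : v r = -∑ r' ∈ T.erase r, v r' := by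
      rw [← Finset.add_sum_erase T v hr] at hsum
      exact eq_neg_of_add_eq_zero_left hsum
    have hpow : ∀ x, v r x ^ (n + 1) = -∑ r' ∈ T.erase r, (v r ^ n * v r') x := by
      intro x
      have hx : v r x = -∑ r' ∈ T.erase r, v r' x := by
        have := congrFun hvr x
        simpa using this
      have h2 : v r x ^ n * v r x = v r x ^ n * (-∑ r' ∈ T.erase r, v r' x) :=
        congrArg (fun t => v r x ^ n * t) hx
      rw [pow_succ, h2]
      simp only [Pi.mul_apply, Pi.pow_apply, mul_neg, Finset.mul_sum]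
    simp_rw [hpow]
    rw [Finset.sum_neg_distrib, neg_eq_zero, Finset.sum_comm]
    refine Finset.sum_eq_zero fun r' hr' => ?_
    have hr'T : r' ∈ T := Finset.mem_of_mem_erase hr'
    have hne : r' ≠ r := Finset.ne_of_mem_erase hr'
    refine Cls.sum_eq_zero hvan (((hv r hr).pow n).mul (hv r' hr'T)) ?_
    intro hcon
    apply hne
    apply hT r hr r' hr'T
    have : r' - r = (n * r + r') - ((n + 1 : ℕ) : ℤ) * r := by push_cast; ring
    rw [this]
    exact dvd_sub hcon hdiv
  · have := Cls.sum_eq_zero hvan ((hv r hr).pow (n + 1)) hdiv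
    simpa using this

/-! ### the core of (LOC) -/

theorem loc_core [NeZero N] (hKey : KeyStatement N) (hB : FreeBasis N w F) (z₀ : ℍ) (D : ℤ)
    (hD : 2 ≤ D)
    (hvan : ∀ (k : ℤ) (g : ℍ → ℂ), IsMF G1 k g → ¬ D ∣ k → g z₀ = 0)
    (hex : ∀ m : ℤ, 4 ≤ m → D ∣ m → ∃ e : ℍ → ℂ, IsMF G1 m e ∧ e z₀ ≠ 0) :
    LinearIndependent ℂ (fun i : ι => vec N (w i) (F i) z₀) := by
  classical
  rw [linearIndependent_iff']
  intro s c hsum
  -- a bound for the weights
  set K : ℤ := ∑ i ∈ s, w i with hK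
  have hwK : ∀ i ∈ s, w i ≤ K := fun i hi =>
    Finset.single_le_sum (f := w) (fun j _ => hB.nonneg_weight j) hi
  have hK0 : 0 ≤ K := Finset.sum_nonneg fun j _ => hB.nonneg_weight j
  -- the weight attached to a residue
  set kk : ℤ → ℤ := fun r => r + D * (K + 4) with hkk
  have hm4 : ∀ i ∈ s, 4 ≤ kk (w i % D) - w i := by
    intro i hi
    have h1 := hwK i hi
    have h2 : 0 ≤ w i % D := Int.emod_nonneg _ (by omega)
    simp only [hkk]
    nlinarith
  have hmD : ∀ i, D ∣ kk (w i % D) - w i := by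
    intro i
    have : kk (w i % D) - w i = D * (K + 4 - w i / D) := by
      simp only [hkk]
      have := Int.emod_add_mul_ediv (w i) D
      linear_combination this
    rw [this]
    exact dvd_mul_right _ _
  -- the level one coefficients
  have hchoice : ∀ i, ∃ e : ℍ → ℂ, i ∈ s → (IsMF G1 (kk (w i % D) - w i) e ∧ e z₀ ≠ 0) := by
    intro i
    by_cases hi : i ∈ s
    · obtain ⟨e, he⟩ := hex _ (hm4 i hi) (hmD i)
      exact ⟨e, fun _ => he⟩
    · exact ⟨0, fun h => absurd h hi⟩
  choose e he using hchoice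
  set h : ι → ℍ → ℂ := fun i => (c i / e i z₀) • e i with hh
  have hhz : ∀ i ∈ s, h i z₀ = c i := by
    intro i hi
    simp only [hh, Pi.smul_apply, smul_eq_mul]
    exact div_mul_cancel₀ _ (he i hi).2
  have hhMF : ∀ i ∈ s, IsMF G1 (kk (w i % D) - w i) (h i) := fun i hi =>
    (he i hi).1.smul _
  -- the classes
  set T : Finset ℤ := Finset.Ico 0 D with hT
  set sr : ℤ → Finset ι := fun r => s.filter (fun i => w i % D = r) with hsr
  set v : ℤ → X N → ℂ := fun r => ∑ i ∈ sr r, c i • vec N (w i) (F i) z₀ with hv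
  have hsrMF : ∀ r, ∀ i ∈ sr r, IsMF G1 (kk r - w i) (h i) := by
    intro r i hi
    have hi' := Finset.mem_filter.mp hi
    have := hhMF i hi'.1
    rwa [hi'.2] at this
  have hveq : ∀ r, v r = vec N (kk r) (∑ i ∈ sr r, h i * F i) z₀ := by
    intro r
    rw [vec_comb (sr r) w F h (hsrMF r) z₀]
    refine Finset.sum_congr rfl fun i hi => ?_
    rw [hhz i (Finset.mem_filter.mp hi).1]
  have hcls : ∀ r ∈ T, Cls N z₀ D r (v r) := by
    intro r _
    refine ⟨kk r, _, loc_isMF_comb hB (kk r) (sr r) h (hsrMF r), ?_, hveq r⟩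
    simp only [hkk]
    have : r + D * (K + 4) - r = D * (K + 4) := by ring
    rw [this]
    exact dvd_mul_right _ _
  have hTinj : ∀ r ∈ T, ∀ r' ∈ T, D ∣ r' - r → r' = r := by
    intro r hr r' hr' hdvd
    rw [hT, Finset.mem_Ico] at hr hr'
    obtain ⟨q, hq⟩ := hdvd
    have hq0 : q = 0 := by
      by_contra hq0
      rcases lt_or_gt_of_ne hq0 with h | h
      · have : D * q ≤ D * (-1) := by
          apply mul_le_mul_of_nonneg_left _ (by omega)
          omega
        omega
      · have : D * 1 ≤ D * q := by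
          apply mul_le_mul_of_nonneg_left _ (by omega)
          omega
        omega
    rw [hq0, mul_zero] at hq
    omega
  have hvsum : ∑ r ∈ T, v r = 0 := by
    rw [← hsum]
    simp only [hv, hsr]
    refine Finset.sum_fiberwise_of_maps_to (g := fun i => w i % D) (fun i _ => ?_) _
    rw [hT, Finset.mem_Ico]
    exact ⟨Int.emod_nonneg _ (by omega), Int.emod_lt_of_pos _ (by omega)⟩
  have hvzero := loc_graded hvan T hTinj v hcls hvsum
  intro i hi
  have hr : w i % D ∈ T := by
    rw [hT, Finset.mem_Ico]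
    exact ⟨Int.emod_nonneg _ (by omega), Int.emod_lt_of_pos _ (by omega)⟩
  have hisr : i ∈ sr (w i % D) := Finset.mem_filter.mpr ⟨hi, rfl⟩
  have hA := loc_stepA hKey hB z₀ (kk (w i % D)) (sr (w i % D)) h (hsrMF _) (by
    have := hvzero _ hr
    rw [← this]
    simp only [hv]
    refine Finset.sum_congr rfl fun j hj => ?_
    rw [hhz j (Finset.mem_filter.mp hj).1]) i hisr
  rw [← hhz i hi]
  exact hA

/-- (LOC) from (KEY). -/
theorem loc_of_key (N : ℕ) [NeZero N] (hKey : KeyStatement N) : LocStatement N := by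
  intro ι w F hB z₀
  by_cases h6 : E₆ z₀ = 0
  · -- zeros of `E₆`: classes modulo 4
    refine loc_core hKey hB z₀ 4 (by norm_num) (fun k g hg hk => l1_eq_zero_of_E6 hg h6 hk) ?_
    rintro m hm ⟨a, rfl⟩
    have ha : 0 ≤ a := by omega
    lift a to ℕ using ha
    exact l1_exists_ne_zero_E6 h6 a
  by_cases h4 : E₄ z₀ = 0
  · refine loc_core hKey hB z₀ 6 (by norm_num) (fun k g hg hk => l1_eq_zero_of_E4 hg h4 hk) ?_
    rintro m hm ⟨b, rfl⟩
    have hb : 0 ≤ b := by omega
    lift b to ℕ using hb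
    exact l1_exists_ne_zero_E4 h4 b
  · refine loc_core hKey hB z₀ 2 (by norm_num) (fun k g hg hk => ?_) ?_
    · rw [l1_eq_zero_of_odd hg (by
        rw [← Int.not_even_iff_odd]
        intro hev
        exact hk (even_iff_two_dvd.mp hev))]
      rfl
    · intro m hm hm2
      exact l1_exists_ne_zero_generic h4 h6 m hm (even_iff_two_dvd.mpr hm2)

end Fermat.Agent.S20
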