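import Mathlib
import Fermat.Agent.S22.Basic
import Fermat.Agent.S22.Forms
import Fermat.Agent.S22.Indep
import Fermat.Agent.S22.DN
import Fermat.Agent.S20.Defs
import Fermat.Agent.S20.Conj
import Fermat.Agent.S20.Loc

/-!
# S20, package (FRAME): a free basis has exactly `[SL(2,ℤ) : Γ₀(N)]` elements

* `frame_of_free_loc : FreeStatement N → LocStatement N → FrameStatement N`
* `weightZero : WeightZeroStatement N`
-/

set_option autoImplicit false

noncomputable section

namespace Fermat.Agent.S20

open UpperHalfPlane CongruenceSubgroup Matrix.SpecialLinearGroup ModularForm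
open scoped MatrixGroups ModularForm Manifold
open Fermat.Agent.S22 (IsMF IsCF G0 G1 DNfun isMF_DNfun)

variable {N : ℕ} {ι : Type} {w : ι → ℤ} {F : ι → ℍ → ℂ}

/-- the translates of `D_N` are pairwise different functions. -/
theorem frame_tr_DN_injective (N : ℕ) [NeZero N] :
    Function.Injective (fun x : X N => tr N 12 (DNfun N) x) := by
  intro x y hxy
  induction x using Quotient.inductionOn with
  | _ a =>
  induction y using Quotient.inductionOn with
  | _ b =>
    change tr N 12 (DNfun N) (a : X N) = tr N 12 (DNfun N) (b : X N) at hxy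
    rw [tr_mk (isMF_DNfun N), tr_mk (isMF_DNfun N)] at hxy
    have h := Fermat.Agent.S22.Indep.conj_eq_imp N a⁻¹ b⁻¹ hxy
    rw [inv_inv] at h
    exact QuotientGroup.eq.mpr h

/-- a point at which the translates of `D_N` take pairwise different values. -/
theorem frame_exists_sep (N : ℕ) [NeZero N] :
    ∃ z₁ : ℍ, Function.Injective (fun x : X N => tr N 12 (DNfun N) x z₁) := by
  classical
  let _ : Fintype (X N) := Fintype.ofFinite _
  set P : Finset (X N × X N) := Finset.univ.filter (fun p => p.1 ≠ p.2) with hP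
  have hd : ∀ p ∈ P, MDiff (fun z => tr N 12 (DNfun N) p.1 z - tr N 12 (DNfun N) p.2 z) :=
    fun p _ => (mdiff_tr (Fermat.Agent.S22.Indep.mdiff_DNfun N) p.1).sub
      (mdiff_tr (Fermat.Agent.S22.Indep.mdiff_DNfun N) p.2)
  have hne : ∏ p ∈ P, (fun z => tr N 12 (DNfun N) p.1 z - tr N 12 (DNfun N) p.2 z) ≠ 0 := by
    intro h0
    obtain ⟨p, hp, hp0⟩ := (UpperHalfPlane.prod_eq_zero_iff hd).mp h0
    have hpne : p.1 ≠ p.2 := (Finset.mem_filter.mp hp).2
    apply hpne
    apply frame_tr_DN_injective N
    ext z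
    have := congrFun hp0 z
    simpa [sub_eq_zero] using this
  obtain ⟨z₁, hz₁⟩ : ∃ z₁, (∏ p ∈ P, (fun z => tr N 12 (DNfun N) p.1 z -
      tr N 12 (DNfun N) p.2 z)) z₁ ≠ 0 := by
    by_contra hcon
    exact hne (funext fun z => by
      by_contra hz
      exact hcon ⟨z, hz⟩)
  refine ⟨z₁, fun x y hxy => ?_⟩
  by_contra hne'
  apply hz₁
  rw [Finset.prod_apply]
  refine Finset.prod_eq_zero (i := (x, y)) (Finset.mem_filter.mpr ⟨Finset.mem_univ _, hne'⟩) ?_
  simpa [sub_eq_zero] using hxy

/-- a linear functional on `X → ℂ` vanishing on all powers of an injective vector is zero. -/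
theorem frame_functional_eq_zero {α : Type*} [Fintype α] (a : α → ℂ) (ha : Function.Injective a)
    (φ : (α → ℂ) →ₗ[ℂ] ℂ) (h : ∀ j : ℕ, φ (fun x => a x ^ j) = 0) : φ = 0 := by
  classical
  have hpoly : ∀ P : Polynomial ℂ, φ (fun x => P.eval (a x)) = 0 := by
    intro P
    have : (fun x => P.eval (a x)) = ∑ i ∈ Finset.range (P.natDegree + 1),
        P.coeff i • (fun x => a x ^ i) := by
      ext x
      simp [Polynomial.eval_eq_sum_range, Finset.sum_apply]
    rw [this, map_sum]
    refine Finset.sum_eq_zero fun i _ => ?_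
    rw [map_smul, h i, smul_zero]
  have hsingle : ∀ x₀, φ (Pi.single x₀ 1) = 0 := by
    intro x₀
    set P : Polynomial ℂ := ∏ y ∈ Finset.univ.erase x₀, (Polynomial.X - Polynomial.C (a y)) with hP
    have hPx : P.eval (a x₀) ≠ 0 := by
      simp only [hP, Polynomial.eval_prod, Polynomial.eval_sub, Polynomial.eval_X,
        Polynomial.eval_C]
      refine Finset.prod_ne_zero_iff.mpr fun y hy => ?_
      exact sub_ne_zero.mpr fun hxy => (Finset.ne_of_mem_erase hy) (ha hxy).symm
    have hfun : (fun x => P.eval (a x)) = P.eval (a x₀) • Pi.single x₀ (1 : ℂ) := by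
      ext x
      by_cases hx : x = x₀
      · subst hx; simp
      · simp only [Pi.smul_apply, Pi.single_apply, if_neg hx, smul_zero]
        simp only [hP, Polynomial.eval_prod, Polynomial.eval_sub, Polynomial.eval_X,
          Polynomial.eval_C]
        exact Finset.prod_eq_zero (i := x) (Finset.mem_erase.mpr ⟨hx, Finset.mem_univ _⟩)
          (sub_self _)
    have := hpoly P
    rw [hfun, map_smul, smul_eq_mul] at this
    exact (mul_eq_zero.mp this).resolve_left hPx
  refine LinearMap.ext fun u => ?_
  rw [LinearMap.pi_apply_eq_sum_univ φ u]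
  simp only [LinearMap.zero_apply]
  refine Finset.sum_eq_zero fun x _ => ?_
  have : (fun j : α => if x = j then (1 : ℂ) else 0) = Pi.single x 1 := by
    ext j
    simp [Pi.single_apply, eq_comm]
  rw [this, hsingle x, smul_zero]

/-- every vector of values of a form lies in the span of the vectors of the basis. -/
theorem frame_vec_mem_span (hB : FreeBasis N w F) (z : ℍ) (k : ℤ) (f : ℍ → ℂ)
    (hf : IsMF (G0 N) k f) :
    vec N k f z ∈ Submodule.span ℂ (Set.range fun i => vec N (w i) (F i) z) := by
  obtain ⟨s, h, hh, rfl⟩ := hB.span k f hf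
  rw [vec_comb s w F h (fun i _ => hh i) z]
  exact Submodule.sum_mem _ fun i _ =>
    Submodule.smul_mem _ _ (Submodule.subset_span ⟨i, rfl⟩)

theorem frame_span_top [NeZero N] (hB : FreeBasis N w F) :
    ∃ z₁ : ℍ, Submodule.span ℂ (Set.range fun i => vec N (w i) (F i) z₁) = ⊤ := by
  classical
  let _ : Fintype (X N) := Fintype.ofFinite _
  obtain ⟨z₁, hz₁⟩ := frame_exists_sep N
  refine ⟨z₁, ?_⟩
  by_contra hne
  obtain ⟨φ, hφ, hle⟩ := Submodule.exists_le_ker_of_lt_top _ (lt_top_iff_ne_top.mpr hne)
  apply hφ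
  refine frame_functional_eq_zero (fun x => tr N 12 (DNfun N) x z₁) hz₁ φ fun j => ?_
  have hmem := frame_vec_mem_span hB z₁ (12 * j) (DNfun N ^ j) ((isMF_DNfun N).pow j)
  have := hle hmem
  rw [LinearMap.mem_ker] at this
  rw [← this]
  congr 1
  ext x
  simp [vec, tr_pow]

/-- (FRAME) from (FREE) and (LOC). -/
theorem frame_of_free_loc (N : ℕ) [NeZero N] (hFree : FreeStatement N) (hLoc : LocStatement N) :
    FrameStatement N := by
  classical
  let _ : Fintype (X N) := Fintype.ofFinite _
  obtain ⟨ι, w, F, hB⟩ := hFree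
  obtain ⟨z₁, hz₁⟩ := frame_span_top hB
  have hli := hLoc w F hB z₁
  have : Finite ι := hli.finite_of_isNoetherian
  let _ : Fintype ι := Fintype.ofFinite ι
  refine ⟨ι, inferInstance, w, F, ⟨hB, hLoc w F hB, ?_, hB.nonneg_weight, hB.even_weight⟩⟩
  have hspan : ⊤ ≤ Submodule.span ℂ (Set.range fun i => vec N (w i) (F i) z₁) := by rw [hz₁]
  have hb := Module.finrank_eq_card_basis (Module.Basis.mk hli hspan)
  rw [Module.finrank_fintype_fun_eq_card] at hb
  rw [← hb, Nat.card_eq_fintype_card]

/-- (W0) -/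
theorem weightZero (N : ℕ) [NeZero N] : WeightZeroStatement N := by
  classical
  intro ι _ w F hF
  have hB := hF.basis
  rw [Nat.card_eq_one_iff_unique]
  constructor
  · -- uniqueness
    constructor
    rintro ⟨i, hi⟩ ⟨j, hj⟩
    by_contra hij
    have hij' : i ≠ j := fun h => hij (Subtype.ext h)
    obtain ⟨ci, hci⟩ := exists_const_of_weight_zero (N := N) ((hB.isMF i).cast hi)
    obtain ⟨cj, hcj⟩ := exists_const_of_weight_zero (N := N) ((hB.isMF j).cast hj)
    have hci0 : ci ≠ 0 := by
      rintro rfl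
      exact hB.ne_zero i (by rw [hci]; rfl)
    -- the relation cj F_i - ci F_j = 0
    set h : ι → ℍ → ℂ := fun l => if l = i then (fun _ => cj) else (fun _ => -ci) with hh
    have hMF : ∀ l ∈ ({i, j} : Finset ι), IsMF G1 (0 - w l) (h l) := by
      intro l hl
      rw [Finset.mem_insert, Finset.mem_singleton] at hl
      rcases hl with rfl | rfl
      · simp only [hh, if_true]
        exact (IsMF.const cj).cast (by rw [hi]; ring)
      · simp only [hh, if_neg (Ne.symm hij')]
        exact (IsMF.const (-ci)).cast (by rw [hj]; ring)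
    have hrel : ∑ l ∈ ({i, j} : Finset ι), h l * F l = 0 := by
      rw [Finset.sum_pair hij']
      simp only [hh, if_true, if_neg (Ne.symm hij')]
      rw [hci, hcj]
      ext z
      simp only [Pi.add_apply, Pi.mul_apply, Pi.zero_apply]
      ring
    have := hB.indep 0 {i, j} h hMF hrel j (by simp)
    simp only [hh, if_neg (Ne.symm hij')] at this
    have := congrFun this UpperHalfPlane.I
    simp only [Pi.zero_apply, neg_eq_zero] at this
    exact hci0 this
  · -- existence
    obtain ⟨s, h, hh, h1⟩ := hB.span 0 1 IsMF.one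
    by_contra hcon
    have hne : ∀ i, w i ≠ 0 := fun i hi => hcon ⟨⟨i, hi⟩⟩
    have hz : ∀ i, h i = 0 := by
      intro i
      have hpos : 0 < w i := lt_of_le_of_ne (hF.nonneg i) (Ne.symm (hne i))
      exact l1_eq_zero_of_neg (hh i) (by omega)
    have : (1 : ℍ → ℂ) = 0 := by
      rw [h1]
      exact Finset.sum_eq_zero fun i _ => by rw [hz i, zero_mul]
    have := congrFun this UpperHalfPlane.I
    simp at this

end Fermat.Agent.S20
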