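import Mathlib
import Fermat.Prelude.Def_ModularCurve_GenusNumerics
import Fermat.Agent.S20.Defs
import Fermat.Agent.S20.Conj
import Fermat.Agent.S20.Loc
import Fermat.Agent.S20.Frame
import Fermat.Agent.S20.Eig
import Fermat.Agent.S24.Comb

/-!
# S20, package (FIN): the final count

`fin_result`: (FREE) + (KEY) + (DUAL) + (CUSP) ⟹ `dim S₂(Γ₀(N)) = genusFormula N`.
-/

set_option autoImplicit false

noncomputable section

namespace Fermat.Agent.S20

open UpperHalfPlane CongruenceSubgroup Matrix.SpecialLinearGroup ModularForm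
open scoped MatrixGroups ModularForm Manifold
open Fermat.Agent.S22 (IsMF IsCF G0 G1)

/-- pure arithmetic. -/
theorem fin_arith (c0 c2 c4 c6 c8 c10 n oS oST oT ν2 ν3 : ℚ)
    (h0 : c0 = 1) (hn : c0 + c2 + c4 + c6 + c8 + c10 = n)
    (hS : c0 + c4 + c8 = oS) (hST : c0 + c6 = oST) (hT : c0 + c2 = c10 + oT)
    (hoS : 2 * oS = n + ν2) (hoST : 3 * oST = n + 2 * ν3) :
    c10 = 1 + n / 12 - ν2 / 4 - ν3 / 3 - oT / 2 := by
  subst h0
  linarith

theorem fin_card_subtype {ι : Type} [Fintype ι] (p : ι → Prop) [DecidablePred p] :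
    Nat.card {i : ι // p i} = (Finset.univ.filter p).card := by
  rw [Nat.card_eq_fintype_card, Fintype.card_subtype]

/-- counting the weights of a frame in a union of classes. -/
theorem fin_count {ι : Type} [Fintype ι] [DecidableEq ι] (w : ι → ℤ) (p : ι → Prop)
    [DecidablePred p] (t : Finset ℤ) (ht : ∀ i, p i ↔ w i ∈ t) :
    (Finset.univ.filter p).card = ∑ b ∈ t, (Finset.univ.filter fun i => w i = b).card := by
  rw [Finset.card_eq_sum_card_fiberwise (f := w) (t := t)
    (fun i hi => (ht i).mp (Finset.mem_filter.mp hi).2)]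
  refine Finset.sum_congr rfl fun b hb => ?_
  congr 1
  ext i
  simp only [Finset.mem_filter, Finset.mem_univ, true_and]
  constructor
  · exact fun h => h.2
  · intro h
    exact ⟨(ht i).mpr (h ▸ hb), h⟩

theorem fin_result (N : ℕ) [NeZero N] (hFree : FreeStatement N) (hKey : KeyStatement N)
    (hDW : DualWeightStatement N) (hDD : DualDimStatement N) (hCC : CuspCountStatement N) :
    (Module.finrank ℂ (CuspForm (Gamma0 N) 2) : ℚ) = ModularCurve.genusFormula N := by
  classical
  obtain ⟨ι, _, w, F, hF⟩ := frame_of_free_loc N hFree (loc_of_key N hKey)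
  have hw10 := hDW w F hF
  have hdim := hDD w F hF
  have hcusp := hCC w F hF
  have h0 := weightZero N w F hF
  have hS := eig_S N w F hF
  have hST := eig_ST N w F hF
  have hcard := hF.card
  have hoS := Fermat.Agent.S24.Comb.comb_orbitsS N
  have hoST := Fermat.Agent.S24.Comb.comb_orbitsST N
  have hoT := Fermat.Agent.S24.Comb.comb_orbitsT N
  have hX := Fermat.Agent.S24.Comb.comb_cosetCard N
  -- the possible weights
  have hwt : ∀ i, w i ∈ ({0, 2, 4, 6, 8, 10} : Finset ℤ) := by
    intro i
    have h1 := hF.nonneg i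
    have h2 := hw10 i
    obtain ⟨j, hj⟩ := hF.even i
    simp only [Finset.mem_insert, Finset.mem_singleton]
    omega
  set cnt : ℤ → ℕ := fun b => (Finset.univ.filter fun i => w i = b).card with hcnt
  have e_all : Fintype.card ι = cnt 0 + cnt 2 + cnt 4 + cnt 6 + cnt 8 + cnt 10 := by
    have := fin_count w (fun _ => True) {0, 2, 4, 6, 8, 10} (fun i => by simpa using hwt i)
    simp only [Finset.filter_true_of_mem, Finset.mem_univ, implies_true] at this
    rw [Finset.card_univ] at this
    rw [this]
    simp [hcnt, Finset.sum_insert, add_assoc]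
  have e_S : Nat.card {i : ι // (4 : ℤ) ∣ w i} = cnt 0 + cnt 4 + cnt 8 := by
    rw [fin_card_subtype, fin_count w (fun i => (4 : ℤ) ∣ w i) {0, 4, 8} (fun i => by
      have := hwt i
      simp only [Finset.mem_insert, Finset.mem_singleton] at this ⊢
      constructor
      · intro h
        omega
      · rintro (h | h | h) <;> rw [h] <;> norm_num)]
    simp [hcnt, Finset.sum_insert, add_assoc]
  have e_ST : Nat.card {i : ι // (6 : ℤ) ∣ w i} = cnt 0 + cnt 6 := by
    rw [fin_card_subtype, fin_count w (fun i => (6 : ℤ) ∣ w i) {0, 6} (fun i => by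
      have := hwt i
      simp only [Finset.mem_insert, Finset.mem_singleton] at this ⊢
      constructor
      · intro h
        omega
      · rintro (h | h) <;> rw [h] <;> norm_num)]
    simp [hcnt, Finset.sum_insert]
  have e0 : Nat.card {i : ι // w i = 0} = cnt 0 := fin_card_subtype _
  have e2 : Nat.card {i : ι // w i = 2} = cnt 2 := fin_card_subtype _
  have e10 : Nat.card {i : ι // w i = 10} = cnt 10 := fin_card_subtype _
  rw [e0] at h0
  rw [e0, e2, e10] at hcusp
  rw [e10] at hdim
  rw [e_S] at hS
  rw [e_ST] at hST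
  rw [e_all] at hcard
  change 2 * orbits N ModularGroup.S = _ at hoS
  change 3 * orbits N (ModularGroup.S * ModularGroup.T) = _ at hoST
  change orbits N ModularGroup.T = _ at hoT
  change Nat.card (X N) = _ at hX
  rw [hdim, ModularCurve.genusFormula]
  have := fin_arith (cnt 0) (cnt 2) (cnt 4) (cnt 6) (cnt 8) (cnt 10)
    (ModularCurve.dedekindPsi N) (orbits N ModularGroup.S)
    (orbits N (ModularGroup.S * ModularGroup.T)) (orbits N ModularGroup.T)
    (ModularCurve.nuTwo N) (ModularCurve.nuThree N)
    (by exact_mod_cast h0) (by rw [← hX, ← hcard]; push_cast; ring)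
    (by exact_mod_cast hS) (by exact_mod_cast hST)
    (by exact_mod_cast hcusp) (by exact_mod_cast hoS) (by exact_mod_cast hoST)
  rw [this, hoT]

end Fermat.Agent.S20
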