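/-
S20, package (FREE): `⨁ₖ Mₖ(Γ₀(N))` is a free graded module over the level one forms.
Owner: helper13.  Prefix `free_`.

* `free_syzygy` : `E₄ A + E₆ B = 0` with `A ∈ M_{k-4}`, `B ∈ M_{k-6}` implies `A = E₆ u`,
  `B = -E₄ u` with `u ∈ M_{k-10}`;
* `free : FreeStatement N`.
-/
import Mathlib
import Fermat.Agent.S20.Defs
import Fermat.Agent.S20.Conj
import Fermat.Agent.S20.LevelOne
import Fermat.Agent.S24.JOrder

set_option autoImplicit false

noncomputable section

namespace Fermat.Agent.S20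

open UpperHalfPlane ModularFormClass CongruenceSubgroup Matrix.SpecialLinearGroup
open ModularForm EisensteinSeries Filter
open scoped MatrixGroups ModularForm Manifold Topology
open Fermat.Agent.S22 (IsMF IsCF G0 G1 isMF_E4 isMF_E6 Dfun Dfun_ne_zero isNice_Dfun Dfun_eq)

/-! ### The syzygy lemma -/

section Syzygy

/-- Slash of a product with a level one form. -/
theorem free_slash_levelOne_mul {a b c : ℤ} (hc : c = a + b) {h : ℍ → ℂ} (hh : IsMF G1 a h)
    (f : ℍ → ℂ) (g : SL(2, ℤ)) : (h * f) ∣[c] g = h * (f ∣[b] g) := by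
  subst hc
  rw [ModularForm.mul_slash_SL2, conj_slash_levelOne hh]

/-- `1 / E₆` is bounded at `i∞`. -/
theorem free_isBoundedAtImInfty_inv_E₆ :
    IsBoundedAtImInfty (fun z : ℍ => ((E₆ : ℍ → ℂ) z)⁻¹) := by
  have h : Tendsto (fun z : ℍ => ((E₆ : ℍ → ℂ) z)⁻¹) atImInfty (𝓝 (1 : ℂ)⁻¹) :=
    Fermat.Agent.S24.anE_tendsto_E₆.inv₀ one_ne_zero
  exact h.isBigO_one ℝ

/-- **Syzygy.**  A relation `E₄ A + E₆ B = 0` between forms of level `Γ₀(N)` is trivial. -/
theorem free_syzygy (N : ℕ) [NeZero N] (k : ℤ) (A B : ℍ → ℂ) (hA : IsMF (G0 N) (k - 4) A)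
    (hB : IsMF (G0 N) (k - 6) B) (h : (E₄ : ℍ → ℂ) * A + (E₆ : ℍ → ℂ) * B = 0) :
    ∃ u : ℍ → ℂ, IsMF (G0 N) (k - 10) u ∧ A = (E₆ : ℍ → ℂ) * u ∧
      B = -((E₄ : ℍ → ℂ) * u) := by
  have hAd : MDiff A := conj_mdiff_of_isMF hA
  have hBd : MDiff B := conj_mdiff_of_isMF hB
  have h4d : MDiff (E₄ : ℍ → ℂ) := conj_mdiff_of_isMF isMF_E4
  have h6d : MDiff (E₆ : ℍ → ℂ) := conj_mdiff_of_isMF isMF_E6
  have hz : ∀ z, E₄ z * A z + E₆ z * B z = 0 := fun z => congrFun h z
  -- the global formula for `u`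
  let u : ℍ → ℂ := fun z => -(E₄ z ^ 2 * B z + E₆ z * A z) / Dfun z
  have hud : MDiff u := by
    have hnum : MDiff (fun z : ℍ => -(E₄ z ^ 2 * B z + E₆ z * A z)) :=
      (((h4d.pow 2).mul hBd).add (h6d.mul hAd)).neg
    exact hnum.div isNice_Dfun.holo Dfun_ne_zero
  have hAu : A = (E₆ : ℍ → ℂ) * u := by
    funext z
    have hD := Dfun_ne_zero z
    simp only [Pi.mul_apply, u]
    field_simp
    simp only [Dfun]
    linear_combination (E₄ z ^ 2) * hz z
  have hBu : B = -((E₄ : ℍ → ℂ) * u) := by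
    funext z
    have hD := Dfun_ne_zero z
    simp only [Pi.mul_apply, Pi.neg_apply, u]
    field_simp
    simp only [Dfun]
    linear_combination (-E₆ z) * hz z
  -- relations for all translates
  have hAg : ∀ g : SL(2, ℤ), A ∣[k - 4] g = (E₆ : ℍ → ℂ) * (u ∣[k - 10] g) := fun g => by
    conv_lhs => rw [hAu]
    exact free_slash_levelOne_mul (a := 6) (b := k - 10) (c := k - 4) (by ring) isMF_E6 u g
  have hBg : ∀ g : SL(2, ℤ), B ∣[k - 6] g = -((E₄ : ℍ → ℂ) * (u ∣[k - 10] g)) := fun g => by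
    conv_lhs => rw [hBu]
    rw [SlashAction.neg_slash,
      free_slash_levelOne_mul (a := 4) (b := k - 10) (c := k - 6) (by ring) isMF_E4 u g]
  refine ⟨u, ?_, hAu, hBu⟩
  refine isMF_criterion N (k - 10) u hud ?_ ?_
  · -- invariance
    intro γ hγ
    have h1 : (E₆ : ℍ → ℂ) * (u ∣[k - 10] γ) = (E₆ : ℍ → ℂ) * u := by
      rw [← hAg γ, conj_slash_Gamma0 hA γ hγ, ← hAu]
    have h2 : (E₄ : ℍ → ℂ) * (u ∣[k - 10] γ) = (E₄ : ℍ → ℂ) * u := by
      have := hBg γ
      rw [conj_slash_Gamma0 hB γ hγ] at this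
      have h3 : -((E₄ : ℍ → ℂ) * u) = -((E₄ : ℍ → ℂ) * (u ∣[k - 10] γ)) := by
        rw [← this, ← hBu]
      exact (neg_injective h3).symm
    funext z
    have e1 := congrFun h1 z
    have e2 := congrFun h2 z
    simp only [Pi.mul_apply] at e1 e2
    by_cases h6 : E₆ z = 0
    · have h4 : E₄ z ≠ 0 := fun h4 => l1_not_both_zero z ⟨h4, h6⟩
      exact mul_left_cancel₀ h4 e2
    · exact mul_left_cancel₀ h6 e1
  · -- boundedness of the translates
    intro g
    have hAb : IsBoundedAtImInfty (A ∣[k - 4] g) := isBoundedAtImInfty_slash_of_isMF hA g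
    have hprod : IsBoundedAtImInfty
        ((A ∣[k - 4] g) * fun z : ℍ => ((E₆ : ℍ → ℂ) z)⁻¹) :=
      hAb.mul free_isBoundedAtImInfty_inv_E₆
    have hev : ∀ᶠ z in atImInfty, (E₆ : ℍ → ℂ) z ≠ 0 := by
      have : ∀ᶠ z in atImInfty, (E₆ : ℍ → ℂ) z ∈ {w : ℂ | w ≠ 0} :=
        Fermat.Agent.S24.anE_tendsto_E₆ (isOpen_ne.mem_nhds one_ne_zero)
      exact this
    have heq : (u ∣[k - 10] g) =ᶠ[atImInfty]
        ((A ∣[k - 4] g) * fun z : ℍ => ((E₆ : ℍ → ℂ) z)⁻¹) := by
      filter_upwards [hev] with z hz6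
      have := congrFun (hAg g) z
      simp only [Pi.mul_apply] at this ⊢
      rw [this]
      field_simp
    exact hprod.congr' heq.symm Filter.EventuallyEq.rfl

end Syzygy

/-! ### The graded pieces and a basis modulo `(E₄, E₆)` -/

section Basis

variable (N : ℕ)

/-- `M_k(Γ₀(N))` as a space of functions. -/
def free_M (k : ℤ) : Submodule ℂ (ℍ → ℂ) where
  carrier := {f | IsMF (G0 N) k f}
  add_mem' := fun ha hb => IsMF.add ha hb
  zero_mem' := IsMF.zero
  smul_mem' := fun c _ hf => IsMF.smul c hf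

theorem free_mem_M {k : ℤ} {f : ℍ → ℂ} : f ∈ free_M N k ↔ IsMF (G0 N) k f := Iff.rfl

/-- The subspace `E₄ M_{k-4} + E₆ M_{k-6}` of `M_k`. -/
def free_J (k : ℤ) : Submodule ℂ (free_M N k) where
  carrier := {f | ∃ a b : ℍ → ℂ, IsMF (G0 N) (k - 4) a ∧ IsMF (G0 N) (k - 6) b ∧
      (f : ℍ → ℂ) = (E₄ : ℍ → ℂ) * a + (E₆ : ℍ → ℂ) * b}
  add_mem' := by
    rintro f g ⟨a, b, ha, hb, hf⟩ ⟨a', b', ha', hb', hg⟩
    exact ⟨a + a', b + b', ha.add ha', hb.add hb', by
      rw [Submodule.coe_add, hf, hg]; ring⟩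
  zero_mem' := ⟨0, 0, IsMF.zero, IsMF.zero, by simp⟩
  smul_mem' := by
    rintro c f ⟨a, b, ha, hb, hf⟩
    exact ⟨c • a, c • b, ha.smul c, hb.smul c, by
      rw [Submodule.coe_smul, hf, smul_add, mul_smul_comm, mul_smul_comm]⟩

theorem free_mem_J {k : ℤ} {f : free_M N k} : f ∈ free_J N k ↔
    ∃ a b : ℍ → ℂ, IsMF (G0 N) (k - 4) a ∧ IsMF (G0 N) (k - 6) b ∧
      (f : ℍ → ℂ) = (E₄ : ℍ → ℂ) * a + (E₆ : ℍ → ℂ) * b := Iff.rfl

/-- The quotient `M_k / (E₄ M_{k-4} + E₆ M_{k-6})`. -/
abbrev free_Q (k : ℤ) : Type := free_M N k ⧸ free_J N k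

/-- Index set of a basis of the quotient. -/
abbrev free_B (k : ℤ) : Type := Module.Basis.ofVectorSpaceIndex ℂ (free_Q N k)

/-- A basis of the quotient. -/
def free_basis (k : ℤ) : Module.Basis (free_B N k) ℂ (free_Q N k) :=
  Module.Basis.ofVectorSpace ℂ (free_Q N k)

/-- A representative in `M_k` of a class of the quotient. -/
def free_rep (k : ℤ) (q : free_Q N k) : free_M N k :=
  Function.surjInv (Submodule.Quotient.mk_surjective (free_J N k)) q

theorem free_mk_rep (k : ℤ) (q : free_Q N k) :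
    Submodule.Quotient.mk (p := free_J N k) (free_rep N k q) = q :=
  Function.surjInv_eq (Submodule.Quotient.mk_surjective (free_J N k)) q

/-- The chosen lifts of the basis elements. -/
def free_e (k : ℤ) (b : free_B N k) : ℍ → ℂ := (free_rep N k (free_basis N k b) : ℍ → ℂ)

theorem free_e_isMF (k : ℤ) (b : free_B N k) : IsMF (G0 N) k (free_e N k b) :=
  (free_rep N k (free_basis N k b)).2

theorem free_coe_sum (k : ℤ) (c : free_B N k →₀ ℂ) :
    (((c.sum fun i ci => ci • free_rep N k (free_basis N k i) : free_M N k)) : ℍ → ℂ) =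
      c.sum fun i ci => ci • free_e N k i := by
  have := map_finsuppSum (free_M N k).subtype c
    (fun i ci => ci • free_rep N k (free_basis N k i))
  simpa [free_e] using this

theorem free_mk_sum (k : ℤ) (c : free_B N k →₀ ℂ) :
    Submodule.Quotient.mk (p := free_J N k)
      (c.sum fun i ci => ci • free_rep N k (free_basis N k i)) =
      Finsupp.linearCombination ℂ (free_basis N k) c := by
  have := map_finsuppSum (free_J N k).mkQ c
    (fun i ci => ci • free_rep N k (free_basis N k i))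
  rw [Submodule.mkQ_apply] at this
  rw [this, Finsupp.linearCombination_apply]
  refine Finsupp.sum_congr fun i _ => ?_
  rw [map_smul, Submodule.mkQ_apply, free_mk_rep]

/-- (ii) every form of weight `k` is a combination of the `e_k b` modulo `(E₄, E₆)`. -/
theorem free_decomp (k : ℤ) (f : ℍ → ℂ) (hf : IsMF (G0 N) k f) :
    ∃ (c : free_B N k →₀ ℂ) (a b : ℍ → ℂ), IsMF (G0 N) (k - 4) a ∧ IsMF (G0 N) (k - 6) b ∧
      f = (c.sum fun i ci => ci • free_e N k i) + (E₄ : ℍ → ℂ) * a + (E₆ : ℍ → ℂ) * b := by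
  let fM : free_M N k := ⟨f, hf⟩
  let c := (free_basis N k).repr (Submodule.Quotient.mk fM)
  have h1 : Submodule.Quotient.mk (p := free_J N k)
      (c.sum fun i ci => ci • free_rep N k (free_basis N k i)) = Submodule.Quotient.mk fM := by
    rw [free_mk_sum]
    exact (free_basis N k).linearCombination_repr _
  have h2 : fM - (c.sum fun i ci => ci • free_rep N k (free_basis N k i)) ∈ free_J N k :=
    (Submodule.Quotient.eq _).mp h1.symm
  obtain ⟨a, b, ha, hb, hab⟩ := h2
  refine ⟨c, a, b, ha, hb, ?_⟩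
  rw [Submodule.coe_sub, free_coe_sum] at hab
  have hf' : (fM : ℍ → ℂ) = f := rfl
  rw [hf'] at hab
  rw [add_assoc, ← hab]
  abel

/-- (iii) the `e_k b` are linearly independent modulo `(E₄, E₆)`. -/
theorem free_indep_weight (k : ℤ) (c : free_B N k →₀ ℂ) (a b : ℍ → ℂ)
    (ha : IsMF (G0 N) (k - 4) a) (hb : IsMF (G0 N) (k - 6) b)
    (h : (c.sum fun i ci => ci • free_e N k i) = (E₄ : ℍ → ℂ) * a + (E₆ : ℍ → ℂ) * b) :
    c = 0 := by
  have hx : (c.sum fun i ci => ci • free_rep N k (free_basis N k i)) ∈ free_J N k :=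
    ⟨a, b, ha, hb, by rw [free_coe_sum]; exact h⟩
  have h0 : Finsupp.linearCombination ℂ (free_basis N k) c = 0 := by
    rw [← free_mk_sum]
    exact (Submodule.Quotient.mk_eq_zero _).mpr hx
  exact (linearIndependent_iff.mp (free_basis N k).linearIndependent) c h0

end Basis

/-! ### The candidate basis and coefficient families -/

section Coeff

variable (N : ℕ)

/-- The index type of the basis: pairs (weight, basis element of the quotient). -/
abbrev free_ι : Type := Σ k : ℤ, free_B N k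

/-- The weights. -/
def free_w : free_ι N → ℤ := fun i => i.1

/-- The basis elements. -/
def free_F : free_ι N → ℍ → ℂ := fun i => free_e N i.1 i.2

theorem free_F_isMF (i : free_ι N) : IsMF (G0 N) (free_w N i) (free_F N i) :=
  free_e_isMF N i.1 i.2

/-- The value `∑ i, h i * F i` of a finitely supported family of coefficients. -/
def free_ev : (free_ι N →₀ (ℍ → ℂ)) →+ (ℍ → ℂ) :=
  Finsupp.liftAddHom (fun i => AddMonoidHom.mulRight (free_F N i))

theorem free_ev_apply (h : free_ι N →₀ (ℍ → ℂ)) :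
    free_ev N h = h.sum fun i a => a * free_F N i := by
  simp [free_ev, Finsupp.liftAddHom_apply]

theorem free_ev_eq_sum (h : free_ι N →₀ (ℍ → ℂ)) :
    free_ev N h = ∑ i ∈ h.support, h i * free_F N i := by
  rw [free_ev_apply]
  rfl

theorem free_ev_single (i : free_ι N) (a : ℍ → ℂ) :
    free_ev N (Finsupp.single i a) = a * free_F N i := by
  simp [free_ev]

/-- The coefficient families which are homogeneous of weight `k`. -/
def free_Hom (k : ℤ) : AddSubgroup (free_ι N →₀ (ℍ → ℂ)) where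
  carrier := {h | ∀ i, IsMF G1 (k - free_w N i) (h i)}
  add_mem' := fun ha hb i => by
    rw [Finsupp.add_apply]
    exact (ha i).add (hb i)
  zero_mem' := fun i => IsMF.zero
  neg_mem' := fun ha i => by
    rw [Finsupp.neg_apply]
    exact (ha i).neg

theorem free_mem_Hom {k : ℤ} {h : free_ι N →₀ (ℍ → ℂ)} :
    h ∈ free_Hom N k ↔ ∀ i, IsMF G1 (k - free_w N i) (h i) := Iff.rfl

/-- Multiplication of a coefficient family by a function. -/
def free_mul (g : ℍ → ℂ) : (free_ι N →₀ (ℍ → ℂ)) →+ (free_ι N →₀ (ℍ → ℂ)) :=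
  Finsupp.mapRange.addMonoidHom (AddMonoidHom.mulLeft g)

@[simp]
theorem free_mul_apply (g : ℍ → ℂ) (h : free_ι N →₀ (ℍ → ℂ)) (i : free_ι N) :
    free_mul N g h i = g * h i := by
  simp [free_mul]

theorem free_ev_mul (g : ℍ → ℂ) (h : free_ι N →₀ (ℍ → ℂ)) :
    free_ev N (free_mul N g h) = g * free_ev N h := by
  induction h using Finsupp.induction_linear with
  | zero => simp
  | add a b ha hb => rw [map_add, map_add, ha, hb, map_add, mul_add]
  | single i a =>
    have : free_mul N g (Finsupp.single i a) = Finsupp.single i (g * a) := by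
      ext j z
      by_cases hij : i = j
      · subst hij; simp
      · simp [Finsupp.single_eq_of_ne' hij]
    rw [this, free_ev_single, free_ev_single, mul_assoc]

theorem free_mul_mem {m k k' : ℤ} (hk : k' = k + m) {g : ℍ → ℂ} (hg : IsMF G1 m g)
    {h : free_ι N →₀ (ℍ → ℂ)} (hh : h ∈ free_Hom N k) : free_mul N g h ∈ free_Hom N k' := by
  intro i
  rw [free_mul_apply]
  exact (hg.mul (hh i)).cast (by rw [hk]; ring)

theorem free_single_mem {k : ℤ} (i : free_ι N) {a : ℍ → ℂ}
    (ha : IsMF G1 (k - free_w N i) a) : Finsupp.single i a ∈ free_Hom N k := by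
  intro j
  by_cases hij : i = j
  · subst hij
    rw [Finsupp.single_eq_same]
    exact ha
  · rw [Finsupp.single_eq_of_ne' hij]
    exact IsMF.zero

theorem free_ev_isMF {k : ℤ} {h : free_ι N →₀ (ℍ → ℂ)} (hh : h ∈ free_Hom N k) :
    IsMF (G0 N) k (free_ev N h) := by
  rw [free_ev_eq_sum]
  refine IsMF.sum _ fun i _ => ?_
  exact (((hh i).restrict_G0 N).mul (free_F_isMF N i)).cast (by ring)

end Coeff

/-! ### Constant coefficient families -/

section Const

variable (N : ℕ)

/-- The family of constant functions attached to a family of scalars. -/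
def free_constFam : (free_ι N →₀ ℂ) →+ (free_ι N →₀ (ℍ → ℂ)) :=
  Finsupp.mapRange.addMonoidHom
    { toFun := fun c => (fun _ : ℍ => c)
      map_zero' := rfl
      map_add' := fun _ _ => rfl }

@[simp]
theorem free_constFam_apply (g : free_ι N →₀ ℂ) (i : free_ι N) :
    free_constFam N g i = fun _ => g i := by
  simp [free_constFam]

theorem free_ev_constFam (g : free_ι N →₀ ℂ) :
    free_ev N (free_constFam N g) = g.sum fun i gi => gi • free_F N i := by
  induction g using Finsupp.induction_linear with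
  | zero => simp
  | add a b ha hb =>
    rw [map_add, map_add, ha, hb, Finsupp.sum_add_index' (by simp) (by intro i x y; rw [add_smul])]
  | single i a =>
    have : free_constFam N (Finsupp.single i a) = Finsupp.single i (fun _ => a) := by
      ext j z
      by_cases hij : i = j
      · subst hij; simp
      · simp [Finsupp.single_eq_of_ne' hij]
    rw [this, free_ev_single, Finsupp.sum_single_index (by simp)]
    funext z
    simp [smul_eq_mul]

theorem free_constFam_mem {k : ℤ} (g : free_ι N →₀ ℂ) (hg : ∀ i, g i ≠ 0 → free_w N i = k) :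
    free_constFam N g ∈ free_Hom N k := by
  intro i
  rw [free_constFam_apply]
  by_cases hi : g i = 0
  · rw [hi]
    exact IsMF.zero
  · exact (IsMF.const (g i)).cast (by rw [hg i hi]; ring)

/-- (ii'), indexed by `free_ι`. -/
theorem free_decomp' (k : ℤ) (f : ℍ → ℂ) (hf : IsMF (G0 N) k f) :
    ∃ (g : free_ι N →₀ ℂ) (a b : ℍ → ℂ), (∀ i, g i ≠ 0 → free_w N i = k) ∧
      IsMF (G0 N) (k - 4) a ∧ IsMF (G0 N) (k - 6) b ∧
      f = (g.sum fun i gi => gi • free_F N i) + (E₄ : ℍ → ℂ) * a + (E₆ : ℍ → ℂ) * b := by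
  obtain ⟨c, a, b, ha, hb, hfab⟩ := free_decomp N k f hf
  let φ : free_B N k ↪ free_ι N := ⟨Sigma.mk k, sigma_mk_injective⟩
  refine ⟨Finsupp.embDomain φ c, a, b, ?_, ha, hb, ?_⟩
  · intro i hi
    by_contra hne
    apply hi
    apply Finsupp.embDomain_of_notMem_range
    rintro ⟨b', rfl⟩
    exact hne rfl
  · rw [Finsupp.sum_embDomain]
    exact hfab

/-- (iii'), indexed by `free_ι`. -/
theorem free_indep_weight' (k : ℤ) (g : free_ι N →₀ ℂ) (hg : ∀ i, g i ≠ 0 → free_w N i = k)
    (a b : ℍ → ℂ) (ha : IsMF (G0 N) (k - 4) a) (hb : IsMF (G0 N) (k - 6) b)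
    (h : (g.sum fun i gi => gi • free_F N i) = (E₄ : ℍ → ℂ) * a + (E₆ : ℍ → ℂ) * b) :
    g = 0 := by
  let φ : free_B N k ↪ free_ι N := ⟨Sigma.mk k, sigma_mk_injective⟩
  let c : free_B N k →₀ ℂ := Finsupp.comapDomain φ g φ.injective.injOn
  have hgc : g = Finsupp.embDomain φ c := by
    ext i
    by_cases hi : i ∈ Set.range φ
    · obtain ⟨b', rfl⟩ := hi
      rw [Finsupp.embDomain_apply_self]
      rfl
    · rw [Finsupp.embDomain_of_notMem_range _ _ _ hi]
      by_contra hne
      apply hi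
      have hw := hg i hne
      obtain ⟨k', b'⟩ := i
      simp only [free_w] at hw
      subst hw
      exact ⟨b', rfl⟩
  have hc : c = 0 := by
    apply free_indep_weight N k c a b ha hb
    rw [← h, hgc, Finsupp.sum_embDomain]
    rfl
  rw [hgc, hc, Finsupp.embDomain_zero]

theorem free_w_nonneg [NeZero N] (i : free_ι N) : 0 ≤ free_w N i := by
  by_contra hneg
  rw [not_le] at hneg
  obtain ⟨k, b⟩ := i
  simp only [free_w] at hneg
  have h0 : (free_rep N k (free_basis N k b) : ℍ → ℂ) = 0 :=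
    eq_zero_of_neg (free_rep N k (free_basis N k b)).2 hneg
  have h1 : free_rep N k (free_basis N k b) = 0 := Subtype.ext h0
  have h2 := free_mk_rep N k (free_basis N k b)
  rw [h1, Submodule.Quotient.mk_zero] at h2
  exact (free_basis N k).ne_zero b h2.symm

end Const

/-! ### Spanning -/

section Span

variable (N : ℕ) [NeZero N]

theorem free_span_aux (n : ℕ) : ∀ k : ℤ, k < n → ∀ f : ℍ → ℂ, IsMF (G0 N) k f →
    ∃ h ∈ free_Hom N k, f = free_ev N h := by
  induction n with
  | zero =>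
    intro k hk f hf
    refine ⟨0, zero_mem _, ?_⟩
    rw [map_zero]
    exact eq_zero_of_neg hf (by simpa using hk)
  | succ n ih =>
    intro k hk f hf
    obtain ⟨g, a, b, hg, ha, hb, hfab⟩ := free_decomp' N k f hf
    obtain ⟨h₁, hh₁, rfl⟩ := ih (k - 4) (by push_cast at hk; omega) a ha
    obtain ⟨h₂, hh₂, rfl⟩ := ih (k - 6) (by push_cast at hk; omega) b hb
    refine ⟨free_constFam N g + free_mul N E₄ h₁ + free_mul N E₆ h₂, ?_, ?_⟩
    · exact add_mem (add_mem (free_constFam_mem N g hg)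
        (free_mul_mem N (by ring) isMF_E4 hh₁)) (free_mul_mem N (by ring) isMF_E6 hh₂)
    · rw [map_add, map_add, free_ev_constFam, free_ev_mul, free_ev_mul]
      exact hfab

/-- Every form of level `Γ₀(N)` is a combination of the `F i` with level one coefficients. -/
theorem free_span (k : ℤ) (f : ℍ → ℂ) (hf : IsMF (G0 N) k f) :
    ∃ h ∈ free_Hom N k, f = free_ev N h :=
  free_span_aux N (k.toNat + 1) k (by omega) f hf

end Span

/-! ### Independence -/

section Indep

variable (N : ℕ) [NeZero N]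

/-- A level one form is a constant plus an element of `(E₄, E₆)`. -/
theorem free_levelOne_decomp (m : ℤ) (h : ℍ → ℂ) (hh : IsMF G1 m h) :
    ∃ (c : ℂ) (a b : ℍ → ℂ), IsMF G1 (m - 4) a ∧ IsMF G1 (m - 6) b ∧
      h = (fun _ => c) + (E₄ : ℍ → ℂ) * a + (E₆ : ℍ → ℂ) * b ∧ (c ≠ 0 → m = 0) ∧
      (h = 0 → c = 0 ∧ a = 0 ∧ b = 0) := by
  by_cases h0 : h = 0
  · refine ⟨0, 0, 0, IsMF.zero, IsMF.zero, ?_, fun hc => absurd rfl hc, fun _ => ⟨rfl, rfl, rfl⟩⟩
    rw [h0]
    funext z
    simp
  by_cases hm : m = 0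
  · subst hm
    obtain ⟨c, hc⟩ := l1_const_of_zero hh
    refine ⟨c, 0, 0, IsMF.zero, IsMF.zero, ?_, fun _ => rfl, fun h' => absurd h' h0⟩
    rw [hc]
    funext z
    simp
  · obtain ⟨a, b, ha, hb, hab⟩ := l1_decomp m h hh hm
    refine ⟨0, a, b, ha, hb, ?_, fun hc => absurd rfl hc, fun h' => absurd h' h0⟩
    rw [hab]
    funext z
    simp

theorem free_indep_aux (n : ℕ) : ∀ k : ℤ, k < n → ∀ h ∈ free_Hom N k,
    free_ev N h = 0 → h = 0 := by
  induction n with
  | zero =>
    intro k hk h hh _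
    ext i : 1
    have hw := free_w_nonneg N i
    have : k - free_w N i < 0 := by
      have : k < 0 := by simpa using hk
      omega
    rw [l1_eq_zero_of_neg (hh i) this]
    rfl
  | succ n ih =>
    intro k hk h hh hev
    classical
    choose c a b ha hb hab hc h0 using
      fun i => free_levelOne_decomp (k - free_w N i) (h i) (hh i)
    -- the three coefficient families
    let cF : free_ι N →₀ ℂ := Finsupp.onFinset h.support c (fun i hi => by
      rw [Finsupp.mem_support_iff]
      intro hi0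
      exact hi (h0 i hi0).1)
    let aF : free_ι N →₀ (ℍ → ℂ) := Finsupp.onFinset h.support a (fun i hi => by
      rw [Finsupp.mem_support_iff]
      intro hi0
      exact hi (h0 i hi0).2.1)
    let bF : free_ι N →₀ (ℍ → ℂ) := Finsupp.onFinset h.support b (fun i hi => by
      rw [Finsupp.mem_support_iff]
      intro hi0
      exact hi (h0 i hi0).2.2)
    have hcF : ∀ i, cF i ≠ 0 → free_w N i = k := fun i hi => by
      have := hc i hi
      omega
    have haF : aF ∈ free_Hom N (k - 4) := fun i => (ha i).cast (by ring)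
    have hbF : bF ∈ free_Hom N (k - 6) := fun i => (hb i).cast (by ring)
    have hdec : h = free_constFam N cF + free_mul N E₄ aF + free_mul N E₆ bF := by
      ext i : 1
      rw [Finsupp.add_apply, Finsupp.add_apply, free_constFam_apply, free_mul_apply,
        free_mul_apply]
      exact hab i
    have hev' : (cF.sum fun i gi => gi • free_F N i) + (E₄ : ℍ → ℂ) * free_ev N aF +
        (E₆ : ℍ → ℂ) * free_ev N bF = 0 := by
      rw [← free_ev_constFam, ← free_ev_mul, ← free_ev_mul, ← map_add, ← map_add, ← hdec, hev]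
    -- the constant part vanishes
    have hcF0 : cF = 0 := by
      apply free_indep_weight' N k cF hcF (-free_ev N aF) (-free_ev N bF)
        (free_ev_isMF N haF).neg (free_ev_isMF N hbF).neg
      linear_combination hev'
    -- the syzygy
    have hsyz : (E₄ : ℍ → ℂ) * free_ev N aF + (E₆ : ℍ → ℂ) * free_ev N bF = 0 := by
      rw [hcF0] at hev'
      simpa using hev'
    obtain ⟨u, hu, hAu, hBu⟩ := free_syzygy N k _ _ (free_ev_isMF N haF) (free_ev_isMF N hbF) hsyz
    obtain ⟨g, hg, rfl⟩ := free_span N (k - 10) u hu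
    have h4 : k - 4 < (n : ℤ) := by push_cast at hk; omega
    have h6 : k - 6 < (n : ℤ) := by push_cast at hk; omega
    have ha' : aF - free_mul N E₆ g = 0 := by
      apply ih (k - 4) h4 _ (sub_mem haF (free_mul_mem N (by ring) isMF_E6 hg))
      rw [map_sub, free_ev_mul, hAu, sub_self]
    have hb' : bF + free_mul N E₄ g = 0 := by
      apply ih (k - 6) h6 _ (add_mem hbF (free_mul_mem N (by ring) isMF_E4 hg))
      rw [map_add, free_ev_mul, hBu, neg_add_cancel]
    have ha'' : aF = free_mul N E₆ g := sub_eq_zero.mp ha'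
    have hb'' : bF = -free_mul N E₄ g := eq_neg_of_add_eq_zero_left hb'
    rw [hdec, hcF0, ha'', hb'']
    ext i z
    simp
    ring

/-- The `F i` are independent over the level one forms. -/
theorem free_indep (k : ℤ) (h : free_ι N →₀ (ℍ → ℂ)) (hh : h ∈ free_Hom N k)
    (hev : free_ev N h = 0) : h = 0 :=
  free_indep_aux N (k.toNat + 1) k (by omega) h hh hev

end Indep

/-- **(FREE)** -/
theorem free (N : ℕ) [NeZero N] : FreeStatement N := by
  refine ⟨free_ι N, free_w N, free_F N, ⟨free_F_isMF N, ?_, ?_⟩⟩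
  · intro k f hf
    obtain ⟨h, hh, rfl⟩ := free_span N k f hf
    exact ⟨h.support, h, hh, free_ev_eq_sum N h⟩
  · intro k s h hh hsum i hi
    classical
    let h' : free_ι N →₀ (ℍ → ℂ) := Finsupp.onFinset s (fun j => if j ∈ s then h j else 0)
      (fun j hj => by
        by_contra hn
        simp [hn] at hj)
    have hh' : h' ∈ free_Hom N k := fun j => by
      simp only [h', Finsupp.onFinset_apply]
      split_ifs with hj
      · exact hh j hj
      · exact IsMF.zero
    have hev : free_ev N h' = 0 := by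
      rw [free_ev_eq_sum, ← hsum]
      have hsub : h'.support ⊆ s := Finsupp.support_onFinset_subset
      rw [Finset.sum_subset hsub (fun j _ hj' => by
        rw [Finsupp.notMem_support_iff.mp hj', zero_mul])]
      refine Finset.sum_congr rfl fun j hj => ?_
      simp [h', hj]
    have h0 := free_indep N k h' hh' hev
    have hi' : h' i = h i := by simp [h', hi]
    rw [← hi', h0]
    rfl

end Fermat.Agent.S20
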