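import Mathlib
import Fermat.Prelude.Def_ModularCurve_GenusNumerics
import Fermat.Agent.S20.Defs
import Fermat.Agent.S20.DualDefs
import Fermat.Agent.S20.Free
import Fermat.Agent.S20.Dual
import Fermat.Agent.S20.Fin

/-!
# S20: assembly

`assembly`: (KEY) + (α1) `DualCuspStatement` + (α2) `CuspRankStatement` ⟹ S20.
-/

set_option autoImplicit false

namespace Fermat.Agent.S20

open CongruenceSubgroup

theorem assembly (N : ℕ) [NeZero N] (hKey : KeyStatement N) (hDC : DualCuspStatement N)
    (hCR : CuspRankStatement N) :
    (Module.finrank ℂ (CuspForm (Gamma0 N) 2) : ℚ) = ModularCurve.genusFormula N :=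
  fin_result N (free N) hKey (dual_weight N hDC) (dual_dim N hDC) (cuspCount_of N hDC hCR)

end Fermat.Agent.S20
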