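/-
S20, package (α2), part 1 (owner: helper10): the values at `i∞` of the translates of a form.

* `cuspRank_tendsto` : every translate `tr N k f x` of a form has a limit at `i∞`,
* `cuspVal N k f : X N → ℂ` the vector of these limits; it is additive, homogeneous, invariant
  under `T`, unchanged by multiplication with a level one form with constant term `1`, and it
  vanishes iff `f` is a cusp form,
* `cuspRank_isBigO_discriminant` : a nice function vanishing at `i∞` is `O(Δ)`.
-/
import Mathlib
import Fermat.Agent.S22.Basic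
import Fermat.Agent.S22.Forms
import Fermat.Agent.S22.Nice
import Fermat.Agent.S20.Defs
import Fermat.Agent.S20.Conj
import Fermat.Agent.S24.CombBasic

set_option autoImplicit false

noncomputable section

namespace Fermat.Agent.S20

open UpperHalfPlane CongruenceSubgroup Matrix.SpecialLinearGroup Filter Topology Function
open scoped MatrixGroups ModularForm Manifold
open Fermat.Agent.S22 (IsMF IsCF G0 G1)

variable {N : ℕ} {k : ℤ} {f g : ℍ → ℂ}

theorem cuspRank_T_zpow_smul (n : ℤ) (x : X N) : (ModularGroup.T ^ ((N : ℤ) * n)) • x = x := by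
  induction x using QuotientGroup.induction_on with
  | H g =>
    rw [Fermat.Agent.S24.Comb.smul_mk, Fermat.Agent.S24.Comb.mk_eq_mk_iff,
      Fermat.Agent.S24.Comb.cross, Fermat.Agent.S24.Comb.T_zpow_mul_apply_zero,
      Fermat.Agent.S24.Comb.T_zpow_mul_apply_one]
    exact ⟨n * g 1 0 * g 1 0, by ring⟩

theorem cuspRank_denom_T_zpow (n : ℤ) (z : ℍ) : denom (ModularGroup.T ^ n : SL(2, ℤ)) z = 1 := by
  rw [ModularGroup.denom_apply, ModularGroup.coe_T_zpow]
  simp

theorem cuspRank_tr_T_zpow_smul (hf : IsMF (G0 N) k f) (x : X N) (n : ℤ) (z : ℍ) :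
    tr N k f x (ModularGroup.T ^ n • z) = tr N k f ((ModularGroup.T ^ n)⁻¹ • x) z := by
  rw [tr_apply_smul hf, cuspRank_denom_T_zpow, one_zpow, one_mul]


theorem cuspRank_periodic (hf : IsMF (G0 N) k f) (x : X N) :
    Function.Periodic (tr N k f x ∘ ofComplex) ((N : ℝ) : ℂ) := by
  intro w
  by_cases hw : 0 < w.im
  · have hw' : 0 < (w + ((N : ℝ) : ℂ)).im := by simpa using hw
    simp only [Function.comp_apply, ofComplex_apply_of_im_pos hw', ofComplex_apply_of_im_pos hw]
    have h1 : (⟨w + ((N : ℝ) : ℂ), hw'⟩ : ℍ) = ModularGroup.T ^ ((N : ℤ) * 1) • ⟨w, hw⟩ := by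
      apply UpperHalfPlane.ext
      rw [ModularGroup.coe_T_zpow_smul_eq]
      simp
    rw [h1, cuspRank_tr_T_zpow_smul hf, ← zpow_neg, ← mul_neg, cuspRank_T_zpow_smul]
  · have hw1 : w.im ≤ 0 := not_lt.mp hw
    have hw2 : (w + ((N : ℝ) : ℂ)).im ≤ 0 := by simpa using hw1
    simp only [Function.comp_apply, ofComplex_apply_of_im_nonpos hw1,
      ofComplex_apply_of_im_nonpos hw2]

theorem cuspRank_tendsto [NeZero N] (hf : IsMF (G0 N) k f) (x : X N) :
    Tendsto (tr N k f x) atImInfty (𝓝 (valueAtInfty (tr N k f x))) := by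
  have hN : (0 : ℝ) < N := by exact_mod_cast Nat.pos_of_ne_zero (NeZero.ne N)
  have hper := cuspRank_periodic hf x
  have hhol : MDiff (tr N k f x) := mdiff_tr (conj_mdiff_of_isMF hf) x
  have hbd := isBoundedAtImInfty_tr hf x
  have han := analyticAt_cuspFunction_zero hN hper hhol hbd
  rw [← cuspFunction_apply_zero hN han hper]
  have h1 : (cuspFunction N (tr N k f x) ∘ fun τ : ℍ => Function.Periodic.qParam N τ)
      = tr N k f x := by
    funext τ
    simpa using eq_cuspFunction τ hN.ne' hper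
  have h2 := han.continuousAt.tendsto.comp (qParam_tendsto_atImInfty hN)
  rwa [h1] at h2

/-- The vector of the values at `i∞` of the translates of `f`. -/
def cuspVal (N : ℕ) (k : ℤ) (f : ℍ → ℂ) : X N → ℂ := fun x => valueAtInfty (tr N k f x)

theorem cuspRank_tendsto_cuspVal [NeZero N] (hf : IsMF (G0 N) k f) (x : X N) :
    Tendsto (tr N k f x) atImInfty (𝓝 (cuspVal N k f x)) :=
  cuspRank_tendsto hf x

theorem cuspVal_eq_of_tendsto {c : ℂ} {x : X N} (h : Tendsto (tr N k f x) atImInfty (𝓝 c)) :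
    cuspVal N k f x = c :=
  h.limUnder_eq

theorem cuspVal_add [NeZero N] (hf : IsMF (G0 N) k f) (hg : IsMF (G0 N) k g) :
    cuspVal N k (f + g) = cuspVal N k f + cuspVal N k g := by
  funext x
  refine cuspVal_eq_of_tendsto ?_
  rw [tr_add]
  exact (cuspRank_tendsto_cuspVal hf x).add (cuspRank_tendsto_cuspVal hg x)

theorem cuspVal_smul [NeZero N] (c : ℂ) (hf : IsMF (G0 N) k f) :
    cuspVal N k (c • f) = c • cuspVal N k f := by
  funext x
  refine cuspVal_eq_of_tendsto ?_
  rw [tr_smul]
  exact (cuspRank_tendsto_cuspVal hf x).const_smul c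

theorem cuspRank_tendsto_T_inv_smul :
    Tendsto (fun z : ℍ => (ModularGroup.T ^ (-1 : ℤ)) • z) atImInfty atImInfty := by
  rw [atImInfty, tendsto_comap_iff]
  have : (UpperHalfPlane.im ∘ fun z : ℍ => (ModularGroup.T ^ (-1 : ℤ)) • z) = UpperHalfPlane.im := by
    funext z
    exact ModularGroup.im_T_zpow_smul z (-1)
  rw [this]
  exact tendsto_comap

theorem cuspVal_T_smul [NeZero N] (hf : IsMF (G0 N) k f) (x : X N) :
    cuspVal N k f (ModularGroup.T • x) = cuspVal N k f x := by
  refine cuspVal_eq_of_tendsto ?_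
  have h1 : tr N k f (ModularGroup.T • x) = fun z => tr N k f x ((ModularGroup.T ^ (-1 : ℤ)) • z) := by
    funext z
    rw [cuspRank_tr_T_zpow_smul hf, zpow_neg, zpow_one, inv_inv]
  rw [h1]
  exact (cuspRank_tendsto_cuspVal hf x).comp cuspRank_tendsto_T_inv_smul


theorem cuspVal_eq_zero_iff [NeZero N] (hf : IsMF (G0 N) k f) :
    cuspVal N k f = 0 ↔ IsCF (G0 N) k f := by
  constructor
  · intro h
    refine isCF_criterion N k f (conj_mdiff_of_isMF hf)
      (fun γ hγ => conj_slash_Gamma0 hf γ hγ) (fun g => ?_)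
    rw [slash_eq_tr hf]
    have h1 := cuspRank_tendsto_cuspVal hf ((g⁻¹ : SL(2, ℤ)) : X N)
    rw [h] at h1
    exact h1
  · intro h
    funext x
    exact cuspVal_eq_of_tendsto (isZeroAtImInfty_tr h x)

/-- A nice function tends to its constant term at `i∞`. -/
theorem cuspRank_tendsto_of_isNice (hf : Fermat.Agent.S22.IsNice f) :
    Tendsto f atImInfty (𝓝 ((qExpansion 1 f).coeff 0)) := by
  have han := hf.analyticAt
  rw [qExpansion_coeff_zero one_pos han hf.per, ← cuspFunction_apply_zero one_pos han hf.per]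
  have h1 : (cuspFunction 1 f ∘ fun τ : ℍ => Function.Periodic.qParam 1 τ) = f := by
    funext τ
    simpa using eq_cuspFunction τ one_ne_zero hf.per
  have h2 := han.continuousAt.tendsto.comp (qParam_tendsto_atImInfty one_pos)
  rwa [h1] at h2

/-- Multiplying by a level one form with constant term `1` does not change the values at the
cusps. -/
theorem cuspVal_levelOne_mul [NeZero N] {a b : ℤ} {e : ℍ → ℂ} (hk : k = a + b)
    (he : IsMF G1 a e) (he1 : (qExpansion 1 e).coeff 0 = 1) (hf : IsMF (G0 N) b f) :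
    cuspVal N k (e * f) = cuspVal N b f := by
  funext x
  refine cuspVal_eq_of_tendsto ?_
  rw [tr_levelOne_mul' hk he]
  have h1 : Tendsto e atImInfty (𝓝 1) := he1 ▸ cuspRank_tendsto_of_isNice he.isNice_G1
  have h2 := h1.mul (cuspRank_tendsto_cuspVal hf x)
  rwa [one_mul] at h2

/-- A nice function vanishing at `i∞` is `O(Δ)`. -/
theorem cuspRank_isBigO_discriminant (hf : Fermat.Agent.S22.IsNice f)
    (h0 : Tendsto f atImInfty (𝓝 0)) :
    f =O[atImInfty] (ModularForm.discriminant : ℍ → ℂ) := by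
  have h1 : f =O[atImInfty] fun τ : ℍ => Real.exp (-2 * Real.pi * τ.im / 1) :=
    UpperHalfPlane.IsZeroAtImInfty.exp_decay_atImInfty h0 one_pos hf.per hf.holo hf.bdd
  have h2 : (fun τ : ℍ => Real.exp (-2 * Real.pi * τ.im / 1)) =O[atImInfty]
      (ModularForm.discriminant : ℍ → ℂ) := by
    simpa using ModularForm.exp_isBigO_discriminant
  exact h1.trans h2

end Fermat.Agent.S20
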