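/-
S20, package (α2), part 2 (owner: helper10): the key duality lemma.

* `cuspPhi N k f t` : the `t`-weighted sum of the translates of `f`; it is nice if `t` is
  `T`-invariant,
* `cuspRank_expansion` : by (LOC), `t = ∑ j, φ_j(z) • G_j(z)` for the dual family `G`,
* `cuspRank_key` : a `T`-invariant vector orthogonal to the cusp values of the frame is `0`,
  if `Δ G → 0` at `i∞`  (hypothesis (α1)).
-/
import Mathlib
import Fermat.Agent.S22.Basic
import Fermat.Agent.S22.Forms
import Fermat.Agent.S22.Nice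
import Fermat.Agent.S20.Defs
import Fermat.Agent.S20.Conj
import Fermat.Agent.S20.DualDefs
import Fermat.Agent.S20.CuspLimit

set_option autoImplicit false

noncomputable section

namespace Fermat.Agent.S20

open UpperHalfPlane CongruenceSubgroup Matrix.SpecialLinearGroup Filter Topology Function
open scoped MatrixGroups ModularForm Manifold
open Fermat.Agent.S22 (IsMF IsCF G0 G1)

variable {N : ℕ} {k : ℤ} {f g : ℍ → ℂ}

/-- The `t`-weighted sum of the translates of `f`. -/
def cuspPhi (N : ℕ) [Fintype (X N)] (k : ℤ) (f : ℍ → ℂ) (t : X N → ℂ) : ℍ → ℂ :=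
  fun z => ∑ x : X N, t x * tr N k f x z

theorem cuspPhi_eq_sum [Fintype (X N)] (t : X N → ℂ) :
    cuspPhi N k f t = ∑ x : X N, (fun _ : ℍ => t x) * tr N k f x := by
  funext z
  simp [cuspPhi]

theorem cuspPhi_T_smul [Fintype (X N)] (hf : IsMF (G0 N) k f) (t : X N → ℂ)
    (ht : ∀ x, t (ModularGroup.T • x) = t x) (z : ℍ) :
    cuspPhi N k f t (ModularGroup.T ^ (1 : ℤ) • z) = cuspPhi N k f t z := by
  unfold cuspPhi
  simp only [cuspRank_tr_T_zpow_smul hf]
  refine Fintype.sum_equiv (MulAction.toPerm ((ModularGroup.T ^ (1 : ℤ))⁻¹ : SL(2, ℤ))) _ _ ?_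
  intro x
  have h1 : t x = t (((ModularGroup.T ^ (1 : ℤ))⁻¹ : SL(2, ℤ)) • x) := by
    have := ht (((ModularGroup.T ^ (1 : ℤ))⁻¹ : SL(2, ℤ)) • x)
    rw [← this, zpow_one, smul_inv_smul]
  rw [h1]
  rfl

theorem cuspPhi_isNice [NeZero N] [Fintype (X N)] (hf : IsMF (G0 N) k f) (t : X N → ℂ)
    (ht : ∀ x, t (ModularGroup.T • x) = t x) : Fermat.Agent.S22.IsNice (cuspPhi N k f t) where
  per := by
    intro w
    by_cases hw : 0 < w.im
    · have hw' : 0 < (w + 1).im := by simpa using hw
      simp only [Function.comp_apply, ofComplex_apply_of_im_pos hw', ofComplex_apply_of_im_pos hw]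
      have h1 : (⟨w + 1, hw'⟩ : ℍ) = ModularGroup.T ^ (1 : ℤ) • ⟨w, hw⟩ := by
        apply UpperHalfPlane.ext
        rw [ModularGroup.coe_T_zpow_smul_eq]
        simp
      rw [h1, cuspPhi_T_smul hf t ht]
    · have hw1 : w.im ≤ 0 := not_lt.mp hw
      have hw2 : (w + 1).im ≤ 0 := by simpa using hw1
      simp only [Function.comp_apply, ofComplex_apply_of_im_nonpos hw1,
        ofComplex_apply_of_im_nonpos hw2]
  holo := by
    rw [cuspPhi_eq_sum]
    exact MDifferentiable.sum fun x _ =>
      (mdifferentiable_const).mul (mdiff_tr (conj_mdiff_of_isMF hf) x)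
  bdd := by
    rw [cuspPhi_eq_sum]
    refine conj_bdd_sum _ _ fun x _ => ?_
    exact (Filter.const_boundedAtFilter _ (t x)).mul (isBoundedAtImInfty_tr hf x)

theorem cuspPhi_tendsto [NeZero N] [Fintype (X N)] (hf : IsMF (G0 N) k f) (t : X N → ℂ) :
    Tendsto (cuspPhi N k f t) atImInfty (𝓝 (∑ x : X N, t x * cuspVal N k f x)) := by
  unfold cuspPhi
  exact tendsto_finsetSum _ fun x _ => (cuspRank_tendsto_cuspVal hf x).const_mul (t x)


/-- By (LOC), every vector `t` is recovered from its pairings with the translates of the frame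
and the dual family. -/
theorem cuspRank_expansion {ι : Type} [Fintype ι] [Fintype (X N)] (w : ι → ℤ)
    (F : ι → ℍ → ℂ) (hF : Frame N w F) (G : ι → X N → ℍ → ℂ) (hG : IsDualFamily N w F G)
    (t : X N → ℂ) (z : ℍ) (x₀ : X N) :
    t x₀ = ∑ j, cuspPhi N (w j) (F j) t z * G j x₀ z := by
  classical
  have hcard : Fintype.card ι = Module.finrank ℂ (X N → ℂ) := by
    rw [Module.finrank_fintype_fun_eq_card, hF.card, Nat.card_eq_fintype_card]
  have hne : Nonempty ι := by
    rw [← Fintype.card_pos_iff, hF.card]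
    have : Nonempty (X N) := ⟨((1 : SL(2, ℤ)) : X N)⟩
    exact Nat.card_pos
  let b := basisOfLinearIndependentOfCardEqFinrank (hF.loc z) hcard
  have hb : ∀ i, b i = vec N (w i) (F i) z := fun i => by
    simp [b]
  let u : X N → ℂ := fun x => ∑ j, cuspPhi N (w j) (F j) t z * G j x z - t x
  let L : (X N → ℂ) →ₗ[ℂ] ℂ := ∑ x, (u x) • LinearMap.proj x
  have hL : ∀ y : X N → ℂ, L y = ∑ x, y x * u x := by
    intro y
    simp [L, mul_comm]
  have hLb : ∀ i, L (b i) = 0 := by
    intro i
    rw [hL, hb]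
    have h1 : ∀ j, ∑ x, tr N (w i) (F i) x z * (cuspPhi N (w j) (F j) t z * G j x z)
        = cuspPhi N (w j) (F j) t z * (if i = j then 1 else 0) := by
      intro j
      have h2 : ∑ x, tr N (w i) (F i) x z * (cuspPhi N (w j) (F j) t z * G j x z)
          = cuspPhi N (w j) (F j) t z * ∑ x, tr N (w i) (F i) x z * G j x z := by
        rw [Finset.mul_sum]
        refine Finset.sum_congr rfl fun x _ => ?_
        ring
      rw [h2]
      by_cases hij : i = j
      · rw [(hG z i j).1 hij, if_pos hij]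
      · rw [(hG z i j).2 hij, if_neg hij]
    simp only [vec, u, mul_sub, Finset.sum_sub_distrib, Finset.mul_sum]
    rw [Finset.sum_comm]
    simp only [h1]
    simp only [mul_ite, mul_one, mul_zero, Finset.sum_ite_eq, Finset.mem_univ, if_true]
    rw [sub_eq_zero]
    unfold cuspPhi
    refine Finset.sum_congr rfl fun x _ => ?_
    ring
  have hL0 : L = 0 := b.ext fun i => by simpa using hLb i
  have h3 : L (Pi.single x₀ 1) = 0 := by rw [hL0]; rfl
  rw [hL] at h3
  simp only [Pi.single_apply, ite_mul, one_mul, zero_mul, Finset.sum_ite_eq', Finset.mem_univ,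
    if_true] at h3
  exact (sub_eq_zero.mp h3).symm

/-- **Key lemma.**  A `T`-invariant vector which is orthogonal to the cusp values of the frame
vanishes, provided the dual family times `Δ` vanishes at `i∞`. -/
theorem cuspRank_key [NeZero N] {ι : Type} [Fintype ι] [Fintype (X N)] (w : ι → ℤ)
    (F : ι → ℍ → ℂ) (hF : Frame N w F) (G : ι → X N → ℍ → ℂ) (hG : IsDualFamily N w F G)
    (hG0 : ∀ j x, IsZeroAtImInfty (fun z => ModularForm.discriminant z * G j x z))
    (t : X N → ℂ) (ht : ∀ x, t (ModularGroup.T • x) = t x)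
    (h0 : ∀ i, ∑ x, t x * cuspVal N (w i) (F i) x = 0) : t = 0 := by
  funext x₀
  have hlim : Tendsto (fun z => ∑ j, cuspPhi N (w j) (F j) t z * G j x₀ z) atImInfty
      (𝓝 0) := by
    have h00 : (0 : ℂ) = ∑ _j : ι, (0 : ℂ) := by simp
    rw [h00]
    refine tendsto_finsetSum _ fun j _ => ?_
    have hnice := cuspPhi_isNice (hF.basis.isMF j) t ht
    have h0' : Tendsto (cuspPhi N (w j) (F j) t) atImInfty (𝓝 0) := by
      have := cuspPhi_tendsto (hF.basis.isMF j) t
      rwa [h0 j] at this
    have hO := cuspRank_isBigO_discriminant hnice h0'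
    have hO2 : (fun z => cuspPhi N (w j) (F j) t z * G j x₀ z) =O[atImInfty]
        (fun z => ModularForm.discriminant z * G j x₀ z) :=
      hO.mul (Asymptotics.isBigO_refl _ _)
    exact hO2.trans_tendsto (hG0 j x₀)
  have heq : (fun z => ∑ j, cuspPhi N (w j) (F j) t z * G j x₀ z) = fun _ => t x₀ := by
    funext z
    exact (cuspRank_expansion w F hF G hG t z x₀).symm
  rw [heq] at hlim
  exact tendsto_nhds_unique tendsto_const_nhds hlim

end Fermat.Agent.S20
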