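/-
S20, package (α2), part 3 (owner: helper10): the standard pairing on the invariant functions
is perfect.
-/
import Mathlib
import Fermat.Agent.S20.Eig

set_option autoImplicit false

noncomputable section

namespace Fermat.Agent.S20

open Module

section Pairing

variable {G X : Type*} [Group G] [MulAction G X] [Fintype X]

/-- The standard bilinear pairing on the `g`-invariant functions. -/
def cuspPair (g : G) : eig_fix (X := X) ℂ g →ₗ[ℂ] eig_fix (X := X) ℂ g →ₗ[ℂ] ℂ :=
  LinearMap.mk₂ ℂ (fun t v => ∑ x, (t : X → ℂ) x * (v : X → ℂ) x)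
    (fun t t' v => by
      simp only [Submodule.coe_add, Pi.add_apply, add_mul, Finset.sum_add_distrib])
    (fun c t v => by
      simp only [Submodule.coe_smul, Pi.smul_apply, smul_eq_mul, Finset.mul_sum, mul_assoc])
    (fun t v v' => by
      simp only [Submodule.coe_add, Pi.add_apply, mul_add, Finset.sum_add_distrib])
    (fun c t v => by
      simp only [Submodule.coe_smul, Pi.smul_apply, smul_eq_mul, Finset.mul_sum]
      refine Finset.sum_congr rfl fun x _ => ?_
      ring)

theorem cuspPair_apply (g : G) (t v : eig_fix (X := X) ℂ g) :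
    cuspPair g t v = ∑ x, (t : X → ℂ) x * (v : X → ℂ) x := rfl

theorem cuspPair_injective (g : G) : Function.Injective (cuspPair (X := X) g) := by
  rw [injective_iff_map_eq_zero]
  intro t ht
  have hstar : (fun x => star ((t : X → ℂ) x)) ∈ eig_fix (X := X) ℂ g := by
    rw [eig_mem_fix]
    intro x
    rw [eig_mem_fix.mp t.2 x]
  have h1 : cuspPair g t ⟨_, hstar⟩ = 0 := by rw [ht]; rfl
  rw [cuspPair_apply] at h1
  have h2 : ∀ x, (t : X → ℂ) x * star ((t : X → ℂ) x) = ((Complex.normSq ((t : X → ℂ) x) : ℝ) : ℂ) :=
    fun x => Complex.mul_conj _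
  simp only [h2] at h1
  have h3 : ∑ x, Complex.normSq ((t : X → ℂ) x) = 0 := by
    have := congrArg Complex.re h1
    simpa using this
  have h4 : ∀ x, Complex.normSq ((t : X → ℂ) x) = 0 := by
    intro x
    exact (Finset.sum_eq_zero_iff_of_nonneg (fun y _ => Complex.normSq_nonneg _)).mp h3 x
      (Finset.mem_univ x)
  apply Subtype.ext
  funext x
  exact Complex.normSq_eq_zero.mp (h4 x)

/-- Every linear functional on the invariant functions is the pairing with an invariant
function. -/
theorem cuspPair_surjective (g : G) : Function.Surjective (cuspPair (X := X) g) := by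
  have hfin : FiniteDimensional ℂ (eig_fix (X := X) ℂ g) := inferInstance
  refine (LinearMap.injective_iff_surjective_of_finrank_eq_finrank ?_).mp (cuspPair_injective g)
  exact (Subspace.dual_finrank_eq).symm

end Pairing

end Fermat.Agent.S20
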