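/-
S20, package (α2) (owner: helper10): `CuspRankStatement N` from (α1) `DualCuspStatement N`.

`finrank M₁₄(Γ₀(N)) = finrank S₁₄(Γ₀(N)) + #(T-orbits on X N)`: the cusp value map
`Λ : M₁₄ → (X N → ℂ)` has kernel the cusp forms, image in the `T`-invariant vectors, and is
onto them by duality (`cuspRank_key`).
-/
import Mathlib
import Fermat.Agent.S22.Basic
import Fermat.Agent.S22.Forms
import Fermat.Agent.S22.Nice
import Fermat.Agent.S20.Defs
import Fermat.Agent.S20.Conj
import Fermat.Agent.S20.DualDefs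
import Fermat.Agent.S20.Gen
import Fermat.Agent.S20.Eig
import Fermat.Agent.S20.LevelOne
import Fermat.Agent.S20.CuspLimit
import Fermat.Agent.S20.CuspKey
import Fermat.Agent.S20.CuspPair

set_option autoImplicit false

noncomputable section

namespace Fermat.Agent.S20

open UpperHalfPlane CongruenceSubgroup Matrix.SpecialLinearGroup Filter Topology Function Module
open scoped MatrixGroups ModularForm Manifold
open Fermat.Agent.S22 (IsMF IsCF G0 G1)

variable {N : ℕ} {k : ℤ} {f g : ℍ → ℂ}

/-- The dual family of a frame exists (pointwise inverse matrix). -/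
theorem cuspRank_exists_dual {ι : Type} [Fintype ι] [Fintype (X N)] (w : ι → ℤ)
    (F : ι → ℍ → ℂ) (hF : Frame N w F) : ∃ G : ι → X N → ℍ → ℂ, IsDualFamily N w F G := by
  classical
  have hcard : Fintype.card ι = Module.finrank ℂ (X N → ℂ) := by
    rw [Module.finrank_fintype_fun_eq_card, hF.card, Nat.card_eq_fintype_card]
  have hne : Nonempty ι := by
    rw [← Fintype.card_pos_iff, hF.card]
    have : Nonempty (X N) := ⟨((1 : SL(2, ℤ)) : X N)⟩
    exact Nat.card_pos
  refine ⟨fun j x z =>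
    (basisOfLinearIndependentOfCardEqFinrank (hF.loc z) hcard).repr (Pi.single x 1) j, ?_⟩
  intro z i j
  set b := basisOfLinearIndependentOfCardEqFinrank (hF.loc z) hcard with hbdef
  have hb : b i = vec N (w i) (F i) z := by simp [b]
  have key : ∑ x, tr N (w i) (F i) x z * b.repr (Pi.single x 1) j = b.repr (b i) j := by
    have h1 : b i = ∑ x, (tr N (w i) (F i) x z) • (Pi.single x (1 : ℂ) : X N → ℂ) := by
      rw [hb]
      funext y
      simp [vec, Finset.sum_apply, Pi.single_apply]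
    conv_rhs => rw [h1]
    simp [map_sum]
  rw [key, b.repr_self]
  constructor
  · intro h
    simp [h]
  · intro h
    simp [h]

/-- Under (α1), the cusp values of the frame span the `T`-invariant vectors. -/
theorem cuspRank_le_span [NeZero N] {ι : Type} [Fintype ι] [Fintype (X N)] (w : ι → ℤ)
    (F : ι → ℍ → ℂ) (hF : Frame N w F) (G : ι → X N → ℍ → ℂ) (hG : IsDualFamily N w F G)
    (hG0 : ∀ j x, IsZeroAtImInfty (fun z => ModularForm.discriminant z * G j x z)) :
    eig_fix (X := X N) ℂ (ModularGroup.T : SL(2, ℤ)) ≤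
      Submodule.span ℂ (Set.range fun i => cuspVal N (w i) (F i)) := by
  set W := eig_fix (X := X N) ℂ (ModularGroup.T : SL(2, ℤ)) with hW
  set R := Submodule.span ℂ (Set.range fun i => cuspVal N (w i) (F i)) with hR
  by_contra hne
  have hR' : R.comap W.subtype < ⊤ := by
    rw [lt_top_iff_ne_top]
    intro htop
    apply hne
    intro v hv
    have : (⟨v, hv⟩ : W) ∈ R.comap W.subtype := by rw [htop]; trivial
    exact this
  obtain ⟨ℓ, hℓ0, hℓ⟩ := Submodule.exists_le_ker_of_lt_top _ hR'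
  obtain ⟨t, ht⟩ := cuspPair_surjective (X := X N) (ModularGroup.T : SL(2, ℤ)) ℓ
  have hmem : ∀ i, cuspVal N (w i) (F i) ∈ W := fun i =>
    eig_mem_fix.mpr (fun x => cuspVal_T_smul (hF.basis.isMF i) x)
  have h0 : ∀ i, ∑ x, (t : X N → ℂ) x * cuspVal N (w i) (F i) x = 0 := by
    intro i
    have h1 : (⟨_, hmem i⟩ : W) ∈ R.comap W.subtype := Submodule.subset_span ⟨i, rfl⟩
    have h2 := hℓ h1
    rw [LinearMap.mem_ker, ← ht, cuspPair_apply] at h2
    exact h2
  have ht0 : (t : X N → ℂ) = 0 := cuspRank_key w F hF G hG hG0 t (eig_mem_fix.mp t.2) h0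
  apply hℓ0
  rw [← ht]
  have : t = 0 := Subtype.ext ht0
  rw [this, map_zero]


/-- The cusp value map on the forms of weight `k`, as a linear map. -/
def cuspValLin (N : ℕ) [NeZero N] (k : ℤ) : MFsub (G0 N) k →ₗ[ℂ] (X N → ℂ) where
  toFun f := cuspVal N k (f : ℍ → ℂ)
  map_add' f g := cuspVal_add (mem_MFsub.mp f.2) (mem_MFsub.mp g.2)
  map_smul' c f := cuspVal_smul c (mem_MFsub.mp f.2)

theorem cuspValLin_apply [NeZero N] (f : MFsub (G0 N) k) :
    cuspValLin N k f = cuspVal N k (f : ℍ → ℂ) := rfl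

theorem cuspRank_ker [NeZero N] :
    LinearMap.ker (cuspValLin N k) = (CFsub (G0 N) k).comap (MFsub (G0 N) k).subtype := by
  ext f
  rw [LinearMap.mem_ker, cuspValLin_apply, cuspVal_eq_zero_iff (mem_MFsub.mp f.2)]
  rfl

theorem cuspRank_range_le [NeZero N] :
    LinearMap.range (cuspValLin N k) ≤ eig_fix (X := X N) ℂ (ModularGroup.T : SL(2, ℤ)) := by
  rintro _ ⟨f, rfl⟩
  exact eig_mem_fix.mpr fun x => cuspVal_T_smul (mem_MFsub.mp f.2) x

/-- (α2) from (α1). -/
theorem cuspRank_of_dualCusp (N : ℕ) [NeZero N] (h1 : DualCuspStatement N) :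
    CuspRankStatement N := by
  intro ι _ w F hF hw
  classical
  let _ : Fintype (X N) := Fintype.ofFinite _
  obtain ⟨G, hG⟩ := cuspRank_exists_dual w F hF
  have hG0 := h1 w F hF G hG
  have hspan := cuspRank_le_span w F hF G hG hG0
  have he : ∀ i, ∃ e : ℍ → ℂ, IsMF G1 (14 - w i) e ∧ (qExpansion 1 e).coeff 0 = 1 := fun i =>
    l1_exists_one_at_infty (14 - w i) (by have := hw i; omega) (by
      obtain ⟨m, hm⟩ := hF.even i
      exact ⟨7 - m, by omega⟩)
  choose e he1 he2 using he
  have hmf : ∀ i, e i * F i ∈ MFsub (G0 N) 14 := fun i =>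
    mem_MFsub.mpr ((((he1 i).restrict_G0 N).mul (hF.basis.isMF i)).cast (by ring))
  have hval : ∀ i, cuspVal N 14 (e i * F i) = cuspVal N (w i) (F i) := fun i =>
    cuspVal_levelOne_mul (by ring) (he1 i) (he2 i) (hF.basis.isMF i)
  have hrange : LinearMap.range (cuspValLin N 14)
      = eig_fix (X := X N) ℂ (ModularGroup.T : SL(2, ℤ)) := by
    refine le_antisymm cuspRank_range_le ?_
    refine hspan.trans ?_
    rw [Submodule.span_le]
    rintro _ ⟨i, rfl⟩
    exact ⟨⟨e i * F i, hmf i⟩, hval i⟩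
  have hfd : FiniteDimensional ℂ (MFsub (G0 N) 14) :=
    haveI := (hF.basis.finrank 14).1
    (mfEquiv (G0 N) 14).finiteDimensional
  have hrn := LinearMap.finrank_range_add_finrank_ker (cuspValLin N 14)
  have hle : CFsub (G0 N) 14 ≤ MFsub (G0 N) 14 := fun f hf => IsCF.isMF hf
  rw [hrange, cuspRank_ker, (Submodule.comapSubtypeEquivOfLe hle).finrank_eq,
    eig_finrank_fix] at hrn
  rw [(mfEquiv (G0 N) 14).finrank_eq, (cfEquiv (G0 N) 14).finrank_eq, ← hrn, orbits]
  exact add_comm _ _

end Fermat.Agent.S20
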