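import Mathlib

/-!
# S20, package CUSP: finite Fourier analysis of a shift family

A *shift family* is a finite family of holomorphic functions `g q : ℍ → ℂ`, bounded at `i∞`,
permuted by `z ↦ z + 1` through a permutation `σ` of the index set with `σ ^ N = 1`.
(Example: the `SL(2,ℤ)`-translates of a modular form of level `Γ₀(N)`.)

We decompose `g q` into its `N` Fourier components `cuspComp μ q` (the part of the
`q^{1/N}`-expansion with exponents `≡ μ mod N`), and show that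
`cuspH μ q = exp(-2πi μ z / N) * cuspComp μ q` is `1`-periodic, holomorphic and bounded at `i∞`
for `μ < N`; its limit is the "principal part" `cuspPP μ q`.
-/

set_option autoImplicit false

noncomputable section

namespace Fermat.Agent.S20

open UpperHalfPlane Filter Asymptotics Complex
open scoped Real Manifold Topology

variable {ι : Type*}

/-- `ζ_N = exp(2πi/N)`. -/
def cuspZeta (N : ℕ) : ℂ := Complex.exp (2 * π * Complex.I / N)

theorem cuspZeta_isPrimitiveRoot (N : ℕ) [NeZero N] : IsPrimitiveRoot (cuspZeta N) N :=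
  Complex.isPrimitiveRoot_exp N (NeZero.ne N)

theorem cuspZeta_pow (N : ℕ) [NeZero N] : cuspZeta N ^ N = 1 :=
  (cuspZeta_isPrimitiveRoot N).pow_eq_one

theorem cuspZeta_ne_zero (N : ℕ) : cuspZeta N ≠ 0 := Complex.exp_ne_zero _

theorem cuspZeta_inv_pow (N : ℕ) [NeZero N] : (cuspZeta N)⁻¹ ^ N = 1 := by
  rw [inv_pow, cuspZeta_pow, inv_one]

/-- orthogonality: `∑_{μ < N} (ζ⁻¹)^(μ t)` is `N` if `t = 0` and `0` if `0 < t < N`. -/
theorem cuspZeta_sum (N : ℕ) [NeZero N] (t : ℕ) (ht : t < N) :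
    ∑ μ ∈ Finset.range N, (cuspZeta N)⁻¹ ^ (μ * t) = if t = 0 then (N : ℂ) else 0 := by
  split_ifs with h0
  · subst h0
    simp
  · have h1 : ∀ μ, (cuspZeta N)⁻¹ ^ (μ * t) = ((cuspZeta N)⁻¹ ^ t) ^ μ := fun μ => by
      rw [← pow_mul, mul_comm]
    simp_rw [h1]
    have hne : (cuspZeta N)⁻¹ ^ t ≠ 1 := by
      intro h
      rw [inv_pow, inv_eq_one] at h
      have := (cuspZeta_isPrimitiveRoot N).dvd_of_pow_eq_one t h
      exact h0 (Nat.eq_zero_of_dvd_of_lt this ht)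
    rw [geom_sum_eq hne, ← pow_mul, mul_comm, pow_mul, cuspZeta_inv_pow, one_pow, sub_self,
      zero_div]

/-- A family of holomorphic functions, bounded at `i∞`, permuted by `z ↦ z + 1`. -/
structure IsShiftFamily (N : ℕ) (σ : Equiv.Perm ι) (g : ι → ℍ → ℂ) : Prop where
  pow_eq : ∀ q, (σ ^ N) q = q
  shift : ∀ q z, g (σ q) z = g q ((1 : ℝ) +ᵥ z)
  holo : ∀ q, MDiff (g q)
  bdd : ∀ q, IsBoundedAtImInfty (g q)

/-- The `μ`-th Fourier component of `g q`. -/
def cuspComp (N : ℕ) (σ : Equiv.Perm ι) (g : ι → ℍ → ℂ) (μ : ℕ) (q : ι) : ℍ → ℂ := fun z =>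
  (N : ℂ)⁻¹ * ∑ t ∈ Finset.range N, (cuspZeta N)⁻¹ ^ (μ * t) * g ((σ ^ t) q) z

/-- the exponential factor `exp (c z)` -/
def cuspExp (c : ℂ) : ℍ → ℂ := fun z => Complex.exp (c * z)

/-- The normalised Fourier component. -/
def cuspH (N : ℕ) (σ : Equiv.Perm ι) (g : ι → ℍ → ℂ) (μ : ℕ) (q : ι) : ℍ → ℂ := fun z =>
  cuspExp (-(2 * π * Complex.I * ((μ : ℝ) / (N : ℝ) : ℝ))) z * cuspComp N σ g μ q z

/-- The principal part. -/
def cuspPP (N : ℕ) (σ : Equiv.Perm ι) (g : ι → ℍ → ℂ) (μ : ℕ) (q : ι) : ℂ :=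
  valueAtInfty (cuspH N σ g μ q)

section algebra

variable {N : ℕ} [NeZero N] {σ : Equiv.Perm ι} {g : ι → ℍ → ℂ}

theorem cuspComp_sum (q : ι) (z : ℍ) :
    ∑ μ ∈ Finset.range N, cuspComp N σ g μ q z = g q z := by
  simp only [cuspComp]
  rw [← Finset.mul_sum, Finset.sum_comm]
  have h1 : ∀ t ∈ Finset.range N,
      ∑ μ ∈ Finset.range N, (cuspZeta N)⁻¹ ^ (μ * t) * g ((σ ^ t) q) z =
        (if t = 0 then (N : ℂ) else 0) * g ((σ ^ t) q) z := by
    intro t ht
    rw [← Finset.sum_mul, cuspZeta_sum N t (Finset.mem_range.mp ht)]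
  rw [Finset.sum_congr rfl h1]
  have hN : (N : ℂ) ≠ 0 := Nat.cast_ne_zero.mpr (NeZero.ne N)
  have h0 : 0 ∈ Finset.range N := Finset.mem_range.mpr (Nat.pos_of_ne_zero (NeZero.ne N))
  rw [Finset.sum_eq_single_of_mem 0 h0 (fun t _ ht => by simp [ht])]
  simp [hN]

omit [NeZero N] in
/-- The basic shift identity for a sum over a full period. -/
theorem cusp_sum_shift (a : ℕ → ℂ) (ha : a N = a 0) :
    ∑ t ∈ Finset.range N, a (t + 1) = ∑ t ∈ Finset.range N, a t := by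
  have h1 := Finset.sum_range_succ a N
  have h2 := Finset.sum_range_succ' a N
  rw [h1] at h2
  rw [ha] at h2
  exact (add_right_cancel h2).symm

theorem cuspComp_perm (hpow : ∀ q, (σ ^ N) q = q) (μ : ℕ) (q : ι) (z : ℍ) :
    cuspComp N σ g μ (σ q) z = cuspZeta N ^ μ * cuspComp N σ g μ q z := by
  simp only [cuspComp]
  have hz : cuspZeta N ≠ 0 := cuspZeta_ne_zero N
  have h1 : ∀ t : ℕ, (cuspZeta N)⁻¹ ^ (μ * t) * g ((σ ^ t) (σ q)) z =
      cuspZeta N ^ μ * ((cuspZeta N)⁻¹ ^ (μ * (t + 1)) * g ((σ ^ (t + 1)) q) z) := by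
    intro t
    have e1 : (σ ^ t) (σ q) = (σ ^ (t + 1)) q := by
      rw [pow_succ, Equiv.Perm.mul_apply]
    have e2 : cuspZeta N ^ μ * (cuspZeta N)⁻¹ ^ (μ * (t + 1)) = (cuspZeta N)⁻¹ ^ (μ * t) := by
      rw [mul_add, mul_one, pow_add, inv_pow, inv_pow]
      field_simp
    rw [e1, ← mul_assoc, e2]
  rw [Finset.sum_congr rfl (fun t _ => h1 t), ← Finset.mul_sum]
  have h2 := cusp_sum_shift (N := N)
    (fun t => (cuspZeta N)⁻¹ ^ (μ * t) * g ((σ ^ t) q) z) (by
      simp only [mul_zero, pow_zero, one_mul]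
      rw [pow_mul', cuspZeta_inv_pow, one_pow, one_mul, hpow q]
      rfl)
  rw [h2]
  ring

end algebra

end Fermat.Agent.S20

namespace Fermat.Agent.S20

open UpperHalfPlane Filter Asymptotics Complex
open scoped Real Manifold Topology

variable {ι : Type*}

/-! ### analytic helpers -/

/-- A function on `ℍ` invariant under `z ↦ 1 + z` gives a `1`-periodic function on `ℂ`. -/
theorem cusp_periodic_comp_ofComplex {f : ℍ → ℂ} (hf : ∀ z : ℍ, f ((1 : ℝ) +ᵥ z) = f z) :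
    Function.Periodic (f ∘ ofComplex) (1 : ℝ) := by
  intro w
  by_cases hw : 0 < im w
  · have h1 : 0 < im (w + (1 : ℝ)) := by simp [hw]
    simp only [Function.comp_apply, ofComplex_apply_of_im_pos h1, ofComplex_apply_of_im_pos hw]
    rw [← hf ⟨w, hw⟩]
    congr 1
    ext
    simp [add_comm]
  · have hw' : im w ≤ 0 := not_lt.mp hw
    have h1 : im (w + ((1 : ℝ) : ℂ)) ≤ 0 := by simpa using hw'
    simp only [Function.comp_apply]
    rw [ofComplex_apply_of_im_nonpos h1, ofComplex_apply_of_im_nonpos hw']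

/-- `z ↦ F z` is holomorphic on `ℍ` for entire `F`. -/
theorem cusp_mdiff_of_differentiable {F : ℂ → ℂ} (hF : Differentiable ℂ F) :
    MDiff (fun z : ℍ => F (z : ℂ)) := by
  rw [UpperHalfPlane.mdifferentiable_iff]
  refine hF.differentiableOn.congr fun w hw => ?_
  simp only [Function.comp_apply]
  rw [ofComplex_apply_of_im_pos hw]

theorem cuspExp_mdiff (c : ℂ) : MDiff (cuspExp c) :=
  cusp_mdiff_of_differentiable (F := fun w => Complex.exp (c * w))
    ((differentiable_id.const_mul c).cexp)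

theorem cuspExp_norm (c : ℂ) (z : ℍ) : ‖cuspExp c z‖ = Real.exp ((c * z).re) := by
  rw [cuspExp, Complex.norm_exp]

theorem cuspExp_mul (c d : ℂ) (z : ℍ) : cuspExp c z * cuspExp d z = cuspExp (c + d) z := by
  simp only [cuspExp]
  rw [← Complex.exp_add]
  ring_nf

theorem cuspExp_ne_zero (c : ℂ) (z : ℍ) : cuspExp c z ≠ 0 := Complex.exp_ne_zero _

theorem cuspExp_zero (z : ℍ) : cuspExp 0 z = 1 := by simp [cuspExp]

/-- for `c = 2πi r`, the norm is `exp(-2π r Im z)`. -/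
theorem cuspExp_norm_two_pi (r : ℝ) (z : ℍ) :
    ‖cuspExp (2 * π * Complex.I * r) z‖ = Real.exp (-2 * π * r * z.im) := by
  rw [cuspExp_norm]
  congr 1
  have : (2 * (π : ℂ) * Complex.I * r * (z : ℂ)) = (((2 * π * r : ℝ) : ℂ) * z) * Complex.I := by
    push_cast; ring
  rw [this, Complex.mul_I_re]
  simp only [Complex.im_ofReal_mul]
  have : (z : ℂ).im = z.im := rfl
  rw [this]
  ring

theorem cuspExp_vadd_one (c : ℂ) (z : ℍ) :
    cuspExp c ((1 : ℝ) +ᵥ z) = Complex.exp c * cuspExp c z := by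
  simp only [cuspExp]
  rw [← Complex.exp_add]
  congr 1
  rw [UpperHalfPlane.coe_vadd]
  push_cast
  ring

/-- `exp(2πi r z) → 0` at `i∞` for `r > 0`. -/
theorem cuspExp_isZeroAtImInfty {r : ℝ} (hr : 0 < r) :
    IsZeroAtImInfty (cuspExp (2 * π * Complex.I * r)) := by
  rw [UpperHalfPlane.isZeroAtImInfty_iff]
  intro ε hε
  have hpos : 0 < 2 * π * r := by positivity
  refine ⟨-Real.log ε / (2 * π * r) + 1, fun z hz => ?_⟩
  rw [cuspExp_norm_two_pi]
  have h1 : -2 * π * r * z.im ≤ Real.log ε - 2 * π * r := by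
    have h2 : (2 * π * r) * (-Real.log ε / (2 * π * r) + 1) ≤ (2 * π * r) * z.im :=
      mul_le_mul_of_nonneg_left hz hpos.le
    have h3 : (2 * π * r) * (-Real.log ε / (2 * π * r) + 1) = -Real.log ε + 2 * π * r := by
      field_simp
    linarith
  calc Real.exp (-2 * π * r * z.im) ≤ Real.exp (Real.log ε - 2 * π * r) := Real.exp_le_exp.mpr h1
    _ ≤ Real.exp (Real.log ε) := Real.exp_le_exp.mpr (by linarith)
    _ = ε := Real.exp_log hε

end Fermat.Agent.S20

namespace Fermat.Agent.S20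

open UpperHalfPlane Filter Asymptotics Complex
open scoped Real Manifold Topology

variable {ι : Type*}

theorem cuspExp_neg_mul (c : ℂ) (z : ℍ) : cuspExp (-c) z * cuspExp c z = 1 := by
  rw [cuspExp_mul, neg_add_cancel, cuspExp_zero]

theorem cuspZeta_pow_eq (N : ℕ) (μ : ℕ) :
    cuspZeta N ^ μ = Complex.exp (2 * π * Complex.I * ((μ : ℝ) / (N : ℝ) : ℝ)) := by
  rw [cuspZeta, ← Complex.exp_nat_mul]
  congr 1
  push_cast
  ring

namespace IsShiftFamily

variable {N : ℕ} [NeZero N] {σ : Equiv.Perm ι} {g : ι → ℍ → ℂ}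

theorem cuspComp_vadd (h : IsShiftFamily N σ g) (μ : ℕ) (q : ι) (z : ℍ) :
    cuspComp N σ g μ q ((1 : ℝ) +ᵥ z) = cuspZeta N ^ μ * cuspComp N σ g μ q z := by
  rw [← cuspComp_perm h.pow_eq]
  simp only [cuspComp]
  congr 1
  refine Finset.sum_congr rfl fun t _ => ?_
  congr 1
  rw [← h.shift]
  congr 1
  rw [← Equiv.Perm.mul_apply, ← Equiv.Perm.mul_apply, ← pow_succ, ← pow_succ']

theorem cuspH_vadd (h : IsShiftFamily N σ g) (μ : ℕ) (q : ι) (z : ℍ) :
    cuspH N σ g μ q ((1 : ℝ) +ᵥ z) = cuspH N σ g μ q z := by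
  simp only [cuspH]
  rw [h.cuspComp_vadd, cuspExp_vadd_one, cuspZeta_pow_eq]
  have : Complex.exp (-(2 * π * Complex.I * ((μ : ℝ) / (N : ℝ) : ℝ))) *
      Complex.exp (2 * π * Complex.I * ((μ : ℝ) / (N : ℝ) : ℝ)) = 1 := by
    rw [← Complex.exp_add, neg_add_cancel, Complex.exp_zero]
  linear_combination (cuspExp (-(2 * π * Complex.I * ((μ : ℝ) / (N : ℝ) : ℝ))) z *
    cuspComp N σ g μ q z) * this

theorem cuspComp_mdiff (h : IsShiftFamily N σ g) (μ : ℕ) (q : ι) :
    MDiff (cuspComp N σ g μ q) := by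
  have : cuspComp N σ g μ q = (N : ℂ)⁻¹ • ∑ t ∈ Finset.range N,
      ((cuspZeta N)⁻¹ ^ (μ * t)) • g ((σ ^ t) q) := by
    ext z
    simp [cuspComp, Finset.sum_apply]
  rw [this]
  have h1 : MDiff (∑ t ∈ Finset.range N, ((cuspZeta N)⁻¹ ^ (μ * t)) • g ((σ ^ t) q)) :=
    MDifferentiable.sum fun t _ => (h.holo _).const_smul _
  exact h1.const_smul _

theorem cuspComp_bdd (h : IsShiftFamily N σ g) (μ : ℕ) (q : ι) :
    IsBoundedAtImInfty (cuspComp N σ g μ q) := by
  have : cuspComp N σ g μ q = (N : ℂ)⁻¹ • ∑ t ∈ Finset.range N,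
      ((cuspZeta N)⁻¹ ^ (μ * t)) • g ((σ ^ t) q) := by
    ext z
    simp [cuspComp, Finset.sum_apply]
  rw [this]
  unfold IsBoundedAtImInfty Filter.BoundedAtFilter
  refine Asymptotics.IsBigO.const_smul_left ?_ _
  refine Asymptotics.IsBigO.sum fun t _ => ?_
  exact Asymptotics.IsBigO.const_smul_left (h.bdd _) _

theorem cuspH_mdiff (h : IsShiftFamily N σ g) (μ : ℕ) (q : ι) :
    MDiff (cuspH N σ g μ q) :=
  (cuspExp_mdiff _).mul (h.cuspComp_mdiff μ q)

end IsShiftFamily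

end Fermat.Agent.S20

namespace Fermat.Agent.S20

open UpperHalfPlane Filter Asymptotics Complex
open scoped Real Manifold Topology

variable {ι : Type*}

/-- zero at `i∞` times bounded at `i∞` is zero at `i∞`. -/
theorem cusp_isZero_mul_isBounded {f g : ℍ → ℂ} (hf : IsZeroAtImInfty f)
    (hg : IsBoundedAtImInfty g) : IsZeroAtImInfty (fun z => f z * g z) := by
  unfold IsZeroAtImInfty Filter.ZeroAtFilter at hf ⊢
  unfold IsBoundedAtImInfty Filter.BoundedAtFilter at hg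
  have h1 : f =o[atImInfty] (1 : ℍ → ℝ) := (Asymptotics.isLittleO_one_iff ℝ).mpr hf
  have h2 := h1.mul_isBigO hg
  have h3 : (fun z => f z * g z) =o[atImInfty] (1 : ℍ → ℝ) := by
    refine h2.congr_right fun z => ?_
    simp
  exact (Asymptotics.isLittleO_one_iff ℝ).mp h3

/-- A `1`-periodic holomorphic function which is `o(exp(2π Im z))` is bounded at `i∞`. -/
theorem cusp_bdd_of_periodic {f : ℍ → ℂ} (hper : ∀ z : ℍ, f ((1 : ℝ) +ᵥ z) = f z)
    (hol : MDiff f)
    (hz : IsZeroAtImInfty (fun z => cuspExp (2 * π * Complex.I * (1 : ℝ)) z * f z)) :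
    IsBoundedAtImInfty f := by
  set H : ℍ → ℂ := fun z => cuspExp (2 * π * Complex.I * (1 : ℝ)) z * f z with hH
  have hHper : ∀ z : ℍ, H ((1 : ℝ) +ᵥ z) = H z := by
    intro z
    simp only [hH]
    rw [cuspExp_vadd_one, hper]
    have : Complex.exp (2 * π * Complex.I * (1 : ℝ)) = 1 := by
      rw [Complex.ofReal_one, mul_one]
      exact Complex.exp_two_pi_mul_I
    rw [this, one_mul]
  have hHol : MDiff H := (cuspExp_mdiff _).mul hol
  have hdec := IsZeroAtImInfty.exp_decay_atImInfty hz one_pos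
    (cusp_periodic_comp_ofComplex hHper) hHol hz.isBoundedAtImInfty
  -- f = exp(-2πi z) H
  have hf : f = fun z => cuspExp (-(2 * π * Complex.I * (1 : ℝ))) z * H z := by
    ext z
    simp only [hH]
    rw [← mul_assoc, cuspExp_neg_mul, one_mul]
  unfold IsBoundedAtImInfty Filter.BoundedAtFilter
  obtain ⟨C, hC⟩ := hdec.bound
  refine Asymptotics.IsBigO.of_bound C ?_
  filter_upwards [hC] with z hz
  rw [hf]
  simp only [norm_mul, Pi.one_apply, norm_one, mul_one]
  have h1 : ‖cuspExp (-(2 * π * Complex.I * (1 : ℝ))) z‖ = Real.exp (2 * π * z.im) := by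
    have : -(2 * (π : ℂ) * Complex.I * (1 : ℝ)) = 2 * π * Complex.I * ((-1 : ℝ) : ℂ) := by
      push_cast; ring
    rw [this, cuspExp_norm_two_pi]
    congr 1
    ring
  rw [h1]
  have h2 : ‖Real.exp (-2 * π * z.im / 1)‖ = Real.exp (-(2 * π * z.im)) := by
    rw [Real.norm_eq_abs, abs_of_pos (Real.exp_pos _)]
    congr 1
    ring
  rw [h2] at hz
  calc Real.exp (2 * π * z.im) * ‖H z‖
      ≤ Real.exp (2 * π * z.im) * (C * Real.exp (-(2 * π * z.im))) :=
        mul_le_mul_of_nonneg_left hz (Real.exp_pos _).le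
    _ = C * (Real.exp (2 * π * z.im) * Real.exp (-(2 * π * z.im))) := by ring
    _ = C := by rw [← Real.exp_add, add_neg_cancel, Real.exp_zero, mul_one]

namespace IsShiftFamily

variable {N : ℕ} [NeZero N] {σ : Equiv.Perm ι} {g : ι → ℍ → ℂ}

theorem cuspH_bdd (h : IsShiftFamily N σ g) {μ : ℕ} (hμ : μ < N) (q : ι) :
    IsBoundedAtImInfty (cuspH N σ g μ q) := by
  refine cusp_bdd_of_periodic (h.cuspH_vadd μ q) (h.cuspH_mdiff μ q) ?_
  have hN : (0 : ℝ) < N := Nat.cast_pos.mpr (Nat.pos_of_ne_zero (NeZero.ne N))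
  have hr : (0 : ℝ) < 1 - (μ : ℝ) / N := by
    rw [sub_pos, div_lt_one hN]
    exact_mod_cast hμ
  have h1 := cusp_isZero_mul_isBounded (cuspExp_isZeroAtImInfty hr) (h.cuspComp_bdd μ q)
  refine h1.congr fun z => ?_   -- functions agree
  simp only [cuspH]
  rw [← mul_assoc, cuspExp_mul]
  congr 2
  push_cast
  ring

theorem cuspH_tendsto (h : IsShiftFamily N σ g) {μ : ℕ} (hμ : μ < N) (q : ι) :
    Tendsto (cuspH N σ g μ q) atImInfty (𝓝 (cuspPP N σ g μ q)) := by
  have hdec := exp_decay_sub_atImInfty one_pos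
    (cusp_periodic_comp_ofComplex (h.cuspH_vadd μ q)) (h.cuspH_mdiff μ q) (h.cuspH_bdd hμ q)
  have h0 : Tendsto (fun τ : ℍ => Real.exp (-2 * π * τ.im / 1)) atImInfty (𝓝 0) := by
    have := cuspExp_isZeroAtImInfty (r := 1) one_pos
    unfold IsZeroAtImInfty Filter.ZeroAtFilter at this
    have h2 := tendsto_zero_iff_norm_tendsto_zero.mp this
    refine h2.congr fun z => ?_
    rw [cuspExp_norm_two_pi]
    congr 1
    ring
  have h1 := hdec.trans_tendsto h0
  have h2 := h1.add_const (cuspPP N σ g μ q)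
  simp only [zero_add] at h2
  refine h2.congr fun z => ?_
  simp [cuspPP]

theorem cuspH_sub_isBigO (h : IsShiftFamily N σ g) {μ : ℕ} (hμ : μ < N) (q : ι) :
    (fun z => cuspH N σ g μ q z - cuspPP N σ g μ q) =O[atImInfty]
      fun z : ℍ => Real.exp (-2 * π * z.im) := by
  have hdec := exp_decay_sub_atImInfty one_pos
    (cusp_periodic_comp_ofComplex (h.cuspH_vadd μ q)) (h.cuspH_mdiff μ q) (h.cuspH_bdd hμ q)
  refine hdec.congr_right fun z => ?_
  rw [div_one]

end IsShiftFamily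

end Fermat.Agent.S20

namespace Fermat.Agent.S20

open UpperHalfPlane Filter Asymptotics Complex
open scoped Real Manifold Topology

variable {ι : Type*}

/-- DFT inversion: a vector killed by the Fourier matrix vanishes. -/
theorem cusp_dft_inj (N : ℕ) [NeZero N] (b : ℕ → ℂ)
    (hb : ∀ t < N, ∑ μ ∈ Finset.range N, cuspZeta N ^ (μ * t) * b μ = 0) :
    ∀ ν < N, b ν = 0 := by
  intro ν hν
  have hz : cuspZeta N ≠ 0 := cuspZeta_ne_zero N
  have hN : (N : ℂ) ≠ 0 := Nat.cast_ne_zero.mpr (NeZero.ne N)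
  have h1 : ∑ t ∈ Finset.range N, (cuspZeta N)⁻¹ ^ (ν * t) *
      ∑ μ ∈ Finset.range N, cuspZeta N ^ (μ * t) * b μ = 0 :=
    Finset.sum_eq_zero fun t ht => by rw [hb t (Finset.mem_range.mp ht), mul_zero]
  simp_rw [Finset.mul_sum] at h1
  rw [Finset.sum_comm] at h1
  have h2 : ∀ μ ∈ Finset.range N,
      ∑ t ∈ Finset.range N, (cuspZeta N)⁻¹ ^ (ν * t) * (cuspZeta N ^ (μ * t) * b μ) =
        (if μ = ν then (N : ℂ) else 0) * b μ := by
    intro μ hμ
    have hμ' := Finset.mem_range.mp hμ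
    have e : ∀ t, (cuspZeta N)⁻¹ ^ (ν * t) * (cuspZeta N ^ (μ * t) * b μ) =
        (cuspZeta N ^ μ * (cuspZeta N)⁻¹ ^ ν) ^ t * b μ := fun t => by
      rw [mul_pow, ← pow_mul, ← pow_mul]
      ring
    simp_rw [e]
    rw [← Finset.sum_mul]
    congr 1
    split_ifs with hμν
    · subst hμν
      have : cuspZeta N ^ μ * (cuspZeta N)⁻¹ ^ μ = 1 := by
        rw [inv_pow]
        exact mul_inv_cancel₀ (pow_ne_zero _ hz)
      rw [this]
      simp
    · have hne : cuspZeta N ^ μ * (cuspZeta N)⁻¹ ^ ν ≠ 1 := by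
        intro h
        rw [inv_pow, mul_inv_eq_one₀ (pow_ne_zero _ hz)] at h
        exact hμν ((cuspZeta_isPrimitiveRoot N).pow_inj hμ' hν h)
      rw [geom_sum_eq hne, mul_pow, ← pow_mul, ← pow_mul, mul_comm μ N, mul_comm ν N, pow_mul,
        pow_mul, cuspZeta_pow, cuspZeta_inv_pow, one_pow, one_pow, mul_one, sub_self, zero_div]
  rw [Finset.sum_congr rfl h2] at h1
  rw [Finset.sum_eq_single_of_mem ν (Finset.mem_range.mpr hν)
    (fun μ _ hμν => by simp [hμν])] at h1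
  simpa [hN] using h1

namespace IsShiftFamily

variable {N : ℕ} [NeZero N] {σ : Equiv.Perm ι} {g : ι → ℍ → ℂ}

omit [NeZero N] in
theorem cuspExp_mul_cuspH (μ : ℕ) (q : ι) (z : ℍ) :
    cuspExp (2 * π * Complex.I * ((μ : ℝ) / (N : ℝ) : ℝ)) z * cuspH N σ g μ q z =
      cuspComp N σ g μ q z := by
  simp only [cuspH]
  rw [← mul_assoc, mul_comm (cuspExp _ z), cuspExp_neg_mul, one_mul]

theorem eq_sum (q : ι) (z : ℍ) :
    g q z = ∑ μ ∈ Finset.range N,
      cuspExp (2 * π * Complex.I * ((μ : ℝ) / (N : ℝ) : ℝ)) z * cuspH N σ g μ q z := by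
  simp_rw [cuspExp_mul_cuspH]
  exact (cuspComp_sum q z).symm

theorem cuspExp_norm_le_one (μ : ℕ) (z : ℍ) :
    ‖cuspExp (2 * π * Complex.I * ((μ : ℝ) / (N : ℝ) : ℝ)) z‖ ≤ 1 := by
  rw [cuspExp_norm_two_pi]
  rw [Real.exp_le_one_iff]
  have h1 : (0 : ℝ) ≤ (μ : ℝ) / N := by positivity
  have h2 : 0 < z.im := z.im_pos
  have := Real.pi_pos
  nlinarith [mul_nonneg h1 h2.le]

/-- If all principal parts of `g q` vanish, then `g q` decays like `exp(-2π Im z)`. -/
theorem isBigO_of_cuspPP_eq_zero (h : IsShiftFamily N σ g) (q : ι)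
    (h0 : ∀ μ < N, cuspPP N σ g μ q = 0) :
    g q =O[atImInfty] fun z : ℍ => Real.exp (-2 * π * z.im) := by
  have h1 : g q = fun z => ∑ μ ∈ Finset.range N,
      cuspExp (2 * π * Complex.I * ((μ : ℝ) / (N : ℝ) : ℝ)) z * cuspH N σ g μ q z := by
    ext z
    exact eq_sum q z
  rw [h1]
  refine Asymptotics.IsBigO.fun_sum fun μ hμ => ?_
  have hμ' := Finset.mem_range.mp hμ
  have h2 := h.cuspH_sub_isBigO hμ' q
  simp only [h0 μ hμ', sub_zero] at h2
  have h3 : (fun z : ℍ => cuspExp (2 * π * Complex.I * ((μ : ℝ) / (N : ℝ) : ℝ)) z) =O[atImInfty]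
      (1 : ℍ → ℝ) :=
    Asymptotics.IsBigO.of_bound 1 (Filter.Eventually.of_forall fun z => by
      simpa using cuspExp_norm_le_one (N := N) μ z)
  have h4 := h3.mul h2
  refine h4.congr_right fun z => ?_
  simp

theorem cuspH_perm (h : IsShiftFamily N σ g) (μ : ℕ) (q : ι) (z : ℍ) :
    cuspH N σ g μ (σ q) z = cuspZeta N ^ μ * cuspH N σ g μ q z := by
  simp only [cuspH]
  rw [cuspComp_perm h.pow_eq]
  ring

theorem cuspPP_perm (h : IsShiftFamily N σ g) {μ : ℕ} (hμ : μ < N) (q : ι) :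
    cuspPP N σ g μ (σ q) = cuspZeta N ^ μ * cuspPP N σ g μ q := by
  have h1 := h.cuspH_tendsto hμ (σ q)
  have h2 := (h.cuspH_tendsto hμ q).const_mul (cuspZeta N ^ μ)
  have h3 : (fun z => cuspZeta N ^ μ * cuspH N σ g μ q z) = cuspH N σ g μ (σ q) := by
    ext z
    rw [h.cuspH_perm]
  rw [h3] at h2
  exact tendsto_nhds_unique h1 h2

theorem cuspPP_perm_pow (h : IsShiftFamily N σ g) {μ : ℕ} (hμ : μ < N) (q : ι) (t : ℕ) :
    cuspPP N σ g μ ((σ ^ t) q) = cuspZeta N ^ (μ * t) * cuspPP N σ g μ q := by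
  induction t with
  | zero => simp
  | succ t ih =>
    rw [pow_succ', Equiv.Perm.mul_apply, h.cuspPP_perm hμ, ih, mul_add, mul_one, pow_add]
    ring

end IsShiftFamily

/-! ### combinations with `1`-periodic coefficients -/

section comb

variable {N : ℕ} {σ : Equiv.Perm ι} {J : Type*}

theorem cuspComp_comb (s : Finset J) (a : J → ℍ → ℂ) (G : J → ι → ℍ → ℂ) (μ : ℕ) (q : ι)
    (z : ℍ) :
    cuspComp N σ (fun q z => ∑ j ∈ s, a j z * G j q z) μ q z =
      ∑ j ∈ s, a j z * cuspComp N σ (G j) μ q z := by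
  simp only [cuspComp]
  simp_rw [Finset.mul_sum]
  rw [Finset.sum_comm]
  refine Finset.sum_congr rfl fun j _ => Finset.sum_congr rfl fun t _ => ?_
  ring

theorem cuspH_comb (s : Finset J) (a : J → ℍ → ℂ) (G : J → ι → ℍ → ℂ) (μ : ℕ) (q : ι)
    (z : ℍ) :
    cuspH N σ (fun q z => ∑ j ∈ s, a j z * G j q z) μ q z =
      ∑ j ∈ s, a j z * cuspH N σ (G j) μ q z := by
  simp only [cuspH]
  rw [cuspComp_comb, Finset.mul_sum]
  refine Finset.sum_congr rfl fun j _ => ?_
  ring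

theorem cuspPP_comb [NeZero N] (s : Finset J) (a : J → ℍ → ℂ) (c : J → ℂ)
    (ha : ∀ j ∈ s, Tendsto (a j) atImInfty (𝓝 (c j)))
    (G : J → ι → ℍ → ℂ) (hG : ∀ j ∈ s, IsShiftFamily N σ (G j)) {μ : ℕ} (hμ : μ < N) (q : ι) :
    cuspPP N σ (fun q z => ∑ j ∈ s, a j z * G j q z) μ q =
      ∑ j ∈ s, c j * cuspPP N σ (G j) μ q := by
  have h1 : Tendsto (cuspH N σ (fun q z => ∑ j ∈ s, a j z * G j q z) μ q) atImInfty
      (𝓝 (∑ j ∈ s, c j * cuspPP N σ (G j) μ q)) := by
    have : cuspH N σ (fun q z => ∑ j ∈ s, a j z * G j q z) μ q =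
        fun z => ∑ j ∈ s, a j z * cuspH N σ (G j) μ q z := by
      ext z
      exact cuspH_comb s a G μ q z
    rw [this]
    exact tendsto_finsetSum _ fun j hj => (ha j hj).mul ((hG j hj).cuspH_tendsto hμ q)
  exact h1.limUnder_eq

end comb

end Fermat.Agent.S20
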