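import Mathlib
import Fermat.Agent.S20.Conj
import Fermat.Agent.S20.CuspFourier

/-!
# S20, package CUSP: the translates of a form of level `Γ₀(N)` are a shift family
-/

set_option autoImplicit false

noncomputable section

namespace Fermat.Agent.S20

open UpperHalfPlane CongruenceSubgroup Matrix.SpecialLinearGroup Filter Asymptotics
open scoped MatrixGroups ModularForm Manifold Topology Real
open Fermat.Agent.S22 (IsMF IsCF G0 G1)

variable {N : ℕ} {k : ℤ} {f : ℍ → ℂ}

/-- the permutation of `X N` induced by `T⁻¹`. -/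
def cuspSigma (N : ℕ) : Equiv.Perm (X N) := MulAction.toPerm (ModularGroup.T⁻¹ : SL(2, ℤ))

theorem cuspSigma_apply (x : X N) : cuspSigma N x = (ModularGroup.T⁻¹ : SL(2, ℤ)) • x := rfl

theorem cuspSigma_pow_apply (t : ℕ) (x : X N) :
    (cuspSigma N ^ t) x = ((ModularGroup.T⁻¹ : SL(2, ℤ)) ^ t) • x := by
  induction t generalizing x with
  | zero => simp
  | succ t ih =>
    rw [pow_succ, Equiv.Perm.mul_apply, ih, cuspSigma_apply, pow_succ, mul_smul]

theorem cusp_T_pow_smul (N : ℕ) (x : X N) :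
    ((ModularGroup.T⁻¹ : SL(2, ℤ)) ^ N) • x = x := by
  induction x using Quotient.inductionOn with
  | _ g =>
    change (((ModularGroup.T⁻¹ : SL(2, ℤ)) ^ N * g : SL(2, ℤ)) : X N) = (g : X N)
    rw [QuotientGroup.eq]
    have h1 : (ModularGroup.T⁻¹ : SL(2, ℤ)) ^ N ∈ Gamma N := by
      have := ModularGroup_T_pow_mem_Gamma (N : ℤ) (-(N : ℤ)) (dvd_neg.mpr dvd_rfl)
      rw [zpow_neg, zpow_natCast, ← inv_pow] at this
      exact this
    have h2 : g⁻¹ * (ModularGroup.T⁻¹ : SL(2, ℤ)) ^ N * g⁻¹⁻¹ ∈ Gamma N :=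
      (Gamma_normal (N := N)).conj_mem _ h1 g⁻¹
    have h3 : ((ModularGroup.T⁻¹ : SL(2, ℤ)) ^ N * g)⁻¹ * g ∈ Gamma N := by
      have h4 := inv_mem h2
      have e : (g⁻¹ * (ModularGroup.T⁻¹ : SL(2, ℤ)) ^ N * g⁻¹⁻¹)⁻¹ =
          ((ModularGroup.T⁻¹ : SL(2, ℤ)) ^ N * g)⁻¹ * g := by group
      rw [e] at h4
      exact h4
    rw [Gamma0_mem]
    exact (Gamma_mem.mp h3).2.2.1

theorem cuspSigma_pow_N (x : X N) : (cuspSigma N ^ N) x = x := by
  rw [cuspSigma_pow_apply, cusp_T_pow_smul]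

theorem cusp_denom_T (z : ℍ) : denom (ModularGroup.T : SL(2, ℤ)) z = 1 := by
  rw [ModularGroup.denom_apply]
  have h10 : (ModularGroup.T : SL(2, ℤ)) 1 0 = 0 := by simp [ModularGroup.T]
  have h11 : (ModularGroup.T : SL(2, ℤ)) 1 1 = 1 := by simp [ModularGroup.T]
  rw [h10, h11]
  simp

/-- The translates of a form of level `Γ₀(N)` form a shift family. -/
theorem cusp_isShiftFamily [NeZero N] (hf : IsMF (G0 N) k f) :
    IsShiftFamily N (cuspSigma N) (tr N k f) where
  pow_eq := cuspSigma_pow_N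
  shift := fun x z => by
    have h := tr_apply_smul hf x ModularGroup.T z
    rw [cusp_denom_T, one_zpow, one_mul, modular_T_smul] at h
    rw [h]
    rfl
  holo := fun x => mdiff_tr (conj_mdiff_of_isMF hf) x
  bdd := fun x => isBoundedAtImInfty_tr hf x

end Fermat.Agent.S20
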