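import Mathlib
import Fermat.Agent.S22.LevelOne
import Fermat.Agent.S20.CuspTranslate

/-!
# S20, package CUSP: the principal parts of a frame form a basis of `ℂ^X`
-/

set_option autoImplicit false

noncomputable section

namespace Fermat.Agent.S20

open UpperHalfPlane CongruenceSubgroup Matrix.SpecialLinearGroup Filter Asymptotics
open scoped MatrixGroups ModularForm Manifold Topology Real
open Fermat.Agent.S22 (IsMF IsCF G0 G1 IsNice)

variable {N : ℕ} {k : ℤ} {f : ℍ → ℂ}

/-- a nice function converges to its value at infinity. -/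
theorem cusp_tendsto_of_isNice {f : ℍ → ℂ} (hf : IsNice f) :
    Tendsto f atImInfty (𝓝 (valueAtInfty f)) := by
  have hanal := hf.analyticAt
  have h1 := cuspFunction_apply_zero one_pos hanal hf.per
  have h2 := (hanal.continuousAt.tendsto.comp (qParam_tendsto_atImInfty one_pos)).congr
    (fun τ => eq_cuspFunction (f := f) τ one_ne_zero hf.per)
  rwa [h1] at h2

theorem cusp_valueAtInfty_eq_coeff {f : ℍ → ℂ} (hf : IsNice f) :
    valueAtInfty f = (qExpansion 1 f).coeff 0 :=
  (qExpansion_coeff_zero one_pos hf.analyticAt hf.per).symm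

/-- For even `m ≥ 4` there is a level one form of weight `m` with value `1` at `i∞`. -/
theorem cusp_exists_eis (m : ℤ) (hm : 4 ≤ m) (hm2 : Even m) :
    ∃ E : ℍ → ℂ, IsMF G1 m E ∧ Tendsto E atImInfty (𝓝 1) := by
  obtain ⟨E, hE, -, h0⟩ := Fermat.Agent.S22.exists_integral_const_one m hm hm2
  refine ⟨E, hE, ?_⟩
  have h := cusp_tendsto_of_isNice hE.isNice_G1
  rwa [cusp_valueAtInfty_eq_coeff hE.isNice_G1, h0] at h

/-- a level one form converges at `i∞`. -/
theorem cusp_tendsto_levelOne {m : ℤ} {h : ℍ → ℂ} (hh : IsMF G1 m h) :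
    Tendsto h atImInfty (𝓝 (valueAtInfty h)) :=
  cusp_tendsto_of_isNice hh.isNice_G1

namespace IsShiftFamily

variable {ι : Type*} {σ : Equiv.Perm ι} {g : ι → ℍ → ℂ} [NeZero N]

/-- the limit of a member of a shift family is its `0`-th principal part. -/
theorem tendsto_cuspPP_zero (h : IsShiftFamily N σ g) (q : ι) :
    Tendsto (g q) atImInfty (𝓝 (cuspPP N σ g 0 q)) := by
  have h1 : g q = fun z => ∑ μ ∈ Finset.range N,
      cuspExp (2 * π * Complex.I * ((μ : ℝ) / (N : ℝ) : ℝ)) z * cuspH N σ g μ q z := by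
    ext z
    exact eq_sum q z
  have hN : 0 < N := Nat.pos_of_ne_zero (NeZero.ne N)
  have h2 : ∀ μ ∈ Finset.range N, Tendsto (fun z =>
      cuspExp (2 * π * Complex.I * ((μ : ℝ) / (N : ℝ) : ℝ)) z * cuspH N σ g μ q z) atImInfty
        (𝓝 (if μ = 0 then cuspPP N σ g 0 q else 0)) := by
    intro μ hμ
    have hμ' := Finset.mem_range.mp hμ
    split_ifs with h0
    · subst h0
      have := h.cuspH_tendsto hN q
      refine this.congr fun z => ?_
      simp [cuspExp]
    · have hpos : (0 : ℝ) < (μ : ℝ) / N := by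
        have : (0 : ℝ) < μ := Nat.cast_pos.mpr (Nat.pos_of_ne_zero h0)
        have : (0 : ℝ) < N := Nat.cast_pos.mpr hN
        positivity
      have hz : IsZeroAtImInfty
          (cuspExp (2 * π * Complex.I * ((μ : ℝ) / (N : ℝ) : ℝ))) := by
        have := cuspExp_isZeroAtImInfty hpos
        exact this
      exact cusp_isZero_mul_isBounded hz (h.cuspH_bdd hμ' q)
  have h3 := tendsto_finsetSum (Finset.range N) h2
  rw [Finset.sum_ite_eq' (Finset.range N) 0 (fun _ => cuspPP N σ g 0 q),
    if_pos (Finset.mem_range.mpr hN)] at h3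
  rw [h1]
  exact h3

end IsShiftFamily

/-- a function which is `O(exp(-2π Im z))` is `O(Δ)`. -/
theorem cusp_bdd_div_discriminant {g : ℍ → ℂ}
    (hg : g =O[atImInfty] fun z : ℍ => Real.exp (-2 * π * z.im)) :
    IsBoundedAtImInfty (fun z => g z / ModularForm.discriminant z) := by
  have h1 : g =O[atImInfty] (ModularForm.discriminant : ℍ → ℂ) :=
    hg.trans ModularForm.exp_isBigO_discriminant
  exact (div_isBoundedUnder_of_isBigO h1).isBigO_one ℝ

/-- (cusp 2) a form all of whose principal parts vanish is divisible by `Δ`. -/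
theorem cusp_exists_div_discriminant [NeZero N] (hf : IsMF (G0 N) k f)
    (h0 : ∀ x : X N, ∀ μ < N, cuspPP N (cuspSigma N) (tr N k f) μ x = 0) :
    ∃ f' : ℍ → ℂ, IsMF (G0 N) (k - 12) f' ∧ f = (ModularForm.discriminant : ℍ → ℂ) * f' := by
  refine keyInfty N k f hf fun x => ?_
  exact cusp_bdd_div_discriminant ((cusp_isShiftFamily hf).isBigO_of_cuspPP_eq_zero x (h0 x))

/-- the total principal part of a form: the vector of the sums of the limits of the normalised
Fourier components of the translates. -/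
def cuspTot (N : ℕ) (k : ℤ) (f : ℍ → ℂ) : X N → ℂ := fun x =>
  ∑ μ ∈ Finset.range N, cuspPP N (cuspSigma N) (tr N k f) μ x

theorem cusp_pp_comb_eq_zero [NeZero N] {ι : Type} [Fintype ι] {w : ι → ℤ} {F : ι → ℍ → ℂ}
    (hF : ∀ i, IsMF (G0 N) (w i) (F i)) (c : ι → ℂ)
    (hc : ∑ i, c i • cuspTot N (w i) (F i) = 0) :
    ∀ μ < N, ∀ x : X N, ∑ i, c i * cuspPP N (cuspSigma N) (tr N (w i) (F i)) μ x = 0 := by
  intro μ hμ x
  refine cusp_dft_inj N
    (fun ν => ∑ i, c i * cuspPP N (cuspSigma N) (tr N (w i) (F i)) ν x) ?_ μ hμ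
  intro t ht
  have h1 := congrFun hc ((cuspSigma N ^ t) x)
  simp only [Finset.sum_apply, Pi.smul_apply, smul_eq_mul, cuspTot, Pi.zero_apply] at h1
  rw [← h1]
  simp_rw [Finset.mul_sum]
  rw [Finset.sum_comm]
  refine Finset.sum_congr rfl fun i _ => Finset.sum_congr rfl fun ν hν => ?_
  rw [(cusp_isShiftFamily (hF i)).cuspPP_perm_pow (Finset.mem_range.mp hν)]
  ring

/-- translates of a combination with level one coefficients. -/
theorem cusp_tr_comb {ι : Type} [Fintype ι] {w : ι → ℤ} (F h : ι → ℍ → ℂ)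
    (hh : ∀ i, IsMF G1 (k - w i) (h i)) :
    tr N k (∑ i, h i * F i) = fun x z => ∑ i, h i z * tr N (w i) (F i) x z := by
  ext x z
  have := congrFun (vec_comb (N := N) (k := k) Finset.univ w F h (fun i _ => hh i) z) x
  simpa [vec] using this

theorem cusp_isMF_comb {ι : Type} [Fintype ι] {w : ι → ℤ} {F h : ι → ℍ → ℂ}
    (hF : ∀ i, IsMF (G0 N) (w i) (F i)) (hh : ∀ i, IsMF G1 (k - w i) (h i)) :
    IsMF (G0 N) k (∑ i, h i * F i) :=
  Fermat.Agent.S22.IsMF.sum _ fun i _ =>
    (((hh i).restrict_G0 N).mul (hF i)).cast (by ring)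

theorem cusp_isCF_discriminant : IsCF G1 12 (ModularForm.discriminant : ℍ → ℂ) :=
  ⟨CuspForm.discriminant, rfl⟩

theorem cusp_isMF_discriminant : IsMF G1 12 (ModularForm.discriminant : ℍ → ℂ) :=
  IsCF.isMF cusp_isCF_discriminant

/-- (cusp 3) the total principal parts of a frame are linearly independent. -/
theorem cusp_tot_linearIndependent [NeZero N] {ι : Type} [Fintype ι] {w : ι → ℤ}
    {F : ι → ℍ → ℂ} (hF : Frame N w F) :
    LinearIndependent ℂ (fun i => cuspTot N (w i) (F i)) := by
  rw [Fintype.linearIndependent_iff]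
  intro c hc
  have hpp := cusp_pp_comb_eq_zero hF.basis.isMF c hc
  set k : ℤ := 4 + ∑ i, w i with hk
  have hkw : ∀ i, 4 ≤ k - w i := by
    intro i
    have : w i ≤ ∑ j, w j :=
      Finset.single_le_sum (f := w) (fun j _ => hF.nonneg j) (Finset.mem_univ i)
    omega
  have hkeven : ∀ i, Even (k - w i) := by
    intro i
    have h1 : Even (∑ j, w j) := Finset.even_sum _ fun j _ => hF.even j
    have h4 : Even (4 : ℤ) := ⟨2, rfl⟩
    exact (h4.add h1).sub (hF.even i)
  choose E hE hE1 using fun i => cusp_exists_eis (k - w i) (hkw i) (hkeven i)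
  have hcE : ∀ i, IsMF G1 (k - w i) (c i • E i) := fun i => (hE i).smul (c i)
  have hfMF : IsMF (G0 N) k (∑ i, (c i • E i) * F i) := cusp_isMF_comb hF.basis.isMF hcE
  have htr := cusp_tr_comb (N := N) (k := k) F (fun i => c i • E i) hcE
  have hpp0 : ∀ x : X N, ∀ μ < N,
      cuspPP N (cuspSigma N) (tr N k (∑ i, (c i • E i) * F i)) μ x = 0 := by
    intro x μ hμ
    rw [htr, cuspPP_comb Finset.univ (fun i => c i • E i) (fun i => c i) ?_
      (fun i => tr N (w i) (F i)) (fun i _ => cusp_isShiftFamily (hF.basis.isMF i)) hμ x]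
    · exact hpp μ hμ x
    · intro i _
      have := (hE1 i).const_mul (c i)
      rw [mul_one] at this
      exact this
  obtain ⟨f', hf', hff'⟩ := cusp_exists_div_discriminant hfMF hpp0
  obtain ⟨s, h', hh', hf's⟩ := hF.basis.span (k - 12) f' hf'
  classical
  have hΔ : IsMF G1 12 (ModularForm.discriminant : ℍ → ℂ) := cusp_isMF_discriminant
  have hd : ∀ i, IsMF G1 (k - w i)
      (c i • E i - if i ∈ s then (ModularForm.discriminant : ℍ → ℂ) * h' i else 0) := by
    intro i
    refine (hcE i).sub ?_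
    split_ifs
    · exact (hΔ.mul (hh' i)).cast (by ring)
    · exact Fermat.Agent.S22.IsMF.zero
  have hsum : ∑ i, (c i • E i - if i ∈ s then (ModularForm.discriminant : ℍ → ℂ) * h' i else 0)
      * F i = 0 := by
    simp_rw [sub_mul]
    rw [Finset.sum_sub_distrib, hff', hf's, Finset.mul_sum]
    simp_rw [ite_mul, zero_mul]
    rw [Finset.sum_ite_mem, Finset.univ_inter]
    simp_rw [mul_assoc]
    exact sub_self _
  have hind := hF.basis.indep k Finset.univ _ (fun i _ => hd i) hsum
  intro i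
  have hi := hind i (Finset.mem_univ i)
  have hlim1 : Tendsto (c i • E i) atImInfty (𝓝 (c i)) := by
    have := (hE1 i).const_mul (c i)
    rw [mul_one] at this
    exact this
  have hlim2 : Tendsto (if i ∈ s then (ModularForm.discriminant : ℍ → ℂ) * h' i else 0)
      atImInfty (𝓝 0) := by
    split_ifs
    · exact cusp_isZero_mul_isBounded ModularForm.discriminant_isZeroAtImInfty
        (hh' i).isNice_G1.bdd
    · exact tendsto_const_nhds
  have heq : c i • E i = if i ∈ s then (ModularForm.discriminant : ℍ → ℂ) * h' i else 0 :=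
    sub_eq_zero.mp hi
  rw [heq] at hlim1
  exact tendsto_nhds_unique hlim1 hlim2

end Fermat.Agent.S20
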