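import Mathlib
import Fermat.Agent.S20.DualDefs
import Fermat.Agent.S20.CuspBasis

/-!
# S20, package CUSP (α1): the dual family of a frame, multiplied by `Δ`, vanishes at `i∞`
-/

set_option autoImplicit false

noncomputable section

namespace Fermat.Agent.S20

open UpperHalfPlane CongruenceSubgroup Matrix.SpecialLinearGroup Filter Asymptotics
open scoped MatrixGroups ModularForm Manifold Topology Real
open Fermat.Agent.S22 (IsMF IsCF G0 G1 IsNice)

/-- the coefficients of the twist: `ρ_t(z) = N⁻¹ ∑_μ exp(-2πi μ z / N) ζ^(-μ t)`. -/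
def dualCuspRho (N : ℕ) (t : ℕ) : ℍ → ℂ := fun z =>
  (N : ℂ)⁻¹ * ∑ μ ∈ Finset.range N,
    cuspExp (-(2 * π * Complex.I * ((μ : ℝ) / (N : ℝ) : ℝ))) z * (cuspZeta N)⁻¹ ^ (μ * t)

/-- the sum of the normalised Fourier components. -/
def dualCuspB {ι : Type*} (N : ℕ) (σ : Equiv.Perm ι) (g : ι → ℍ → ℂ) (q : ι) : ℍ → ℂ := fun z =>
  ∑ μ ∈ Finset.range N, cuspH N σ g μ q z

section basic

variable {ι : Type*} {N : ℕ} {σ : Equiv.Perm ι} {g : ι → ℍ → ℂ}

theorem dualCuspB_eq (q : ι) (z : ℍ) :
    dualCuspB N σ g q z = ∑ t ∈ Finset.range N, dualCuspRho N t z * g ((σ ^ t) q) z := by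
  simp only [dualCuspB, dualCuspRho, cuspH, cuspComp, Finset.mul_sum, Finset.sum_mul]
  rw [Finset.sum_comm]
  refine Finset.sum_congr rfl fun t _ => Finset.sum_congr rfl fun μ _ => ?_
  ring

theorem dualCuspB_tendsto [NeZero N] (h : IsShiftFamily N σ g) (q : ι) :
    Tendsto (dualCuspB N σ g q) atImInfty (𝓝 (∑ μ ∈ Finset.range N, cuspPP N σ g μ q)) := by
  have : dualCuspB N σ g q = fun z => ∑ μ ∈ Finset.range N, cuspH N σ g μ q z := rfl
  rw [this]
  exact tendsto_finsetSum _ fun μ hμ => h.cuspH_tendsto (Finset.mem_range.mp hμ) q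

end basic

/-- `Δ / q` is bounded at `i∞`. -/
theorem dualCusp_discriminant_div_q_bdd :
    IsBoundedAtImInfty
      (fun z => cuspExp (-(2 * π * Complex.I * (1 : ℝ))) z * ModularForm.discriminant z) := by
  have hnice : IsNice (ModularForm.discriminant : ℍ → ℂ) := cusp_isMF_discriminant.isNice_G1
  have hper : ∀ z : ℍ, ModularForm.discriminant ((1 : ℝ) +ᵥ z) = ModularForm.discriminant z := by
    intro z
    have h := hnice.per (z : ℂ)
    simp only [Function.comp_apply] at h
    have h1 : ofComplex ((z : ℂ) + 1) = (1 : ℝ) +ᵥ z := by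
      have hpos : 0 < ((z : ℂ) + 1).im := by simpa using z.im_pos
      rw [ofComplex_apply_of_im_pos hpos]
      ext
      simp [add_comm]
    rw [h1, ofComplex_apply] at h
    exact h
  refine cusp_bdd_of_periodic ?_ ((cuspExp_mdiff _).mul hnice.holo) ?_
  · intro z
    rw [cuspExp_vadd_one, hper]
    have : Complex.exp (-(2 * π * Complex.I * (1 : ℝ))) = 1 := by
      rw [Complex.ofReal_one, mul_one, Complex.exp_neg, Complex.exp_two_pi_mul_I, inv_one]
    rw [this, one_mul]
  · have : (fun z => cuspExp (2 * π * Complex.I * (1 : ℝ)) z *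
        (cuspExp (-(2 * π * Complex.I * (1 : ℝ))) z * ModularForm.discriminant z)) =
        (ModularForm.discriminant : ℍ → ℂ) := by
      ext z
      rw [← mul_assoc, mul_comm (cuspExp _ z), cuspExp_neg_mul, one_mul]
    rw [this]
    exact ModularForm.discriminant_isZeroAtImInfty

/-- `Δ · exp(-2πi r z) → 0` for `r < 1`. -/
theorem dualCusp_discriminant_mul_cuspExp {r : ℝ} (hr : r < 1) :
    IsZeroAtImInfty
      (fun z => ModularForm.discriminant z * cuspExp (-(2 * π * Complex.I * r)) z) := by
  have h1 : IsZeroAtImInfty (cuspExp (2 * π * Complex.I * ((1 - r : ℝ) : ℂ))) :=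
    cuspExp_isZeroAtImInfty (sub_pos.mpr hr)
  have h2 := cusp_isZero_mul_isBounded h1 dualCusp_discriminant_div_q_bdd
  refine h2.congr fun z => ?_
  rw [← mul_assoc, cuspExp_mul, mul_comm]
  congr 2
  push_cast
  ring

theorem dualCuspRho_isZero (N : ℕ) [NeZero N] (t : ℕ) :
    IsZeroAtImInfty (fun z => ModularForm.discriminant z * dualCuspRho N t z) := by
  have hN : (0 : ℝ) < N := Nat.cast_pos.mpr (Nat.pos_of_ne_zero (NeZero.ne N))
  have h1 : ∀ μ ∈ Finset.range N, Tendsto (fun z => (N : ℂ)⁻¹ * (cuspZeta N)⁻¹ ^ (μ * t) *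
      (ModularForm.discriminant z *
        cuspExp (-(2 * π * Complex.I * ((μ : ℝ) / (N : ℝ) : ℝ))) z)) atImInfty (𝓝 0) := by
    intro μ hμ
    have hμ' : ((μ : ℝ) / (N : ℝ)) < 1 := by
      rw [div_lt_one hN]
      exact_mod_cast Finset.mem_range.mp hμ
    have := (dualCusp_discriminant_mul_cuspExp hμ').const_mul ((N : ℂ)⁻¹ * (cuspZeta N)⁻¹ ^ (μ * t))
    rwa [mul_zero] at this
  have h2 := tendsto_finsetSum (Finset.range N) h1
  rw [Finset.sum_const_zero] at h2
  refine h2.congr fun z => ?_
  simp only [dualCuspRho]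
  rw [Finset.mul_sum, Finset.mul_sum]
  refine Finset.sum_congr rfl fun μ _ => ?_
  ring

section main

variable {N : ℕ} [NeZero N] {ι : Type} [Fintype ι] {w : ι → ℤ} {F : ι → ℍ → ℂ}

/-- the vectors of translates of a frame span `ℂ^X`. -/
theorem dualCusp_span_eq_top [Fintype (X N)] (hF : Frame N w F) (z : ℍ) :
    Submodule.span ℂ (Set.range fun i : ι => vec N (w i) (F i) z) = ⊤ := by
  refine (hF.loc z).span_eq_top_of_card_eq_finrank' ?_
  rw [hF.card, Nat.card_eq_fintype_card, Module.finrank_fintype_fun_eq_card]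

/-- uniqueness of the dual family. -/
theorem dualCusp_unique [Fintype (X N)] (hF : Frame N w F) (z : ℍ) (u : X N → ℂ)
    (h : ∀ i, ∑ x : X N, tr N (w i) (F i) x z * u x = 0) : u = 0 := by
  classical
  let φ : (X N → ℂ) →ₗ[ℂ] ℂ := ∑ x : X N, u x • LinearMap.proj x
  have hφ : ∀ v : X N → ℂ, φ v = ∑ x : X N, v x * u x := by
    intro v
    simp only [φ, LinearMap.sum_apply, LinearMap.smul_apply, LinearMap.proj_apply, smul_eq_mul]
    exact Finset.sum_congr rfl fun x _ => mul_comm _ _
  have h0 : φ = 0 := by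
    refine LinearMap.ext_on_range (dualCusp_span_eq_top hF z) fun i => ?_
    rw [hφ, LinearMap.zero_apply]
    exact h i
  ext x
  have := hφ (Pi.single x 1)
  rw [h0, LinearMap.zero_apply] at this
  simp only [Pi.single_apply, ite_mul, one_mul, zero_mul, Finset.sum_ite_eq', Finset.mem_univ,
    if_true] at this
  simpa using this.symm

/-- (α1) -/
theorem dualCusp (N : ℕ) [NeZero N] : DualCuspStatement N := by
  intro ι _ _ w F hF G hG j x
  classical
  have hS : ∀ i, IsShiftFamily N (cuspSigma N) (tr N (w i) (F i)) :=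
    fun i => cusp_isShiftFamily (hF.basis.isMF i)
  have hcard : Fintype.card ι = Fintype.card (X N) := by
    rw [hF.card, Nat.card_eq_fintype_card]
  let e : ι ≃ X N := Fintype.equivOfCardEq hcard
  let M : ℍ → Matrix ι ι ℂ := fun z =>
    Matrix.of fun i i' => dualCuspB N (cuspSigma N) (tr N (w i) (F i)) (e i') z
  let Minf : Matrix ι ι ℂ := Matrix.of fun i i' => cuspTot N (w i) (F i) (e i')
  have hM : Tendsto M atImInfty (𝓝 Minf) := by
    have h1 : Tendsto (fun (z : ℍ) (i i' : ι) => M z i i') atImInfty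
        (𝓝 (fun i i' : ι => Minf i i')) :=
      tendsto_pi_nhds.mpr fun i => tendsto_pi_nhds.mpr fun i' => dualCuspB_tendsto (hS i) (e i')
    exact h1
  have hunit : IsUnit Minf := by
    rw [← Matrix.linearIndependent_rows_iff_isUnit]
    have h1 := cusp_tot_linearIndependent hF
    have h2 := h1.map' (LinearEquiv.funCongrLeft ℂ ℂ e).toLinearMap (LinearEquiv.ker _)
    exact h2
  have hdet : Minf.det ≠ 0 := ((Matrix.isUnit_iff_isUnit_det _).mp hunit).ne_zero
  have hinv : Tendsto (fun z => (M z)⁻¹) atImInfty (𝓝 Minf⁻¹) := by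
    have hc : ContinuousAt Inv.inv Minf := by
      refine continuousAt_matrix_inv Minf ?_
      have : (Ring.inverse : ℂ → ℂ) = Inv.inv := by
        ext a
        exact Ring.inverse_eq_inv a
      rw [this]
      exact continuousAt_inv₀ hdet
    exact hc.tendsto.comp hM
  have hev : ∀ᶠ z in atImInfty, (M z).det ≠ 0 := by
    have h1 : Tendsto (fun z => (M z).det) atImInfty (𝓝 Minf.det) :=
      ((Continuous.matrix_det continuous_id).tendsto Minf).comp hM
    exact h1.eventually_ne hdet
  -- the formula for `G`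
  have hform : ∀ᶠ z in atImInfty, ModularForm.discriminant z * G j x z =
      ∑ t ∈ Finset.range N, (ModularForm.discriminant z * dualCuspRho N t z) *
        (M z)⁻¹ (e.symm ((cuspSigma N ^ t).symm x)) j := by
    filter_upwards [hev] with z hz
    have hMinv : M z * (M z)⁻¹ = 1 := Matrix.mul_nonsing_inv _ (isUnit_iff_ne_zero.mpr hz)
    set c : X N → ℂ := fun y => (M z)⁻¹ (e.symm y) j with hc
    have hBc : ∀ i, ∑ y : X N, dualCuspB N (cuspSigma N) (tr N (w i) (F i)) y z * c y =
        if i = j then 1 else 0 := by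
      intro i
      have h1 := congrFun (congrFun hMinv i) j
      rw [Matrix.mul_apply, Matrix.one_apply] at h1
      rw [← h1]
      refine (Fintype.sum_equiv e _ _ fun i' => ?_).symm
      simp [hc, M]
    set G' : X N → ℂ := fun x' =>
      ∑ t ∈ Finset.range N, dualCuspRho N t z * c ((cuspSigma N ^ t).symm x') with hG'
    have hdual' : ∀ i, ∑ x' : X N, tr N (w i) (F i) x' z * G' x' = if i = j then 1 else 0 := by
      intro i
      rw [← hBc i]
      have hL : ∑ x' : X N, tr N (w i) (F i) x' z * G' x' =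
          ∑ t ∈ Finset.range N, ∑ x' : X N,
            tr N (w i) (F i) x' z * (dualCuspRho N t z * c ((cuspSigma N ^ t).symm x')) := by
        simp only [hG', Finset.mul_sum]
        exact Finset.sum_comm
      have hR : ∑ y : X N, dualCuspB N (cuspSigma N) (tr N (w i) (F i)) y z * c y =
          ∑ t ∈ Finset.range N, ∑ y : X N,
            dualCuspRho N t z * tr N (w i) (F i) ((cuspSigma N ^ t) y) z * c y := by
        simp only [dualCuspB_eq, Finset.sum_mul]
        exact Finset.sum_comm
      rw [hL, hR]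
      refine Finset.sum_congr rfl fun t _ => ?_
      refine Fintype.sum_equiv (cuspSigma N ^ t).symm _ _ fun x' => ?_
      simp only [Equiv.apply_symm_apply]
      ring
    have hu := dualCusp_unique hF z (fun x' => G j x' z - G' x') (fun i => by
      simp only [mul_sub]
      rw [Finset.sum_sub_distrib, hdual' i]
      rcases (hG z i j) with ⟨h1, h2⟩
      by_cases hij : i = j
      · rw [h1 hij, if_pos hij, sub_self]
      · rw [h2 hij, if_neg hij, sub_self])
    have hx := congrFun hu x
    simp only [Pi.zero_apply, sub_eq_zero] at hx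
    rw [hx, hG', Finset.mul_sum]
    refine Finset.sum_congr rfl fun t _ => ?_
    simp only [hc]
    ring
  -- the limit
  have hlim : Tendsto (fun z => ∑ t ∈ Finset.range N,
      (ModularForm.discriminant z * dualCuspRho N t z) *
        (M z)⁻¹ (e.symm ((cuspSigma N ^ t).symm x)) j) atImInfty (𝓝 0) := by
    have h1 : ∀ t ∈ Finset.range N, Tendsto (fun z =>
        (ModularForm.discriminant z * dualCuspRho N t z) *
          (M z)⁻¹ (e.symm ((cuspSigma N ^ t).symm x)) j) atImInfty
        (𝓝 (0 * Minf⁻¹ (e.symm ((cuspSigma N ^ t).symm x)) j)) := by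
      intro t _
      refine (dualCuspRho_isZero N t).mul ?_
      have h2 := (tendsto_pi_nhds.mp hinv) (e.symm ((cuspSigma N ^ t).symm x))
      exact (tendsto_pi_nhds.mp h2) j
    have h3 := tendsto_finsetSum (Finset.range N) h1
    simp only [zero_mul, Finset.sum_const_zero] at h3
    exact h3
  exact hlim.congr' (hform.mono fun z hz => hz.symm)

end main

end Fermat.Agent.S20
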