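/-
S20, package (L2) (helper7): division by a level one form with simple zeros.
-/
import Mathlib
import Fermat.Agent.S24.JOrder
import Fermat.Agent.S20.Defs

set_option autoImplicit false

namespace Fermat.Agent.S20

open UpperHalfPlane hiding I
open Complex Filter Function ModularForm
open scoped Topology Manifold MatrixGroups ModularForm
open Fermat.Agent.S24

/-- Local factorisation: the derivative of `(z - w) • G z` at `w` is `G w`. -/
lemma sz_deriv_of_factor {F G : ℂ → ℂ} {w : ℂ} (hG : AnalyticAt ℂ G w)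
    (hF : ∀ᶠ z in 𝓝 w, F z = (z - w) ^ 1 • G z) : deriv F w = G w := by
  have h1 : HasDerivAt (fun z : ℂ => (z - w) * G z) (1 * G w + (w - w) * deriv G w) w :=
    ((hasDerivAt_id w).sub_const w).mul hG.differentiableAt.hasDerivAt
  have h2 : F =ᶠ[𝓝 w] fun z : ℂ => (z - w) * G z := by
    filter_upwards [hF] with z hz
    simpa using hz
  rw [h2.deriv_eq, h1.deriv]
  simp

/-- A holomorphic function on `ℍ` all of whose zeros are simple divides every holomorphic
function vanishing on its zero set. -/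
theorem sz_div_of_order_one (π : ℍ → ℂ) (hπ : MDiff π)
    (hord : ∀ z : ℍ, π z = 0 → analyticOrderAt (π ∘ ofComplex) (z : ℂ) = 1) :
    DivStatement π := by
  classical
  intro f hf hfz
  refine ⟨fun z => if π z = 0 then
      deriv (f ∘ ofComplex) (z : ℂ) / deriv (π ∘ ofComplex) (z : ℂ) else f z / π z, ?_, ?_⟩
  · rw [UpperHalfPlane.mdifferentiable_iff]
    intro w hw
    apply DifferentiableAt.differentiableWithinAt
    have hw' : 0 < w.im := hw
    have hFa : AnalyticAt ℂ (f ∘ ofComplex) w := anE_analyticAt hf ⟨w, hw'⟩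
    have hPa : AnalyticAt ℂ (π ∘ ofComplex) w := anE_analyticAt hπ ⟨w, hw'⟩
    have hnhds : ∀ᶠ z in 𝓝 w, 0 < z.im := isOpen_upperHalfPlaneSet.mem_nhds hw'
    by_cases h0 : π ⟨w, hw'⟩ = 0
    · have hP1 : analyticOrderAt (π ∘ ofComplex) w = ((1 : ℕ) : ℕ∞) := by
        simpa using hord ⟨w, hw'⟩ h0
      obtain ⟨P₁, hP₁a, hP₁ne, hP₁⟩ := hPa.analyticOrderAt_eq_natCast.mp hP1
      have hF0 : (f ∘ ofComplex) w = 0 := by
        simp only [Function.comp_apply, ofComplex_apply_of_im_pos hw']
        exact hfz _ h0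
      have hF1 : ((1 : ℕ) : ℕ∞) ≤ analyticOrderAt (f ∘ ofComplex) w := by
        have : analyticOrderAt (f ∘ ofComplex) w ≠ 0 := hFa.analyticOrderAt_ne_zero.mpr hF0
        simpa using Order.one_le_iff_ne_zero.mpr this
      obtain ⟨F₁, hF₁a, hF₁⟩ := (natCast_le_analyticOrderAt hFa).mp hF1
      have hP₁ne' : ∀ᶠ z in 𝓝 w, P₁ z ≠ 0 := hP₁a.continuousAt.eventually_ne hP₁ne
      have key : ((fun z : ℍ => if π z = 0 then
          deriv (f ∘ ofComplex) (z : ℂ) / deriv (π ∘ ofComplex) (z : ℂ) else f z / π z) ∘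
            ofComplex) =ᶠ[𝓝 w] fun z => F₁ z / P₁ z := by
        filter_upwards [hnhds, hP₁, hF₁, hP₁ne'] with z hz hPz hFz hPne
        simp only [Function.comp_apply, ofComplex_apply_of_im_pos hz] at hPz hFz ⊢
        simp only [pow_one, smul_eq_mul] at hPz hFz
        by_cases hzw : z = w
        · subst hzw
          have e1 : deriv (f ∘ ofComplex) z = F₁ z := sz_deriv_of_factor hF₁a hF₁
          have e2 : deriv (π ∘ ofComplex) z = P₁ z := sz_deriv_of_factor hP₁a hP₁
          rw [if_pos h0]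
          exact congrArg₂ (· / ·) e1 e2
        · have hsub : z - w ≠ 0 := sub_ne_zero.mpr hzw
          have hπz : π ⟨z, hz⟩ ≠ 0 := by
            rw [hPz]
            exact mul_ne_zero hsub hPne
          rw [if_neg hπz, hPz, hFz]
          field_simp
      exact key.differentiableAt_iff.mpr (hF₁a.div hP₁a hP₁ne).differentiableAt
    · have hPne : (π ∘ ofComplex) w ≠ 0 := by
        simpa only [Function.comp_apply, ofComplex_apply_of_im_pos hw'] using h0
      have hPne' : ∀ᶠ z in 𝓝 w, (π ∘ ofComplex) z ≠ 0 := hPa.continuousAt.eventually_ne hPne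
      have key : ((fun z : ℍ => if π z = 0 then
          deriv (f ∘ ofComplex) (z : ℂ) / deriv (π ∘ ofComplex) (z : ℂ) else f z / π z) ∘
            ofComplex) =ᶠ[𝓝 w] fun z => (f ∘ ofComplex) z / (π ∘ ofComplex) z := by
        filter_upwards [hPne'] with z hz
        simp only [Function.comp_apply] at hz ⊢
        rw [if_neg hz]
      exact key.differentiableAt_iff.mpr (hFa.div hPa hPne).differentiableAt
  · funext z
    simp only [Pi.mul_apply]
    by_cases h0 : π z = 0
    · rw [if_pos h0, h0, zero_mul]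
      exact hfz z h0
    · rw [if_neg h0]
      field_simp

/-- The pencil form `E₄(z₀)³ E₆² - E₆(z₀)² E₄³` in terms of `j`. -/
lemma sz_pencil_eq (z₀ z : ℍ) :
    E₄ z₀ ^ 3 * E₆ z ^ 2 - E₆ z₀ ^ 2 * E₄ z ^ 3 =
      1728 * discriminant z₀ * discriminant z * (jfun z - jfun z₀) := by
  have h0 := discriminant_ne_zero z₀
  have h1 := discriminant_ne_zero z
  have e0 := anE_E₄_cube_sub z₀
  have e1 := anE_E₄_cube_sub z
  simp only [jfun]
  field_simp
  linear_combination (E₄ z ^ 3) * e0 - (E₄ z₀ ^ 3) * e1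

/-- (L2) `E₄`, `E₆` and the generic members of the pencil have only simple zeros. -/
theorem simpleZeros : SimpleZerosStatement := by
  refine ⟨?_, ?_, ?_⟩
  · exact sz_div_of_order_one _ (ModularFormClass.holo E₄) (fun z hz => anE_order_E₄ hz)
  · exact sz_div_of_order_one _ (ModularFormClass.holo E₆) (fun z hz => anE_order_E₆ hz)
  · intro z₀ h4 h6
    have hmd : MDiff (fun z : ℍ => E₄ z₀ ^ 3 * E₆ z ^ 2 - E₆ z₀ ^ 2 * E₄ z ^ 3) :=
      (anE_mdiff_E₆_sq.const_smul (E₄ z₀ ^ 3)).sub (anE_mdiff_E₄_cube.const_smul (E₆ z₀ ^ 2))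
    refine sz_div_of_order_one _ hmd ?_
    intro z hz
    have hz' : jfun z = jfun z₀ := by
      have := sz_pencil_eq z₀ z
      rw [hz] at this
      have h := mul_eq_zero.mp this.symm
      rcases h with h | h
      · exact absurd h (mul_ne_zero (mul_ne_zero (by norm_num) (discriminant_ne_zero z₀))
          (discriminant_ne_zero z))
      · exact sub_eq_zero.mp h
    have hj0 : jfun z ≠ 0 := by
      rw [hz']
      exact fun h => h4 ((jfun_eq_zero_iff z₀).mp h)
    have hj1 : jfun z ≠ 1728 := by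
      rw [hz']
      exact fun h => h6 ((jfun_eq_1728_iff z₀).mp h)
    have hord := anE_order_jfun_of_generic hj0 hj1
    have e : ((fun z : ℍ => E₄ z₀ ^ 3 * E₆ z ^ 2 - E₆ z₀ ^ 2 * E₄ z ^ 3) ∘ ofComplex) =
        (fun w : ℂ => (1728 * discriminant z₀) * discriminant (ofComplex w)) *
          (fun w : ℂ => jfun (ofComplex w) - jfun z) := by
      funext w
      simp only [Function.comp_apply, Pi.mul_apply]
      rw [sz_pencil_eq, hz']
    have ha1 : AnalyticAt ℂ (fun w : ℂ => (1728 * discriminant z₀) * discriminant (ofComplex w))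
        (z : ℂ) := analyticAt_const.mul (anE_analyticAt anE_mdiff_discriminant z)
    have ha2 : AnalyticAt ℂ (fun w : ℂ => jfun (ofComplex w) - jfun z) (z : ℂ) :=
      (anE_analyticAt jfun_mdiff z).sub analyticAt_const
    have ho1 : analyticOrderAt
        (fun w : ℂ => (1728 * discriminant z₀) * discriminant (ofComplex w)) (z : ℂ) = 0 := by
      rw [ha1.analyticOrderAt_eq_zero]
      simp only [ofComplex_apply]
      exact mul_ne_zero (mul_ne_zero (by norm_num) (discriminant_ne_zero z₀))
        (discriminant_ne_zero z)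
    rw [e, analyticOrderAt_mul ha1 ha2, ho1, hord, zero_add]

end Fermat.Agent.S20
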