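import Mathlib
import Fermat.Agent.S22.Basic
import Fermat.Agent.S22.Forms
import Fermat.Agent.S22.Nice
import Fermat.Agent.S22.LevelOne
import Fermat.Agent.S20.Defs
import Fermat.Agent.S20.Conj
import Fermat.Agent.S20.LevelOne
import Fermat.Agent.S20.SimpleZeros

/-!
# S20, package (KEY)

A form of level `Γ₀(N)` all of whose translates vanish at `z₀` is divisible by a level one
form `π` vanishing at `z₀`:

* `π = E₄` if `E₄ z₀ = 0`, `π = E₆` if `E₆ z₀ = 0`, and
  `π = E₄(z₀)³ E₆² - E₆(z₀)² E₄³` otherwise;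
* the power sums `∑ₓ (tr f x) ^ j` are level one forms vanishing at `z₀`, hence (weighted
  homogeneity) on the whole zero set of `π`; so every translate vanishes on the zero set of `π`;
* `π` has simple zeros (package (L2), a hypothesis of `key_of`), so `f / π` is holomorphic; it
  is invariant and all its translates are bounded at `i∞` because `π` has a nonzero limit there.

Main results: `key_core`, `key_of : SimpleZerosStatement → KeyStatement N` and the final
`key : KeyStatement N`.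
-/

set_option autoImplicit false

noncomputable section

namespace Fermat.Agent.S20

open UpperHalfPlane CongruenceSubgroup Matrix.SpecialLinearGroup ModularForm
open scoped MatrixGroups ModularForm Manifold
open Fermat.Agent.S22 (IsMF IsCF G0 G1 isMF_E4 isMF_E6)

/-! ### power sums -/

theorem key_sum_mul_eval {ι : Type*} [Fintype ι] (a : ι → ℂ)
    (h : ∀ j : ℕ, 1 ≤ j → ∑ x, a x ^ j = 0) (R : Polynomial ℂ) :
    ∑ x, a x * R.eval (a x) = 0 := by
  induction R using Polynomial.induction_on' with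
  | add p q hp hq =>
    rw [Finset.sum_congr rfl fun x _ => by rw [Polynomial.eval_add, mul_add],
      Finset.sum_add_distrib, hp, hq, add_zero]
  | monomial n c =>
    simp only [Polynomial.eval_monomial]
    have : ∀ x, a x * (c * a x ^ n) = c * a x ^ (n + 1) := fun x => by ring
    rw [Finset.sum_congr rfl fun x _ => this x, ← Finset.mul_sum, h (n + 1) (by omega), mul_zero]

/-- If all power sums `∑ₓ aₓ ^ j`, `j ≥ 1`, of a finite family of complex numbers vanish, then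
the family is zero. -/
theorem key_powerSum {ι : Type*} [Fintype ι] (a : ι → ℂ)
    (h : ∀ j : ℕ, 1 ≤ j → ∑ x, a x ^ j = 0) (x₀ : ι) : a x₀ = 0 := by
  classical
  by_contra hx₀
  set B : Finset ℂ := Finset.univ.image a
  set R : Polynomial ℂ := ∏ b ∈ B.erase (a x₀), (Polynomial.X - Polynomial.C b)
  have hsum := key_sum_mul_eval a h R
  have hterm : ∀ x, a x * R.eval (a x) = if a x = a x₀ then a x₀ * R.eval (a x₀) else 0 := by
    intro x
    split_ifs with hx
    · rw [hx]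
    · have : R.eval (a x) = 0 := by
        rw [Polynomial.eval_prod]
        apply Finset.prod_eq_zero (i := a x)
        · exact Finset.mem_erase.mpr ⟨hx, Finset.mem_image_of_mem _ (Finset.mem_univ _)⟩
        · simp
      rw [this, mul_zero]
  rw [Finset.sum_congr rfl fun x _ => hterm x] at hsum
  rw [Finset.sum_ite, Finset.sum_const_zero, add_zero, Finset.sum_const, nsmul_eq_mul] at hsum
  have hcard : ((Finset.univ.filter fun x => a x = a x₀).card : ℂ) ≠ 0 := by
    rw [Nat.cast_ne_zero]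
    exact Finset.card_ne_zero.mpr ⟨x₀, by simp⟩
  have hR : R.eval (a x₀) ≠ 0 := by
    rw [Polynomial.eval_prod]
    apply Finset.prod_ne_zero_iff.mpr
    intro b hb
    simp only [Polynomial.eval_sub, Polynomial.eval_X, Polynomial.eval_C]
    exact sub_ne_zero.mpr (Finset.ne_of_mem_erase hb).symm
  exact mul_ne_zero hcard (mul_ne_zero hx₀ hR) hsum

/-! ### limits at `i∞` -/

theorem key_tendsto_E4 : Filter.Tendsto (⇑E₄ : ℍ → ℂ) atImInfty (nhds 1) := by
  have hanal := ModularFormClass.analyticAt_cuspFunction_zero E₄ one_pos one_mem_strictPeriods_SL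
  have h1 : cuspFunction 1 (⇑E₄ : ℍ → ℂ) 0 = 1 := by
    have := EisensteinSeries.E_qExpansion_coeff_zero (k := 4) (by norm_num) ⟨2, rfl⟩
    simpa [qExpansion_coeff] using this
  have := (hanal.continuousAt.tendsto.comp (qParam_tendsto_atImInfty one_pos)).congr
    (fun τ ↦ SlashInvariantFormClass.eq_cuspFunction E₄ τ one_mem_strictPeriods_SL one_ne_zero)
  rwa [h1] at this

theorem key_tendsto_E6 : Filter.Tendsto (⇑E₆ : ℍ → ℂ) atImInfty (nhds 1) := by
  have hanal := ModularFormClass.analyticAt_cuspFunction_zero E₆ one_pos one_mem_strictPeriods_SL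
  have h1 : cuspFunction 1 (⇑E₆ : ℍ → ℂ) 0 = 1 := by
    have := EisensteinSeries.E_qExpansion_coeff_zero (k := 6) (by norm_num) ⟨3, rfl⟩
    simpa [qExpansion_coeff] using this
  have := (hanal.continuousAt.tendsto.comp (qParam_tendsto_atImInfty one_pos)).congr
    (fun τ ↦ SlashInvariantFormClass.eq_cuspFunction E₆ τ one_mem_strictPeriods_SL one_ne_zero)
  rwa [h1] at this

/-! ### the core -/

/-- The core of (KEY): division by a level one form `π` with simple zeros, nonzero limit at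
`i∞`, whose zero set is a single orbit of the weighted scaling. -/
theorem key_core (N : ℕ) [NeZero N] (z₀ : ℍ) (m : ℤ) (π : ℍ → ℂ) (hπ : IsMF G1 m π)
    (hdiv : DivStatement π) (L : ℂ) (hL : L ≠ 0) (hlim : Filter.Tendsto π atImInfty (nhds L))
    (hprop : ∀ z₁, π z₁ = 0 → ∃ μ : ℂ, E₄ z₁ = μ ^ 2 * E₄ z₀ ∧ E₆ z₁ = μ ^ 3 * E₆ z₀)
    (k : ℤ) (f : ℍ → ℂ) (hf : IsMF (G0 N) k f) (hz : ∀ x : X N, tr N k f x z₀ = 0) :
    ∃ f' : ℍ → ℂ, IsMF (G0 N) (k - m) f' ∧ f = π * f' := by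
  classical
  have : Fintype (X N) := Fintype.ofFinite _
  -- trivial weights
  rcases Int.even_or_odd k with hev | hodd
  swap
  · exact ⟨0, IsMF.zero, by rw [eq_zero_of_odd hf hodd]; simp⟩
  rcases lt_or_ge k 0 with hneg | hnn
  · exact ⟨0, IsMF.zero, by rw [eq_zero_of_neg hf hneg]; simp⟩
  obtain ⟨k', hk'⟩ := hev
  have hk'0 : 0 ≤ k' := by omega
  lift k' to ℕ using hk'0
  -- `f` vanishes on the zero set of `π`
  have hvan : ∀ z₁, π z₁ = 0 → f z₁ = 0 := by
    intro z₁ hz₁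
    obtain ⟨μ, h4, h6⟩ := hprop z₁ hz₁
    have hps : ∀ j : ℕ, 1 ≤ j → ∑ x : X N, (tr N k f x z₁) ^ j = 0 := by
      intro j hj
      have hT := trace N (k * j) (f ^ j) (hf.pow j)
      have hT' : IsMF G1 (2 * ((k' * j : ℕ) : ℤ))
          (fun z => ∑ x : X N, tr N (k * j) (f ^ j) x z) :=
        hT.cast (by rw [hk']; push_cast; ring)
      have hsc := l1_scaling (k' * j) _ hT' z₀ z₁ μ h4 h6
      simp only [tr_pow, Pi.pow_apply] at hsc
      rw [hsc]
      have : ∑ x : X N, tr N k f x z₀ ^ j = 0 :=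
        Finset.sum_eq_zero fun x _ => by rw [hz x]; exact zero_pow (by omega)
      rw [this, mul_zero]
    have := key_powerSum (fun x => tr N k f x z₁) hps ((1 : SL(2, ℤ)) : X N)
    rwa [tr_one hf] at this
  have hfd : MDiff f := conj_mdiff_of_isMF hf
  have hπd : MDiff π := conj_mdiff_of_isMF hπ
  obtain ⟨g, hg, hfg⟩ := hdiv f hfd hvan
  -- the translates of `g`
  have hsl : ∀ γ : SL(2, ℤ), f ∣[k] γ = π * (g ∣[k - m] γ) := by
    intro γ
    have h1 : (π * g) ∣[m + (k - m)] γ = (π ∣[m] γ) * (g ∣[k - m] γ) :=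
      ModularForm.mul_slash_SL2 m (k - m) γ π g
    rw [conj_slash_levelOne hπ γ, ← hfg] at h1
    have hk : m + (k - m) = k := by ring
    rw [hk] at h1
    exact h1
  have hπ0 : π ≠ 0 := by
    rintro rfl
    exact hL (tendsto_nhds_unique hlim tendsto_const_nhds)
  refine ⟨g, isMF_criterion N (k - m) g hg ?_ ?_, hfg⟩
  · intro γ hγ
    have h1 := hsl γ
    rw [conj_slash_Gamma0 hf γ hγ] at h1
    have h2 : π * (g ∣[k - m] γ - g) = 0 := by
      rw [mul_sub, ← h1, ← hfg, sub_self]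
    rcases (UpperHalfPlane.mul_eq_zero_iff hπd ((hg.slash (k - m) _).sub hg)).mp h2 with h | h
    · exact absurd h hπ0
    · exact sub_eq_zero.mp h
  · intro h
    have hev : ∀ᶠ z in atImInfty, π z ≠ 0 := hlim.eventually_ne hL
    have hbπ : IsBoundedAtImInfty (fun z => (π z)⁻¹) := (hlim.inv₀ hL).isBigO_one ℝ
    have hb := (isBoundedAtImInfty_slash_of_isMF hf h).mul hbπ
    refine Asymptotics.IsBigO.congr' hb ?_ Filter.EventuallyEq.rfl
    filter_upwards [hev] with z hz0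
    have := congrFun (hsl h) z
    simp only [Pi.mul_apply] at this ⊢
    rw [this]
    field_simp

/-! ### (KEY) -/

/-- (KEY), from (L2). -/
theorem key_of (N : ℕ) [NeZero N] (hSZ : SimpleZerosStatement) : KeyStatement N := by
  intro z₀
  by_cases h4 : E₄ z₀ = 0
  · have h6 : E₆ z₀ ≠ 0 := fun h => l1_not_both_zero z₀ ⟨h4, h⟩
    refine ⟨4, (E₄ : ℍ → ℂ), isMF_E4, h4, fun k f hf hz =>
      key_core N z₀ 4 _ isMF_E4 hSZ.1 1 one_ne_zero key_tendsto_E4 ?_ k f hf hz⟩
    intro z₁ hz₁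
    obtain ⟨μ, hμ⟩ := IsAlgClosed.exists_pow_nat_eq (E₆ z₁ / E₆ z₀) (n := 3) (by norm_num)
    refine ⟨μ, by rw [hz₁, h4, mul_zero], ?_⟩
    rw [hμ]
    field_simp
  by_cases h6 : E₆ z₀ = 0
  · refine ⟨6, (E₆ : ℍ → ℂ), isMF_E6, h6, fun k f hf hz =>
      key_core N z₀ 6 _ isMF_E6 hSZ.2.1 1 one_ne_zero key_tendsto_E6 ?_ k f hf hz⟩
    intro z₁ hz₁
    obtain ⟨μ, hμ⟩ := IsAlgClosed.exists_pow_nat_eq (E₄ z₁ / E₄ z₀) (n := 2) (by norm_num)
    refine ⟨μ, ?_, by rw [hz₁, h6, mul_zero]⟩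
    rw [hμ]
    field_simp
  -- generic case
  set π : ℍ → ℂ := fun z => E₄ z₀ ^ 3 * E₆ z ^ 2 - E₆ z₀ ^ 2 * E₄ z ^ 3 with hπdef
  have hπeq : π = (E₄ z₀ ^ 3) • ((E₆ : ℍ → ℂ) ^ 2) - (E₆ z₀ ^ 2) • ((E₄ : ℍ → ℂ) ^ 3) := by
    ext z
    simp [hπdef]
  have hπ : IsMF G1 12 π := by
    rw [hπeq]
    exact (((isMF_E6.pow 2).cast (by norm_num)).smul _).sub
      (((isMF_E4.pow 3).cast (by norm_num)).smul _)
  have hπz₀ : π z₀ = 0 := by
    simp only [hπdef]
    ring
  have hlim : Filter.Tendsto π atImInfty (nhds (E₄ z₀ ^ 3 * 1 ^ 2 - E₆ z₀ ^ 2 * 1 ^ 3)) :=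
    ((key_tendsto_E6.pow 2).const_mul _).sub ((key_tendsto_E4.pow 3).const_mul _)
  have hL : E₄ z₀ ^ 3 * 1 ^ 2 - E₆ z₀ ^ 2 * 1 ^ 3 ≠ 0 := by
    have := Fermat.Agent.S22.Dfun_ne_zero z₀
    simpa [Fermat.Agent.S22.Dfun] using this
  refine ⟨12, π, hπ, hπz₀, fun k f hf hz =>
    key_core N z₀ 12 π hπ (hSZ.2.2 z₀ h4 h6) _ hL hlim ?_ k f hf hz⟩
  intro z₁ hz₁
  have hrel : E₄ z₀ ^ 3 * E₆ z₁ ^ 2 = E₆ z₀ ^ 2 * E₄ z₁ ^ 3 := sub_eq_zero.mp hz₁
  have h4' : E₄ z₁ ≠ 0 := by
    intro h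
    have h6' : E₆ z₁ = 0 := by
      rw [h] at hrel
      have : E₄ z₀ ^ 3 * E₆ z₁ ^ 2 = 0 := by rw [hrel]; ring
      rcases mul_eq_zero.mp this with h' | h'
      · exact absurd (pow_eq_zero_iff (by norm_num) |>.mp h') h4
      · exact pow_eq_zero_iff (by norm_num) |>.mp h'
    exact l1_not_both_zero z₁ ⟨h, h6'⟩
  refine ⟨(E₆ z₁ / E₆ z₀) / (E₄ z₁ / E₄ z₀), ?_, ?_⟩
  · field_simp
    linear_combination (-1 : ℂ) * hrel
  · field_simp
    linear_combination (-E₆ z₁) * hrel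

/-- (KEY) -/
theorem key (N : ℕ) [NeZero N] : KeyStatement N := key_of N simpleZeros

end Fermat.Agent.S20
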