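import Mathlib
import Fermat.Agent.S20.CuspBasis

/-!
# S20, package CUSP: every `T`-invariant vector is the vector of the values at `i∞` of the
translates of a form of weight `14`
-/

set_option autoImplicit false

noncomputable section

namespace Fermat.Agent.S20

open UpperHalfPlane CongruenceSubgroup Matrix.SpecialLinearGroup Filter Asymptotics
open scoped MatrixGroups ModularForm Manifold Topology Real
open Fermat.Agent.S22 (IsMF IsCF G0 G1 IsNice)

variable {N : ℕ} [NeZero N] {ι : Type} [Fintype ι] {w : ι → ℤ} {F : ι → ℍ → ℂ}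

/-- the total principal parts of a frame span `ℂ^X`. -/
theorem cusp_tot_span_eq_top (hF : Frame N w F) :
    Submodule.span ℂ (Set.range fun i : ι => cuspTot N (w i) (F i)) = ⊤ := by
  have : Fintype (X N) := Fintype.ofFinite (X N)
  refine (cusp_tot_linearIndependent hF).span_eq_top_of_card_eq_finrank' ?_
  rw [hF.card, Nat.card_eq_fintype_card, Module.finrank_fintype_fun_eq_card]

omit [NeZero N] in
theorem cusp_invariant_pow (v : X N → ℂ) (hv : ∀ x, v (ModularGroup.T • x) = v x) (t : ℕ)
    (x : X N) : v ((cuspSigma N ^ t) x) = v x := by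
  induction t with
  | zero => simp
  | succ t ih =>
    rw [pow_succ', Equiv.Perm.mul_apply, cuspSigma_apply]
    have := hv ((ModularGroup.T⁻¹ : SL(2, ℤ)) • (cuspSigma N ^ t) x)
    rw [smul_inv_smul] at this
    rw [← this, ih]

/-- the `0`-th principal parts of a combination of total principal parts which is
`T`-invariant. -/
theorem cusp_pp_zero_of_invariant (hF : ∀ i, IsMF (G0 N) (w i) (F i)) (c : ι → ℂ) (v : X N → ℂ)
    (hv : ∀ x, v (ModularGroup.T • x) = v x)
    (hc : ∑ i, c i • cuspTot N (w i) (F i) = v) (x : X N) :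
    ∑ i, c i * cuspPP N (cuspSigma N) (tr N (w i) (F i)) 0 x = v x := by
  have hN : 0 < N := Nat.pos_of_ne_zero (NeZero.ne N)
  have key := cusp_dft_inj N
    (fun ν => ∑ i, c i * cuspPP N (cuspSigma N) (tr N (w i) (F i)) ν x - if ν = 0 then v x else 0)
    ?_ 0 hN
  · simp only [if_true] at key
    exact sub_eq_zero.mp key
  intro t ht
  have h1 := congrFun hc ((cuspSigma N ^ t) x)
  simp only [Finset.sum_apply, Pi.smul_apply, smul_eq_mul, cuspTot] at h1
  rw [cusp_invariant_pow v hv t x] at h1
  simp only [mul_sub, Finset.sum_sub_distrib, mul_ite, mul_zero]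
  rw [Finset.sum_ite_eq' (Finset.range N) 0, if_pos (Finset.mem_range.mpr hN)]
  simp only [Nat.zero_mul, pow_zero, one_mul]
  rw [sub_eq_zero, ← h1]
  simp_rw [Finset.mul_sum]
  rw [Finset.sum_comm]
  refine Finset.sum_congr rfl fun i _ => Finset.sum_congr rfl fun ν hν => ?_
  rw [(cusp_isShiftFamily (hF i)).cuspPP_perm_pow (Finset.mem_range.mp hν)]
  ring

/-- every `T`-invariant vector is the vector of the limits at `i∞` of the translates of a
form of weight `14`. -/
theorem cusp_surj (N : ℕ) [NeZero N] {ι : Type} [Fintype ι] {w : ι → ℤ} {F : ι → ℍ → ℂ}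
    (hF : Frame N w F) (hw : ∀ i, w i ≤ 10) (v : X N → ℂ)
    (hv : ∀ x, v (ModularGroup.T • x) = v x) :
    ∃ f : ℍ → ℂ, IsMF (G0 N) 14 f ∧ ∀ x : X N, Tendsto (tr N 14 f x) atImInfty (𝓝 (v x)) := by
  have hN : 0 < N := Nat.pos_of_ne_zero (NeZero.ne N)
  have hmem : v ∈ Submodule.span ℂ (Set.range fun i : ι => cuspTot N (w i) (F i)) := by
    rw [cusp_tot_span_eq_top hF]
    exact Submodule.mem_top
  obtain ⟨c, hc⟩ := (Submodule.mem_span_range_iff_exists_fun ℂ).mp hmem
  have hkw : ∀ i, 4 ≤ (14 : ℤ) - w i := fun i => by have := hw i; omega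
  have h14 : Even (14 : ℤ) := ⟨7, rfl⟩
  have hkeven : ∀ i, Even ((14 : ℤ) - w i) := fun i => h14.sub (hF.even i)
  choose E hE hE1 using fun i => cusp_exists_eis (14 - w i) (hkw i) (hkeven i)
  have hcE : ∀ i, IsMF G1 (14 - w i) (c i • E i) := fun i => (hE i).smul (c i)
  have hfMF : IsMF (G0 N) 14 (∑ i, (c i • E i) * F i) := cusp_isMF_comb hF.basis.isMF hcE
  refine ⟨_, hfMF, fun x => ?_⟩
  have h1 := (cusp_isShiftFamily hfMF).tendsto_cuspPP_zero x
  have htr := cusp_tr_comb (N := N) (k := 14) F (fun i => c i • E i) hcE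
  have h2 : cuspPP N (cuspSigma N) (tr N 14 (∑ i, (c i • E i) * F i)) 0 x = v x := by
    rw [htr, cuspPP_comb Finset.univ (fun i => c i • E i) (fun i => c i) ?_
      (fun i => tr N (w i) (F i)) (fun i _ => cusp_isShiftFamily (hF.basis.isMF i)) hN x]
    · exact cusp_pp_zero_of_invariant hF.basis.isMF c v hv hc x
    · intro i _
      have := (hE1 i).const_mul (c i)
      rw [mul_one] at this
      exact this
  rw [h2] at h1
  exact h1

end Fermat.Agent.S20
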